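import Fermat.Agent.MR.PL.Defs

/-!
# MR / PL : basic API (valuations of constants, local data, centred places)
-/

set_option autoImplicit false

namespace Fermat.Agent.MR.PL

open AlgebraicCurve
open Fermat.Agent.RED (Ev)

variable {K F : Type*} [Field K] [Field F] [Algebra K F]

section Gauss

variable {A : ValuationSubring K} {W : ValuationSubring F}

theorem Gauss.val_le_one_iff (h : Gauss A W) (c : K) :
    W.valuation (algebraMap K F c) ≤ 1 ↔ A.valuation c ≤ 1 := by
  rw [ValuationSubring.valuation_le_one_iff, ValuationSubring.valuation_le_one_iff]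
  exact h.const_mem c

theorem Gauss.val_le_iff (h : Gauss A W) (c d : K) :
    W.valuation (algebraMap K F c) ≤ W.valuation (algebraMap K F d) ↔
      A.valuation c ≤ A.valuation d := by
  rcases eq_or_ne d 0 with rfl | hd
  · simp
  have hd' : algebraMap K F d ≠ 0 := by simpa using hd
  have h1 : W.valuation (algebraMap K F d) ≠ 0 := (Valuation.ne_zero_iff _).2 hd'
  have h2 : A.valuation d ≠ 0 := (Valuation.ne_zero_iff _).2 hd
  have := h.val_le_one_iff (c / d)
  rw [map_div₀, map_div₀, map_div₀, div_le_one₀ (zero_lt_iff.2 h1), div_le_one₀ (zero_lt_iff.2 h2)]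
    at this
  exact this

theorem Gauss.val_lt_iff (h : Gauss A W) (c d : K) :
    W.valuation (algebraMap K F c) < W.valuation (algebraMap K F d) ↔
      A.valuation c < A.valuation d := by
  rw [← not_le, ← not_le, h.val_le_iff]

theorem Gauss.val_eq_iff (h : Gauss A W) (c d : K) :
    W.valuation (algebraMap K F c) = W.valuation (algebraMap K F d) ↔
      A.valuation c = A.valuation d := by
  rw [le_antisymm_iff, le_antisymm_iff, h.val_le_iff, h.val_le_iff]

theorem Gauss.val_lt_one_iff (h : Gauss A W) (c : K) :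
    W.valuation (algebraMap K F c) < 1 ↔ A.valuation c < 1 := by
  have := h.val_lt_iff c 1
  simpa using this

theorem Gauss.val_eq_one_iff (h : Gauss A W) (c : K) :
    W.valuation (algebraMap K F c) = 1 ↔ A.valuation c = 1 := by
  have := h.val_eq_iff c 1
  simpa using this

theorem Gauss.const_mem_nonunits_iff (h : Gauss A W) (c : K) :
    algebraMap K F c ∈ W.nonunits ↔ c ∈ A.nonunits := by
  rw [ValuationSubring.mem_nonunits_iff, ValuationSubring.mem_nonunits_iff]
  exact h.val_lt_one_iff c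

/-- every nonzero `x` has the norm of a nonzero constant. -/
theorem Gauss.exists_const (h : Gauss A W) {x : F} (hx : x ≠ 0) :
    ∃ c : K, c ≠ 0 ∧ W.valuation x = W.valuation (algebraMap K F c) := by
  obtain ⟨c, hc, h1, h2⟩ := h.scale x hx
  have hc' : algebraMap K F c ≠ 0 := by simpa using hc
  have h3 : W.valuation (x * algebraMap K F c) = 1 := by
    apply le_antisymm ((ValuationSubring.valuation_le_one_iff _ _).2 h1)
    have := (ValuationSubring.valuation_le_one_iff _ _).2 h2
    rw [map_inv₀] at this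
    exact (inv_le_one₀ (zero_lt_iff.2 ((Valuation.ne_zero_iff _).2 (mul_ne_zero hx hc')))).1 this
  refine ⟨c⁻¹, inv_ne_zero hc, ?_⟩
  rw [map_mul] at h3
  rw [map_inv₀, map_inv₀]
  exact eq_inv_of_mul_eq_one_left h3

theorem val_eq_one_iff_mem {W : ValuationSubring F} {x : F} :
    W.valuation x = 1 ↔ x ∈ W ∧ x ∉ W.nonunits := by
  rw [ValuationSubring.mem_nonunits_iff, ← ValuationSubring.valuation_le_one_iff, not_lt]
  exact le_antisymm_iff

end Gauss

section Loc

variable {A : ValuationSubring K} {W₁ W₂ : ValuationSubring F} {a b : F} {R : Subring F}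
  {n : Set F}

theorem LocData.const_small (L : LocData A W₁ W₂ a b R n) (h : Gauss A W₁) {c : K}
    (hc : c ∈ A.nonunits) : algebraMap K F c ∈ n :=
  L.small₁ _ (L.const_mem c (A.nonunits_subset hc)) ((h.const_mem_nonunits_iff c).2 hc)

theorem LocData.zero_mem (L : LocData A W₁ W₂ a b R n) : (0 : F) ∈ n := by
  have := L.n_mul 0 R.zero_mem a L.a_mem
  rwa [zero_mul] at this

theorem LocData.neg_mem (L : LocData A W₁ W₂ a b R n) {x : F} (hx : x ∈ n) : -x ∈ n := by
  have := L.n_mul (-1) (R.neg_mem R.one_mem) x hx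
  rwa [neg_one_mul] at this

theorem LocData.sub_mem (L : LocData A W₁ W₂ a b R n) {x y : F} (hx : x ∈ n) (hy : y ∈ n) :
    x - y ∈ n := by
  rw [sub_eq_add_neg]; exact L.n_add x hx _ (L.neg_mem hy)

/-- `n` is the set of non-units of `R`. -/
theorem LocData.mem_n_iff (L : LocData A W₁ W₂ a b R n) (x : F) :
    x ∈ n ↔ x ∈ R ∧ (x = 0 ∨ x⁻¹ ∉ R) := by
  constructor
  · intro hx
    refine ⟨L.n_sub x hx, ?_⟩
    by_contra hcon
    push Not at hcon
    have := L.n_mul x⁻¹ hcon.2 x hx
    rw [inv_mul_cancel₀ hcon.1] at this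
    exact L.one_not_mem this
  · rintro ⟨hx, rfl | h⟩
    · exact L.zero_mem
    · by_contra hcon
      exact h (L.inv_mem x hx hcon)

theorem LocData.ne_zero (L : LocData A W₁ W₂ a b R n) {x : F} (hx : x ∉ n) : x ≠ 0 := by
  rintro rfl; exact hx L.zero_mem

theorem LocData.inv_not_mem (L : LocData A W₁ W₂ a b R n) {x : F} (hx : x ∈ R) (hxn : x ∉ n) :
    x⁻¹ ∉ n := by
  intro h
  have := L.n_mul x hx _ h
  rw [mul_inv_cancel₀ (L.ne_zero hxn)] at this
  exact L.one_not_mem this

theorem LocData.mul_not_mem (L : LocData A W₁ W₂ a b R n) {x y : F} (hx : x ∈ R) (hxn : x ∉ n)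
    (hyn : y ∉ n) : x * y ∉ n := by
  intro h
  have := L.n_mul x⁻¹ (L.inv_mem x hx hxn) _ h
  rw [inv_mul_cancel_left₀ (L.ne_zero hxn)] at this
  exact hyn this

theorem LocData.val₁_eq_one (L : LocData A W₁ W₂ a b R n) {x : F} (hx : x ∈ R) (hxn : x ∉ n) :
    W₁.valuation x = 1 :=
  val_eq_one_iff_mem.2 ⟨L.le₁ x hx, fun h => hxn (L.small₁ x hx h)⟩

theorem LocData.val₂_eq_one (L : LocData A W₁ W₂ a b R n) {x : F} (hx : x ∈ R) (hxn : x ∉ n) :
    W₂.valuation x = 1 :=
  val_eq_one_iff_mem.2 ⟨L.le₂ x hx, fun h => hxn (L.small₂ x hx h)⟩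

/-- `1 + n ⊆ Rˣ`. -/
theorem LocData.not_mem_of_sub_one (L : LocData A W₁ W₂ a b R n) {x : F} (hx : x - 1 ∈ n) :
    x ∉ n := by
  intro h
  have := L.sub_mem h hx
  rw [sub_sub_cancel] at this
  exact L.one_not_mem this

theorem PresR.mem_n_iff {g : SemilinearAut K F} (hg : PresR g R) (L : LocData A W₁ W₂ a b R n)
    (x : F) : g • x ∈ n ↔ x ∈ n := by
  rw [L.mem_n_iff, L.mem_n_iff, hg x, smul_eq_zero_iff_eq, ← smul_inv'' g x, hg]

end Loc

section Centred

variable {A : ValuationSubring K} {R : Subring F} {n : Set F} {P : Place K F}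

theorem Centred.ev (h : Centred A R n P) {x : F} (hx : x ∈ R) : Ev P x (val P x) := by
  obtain ⟨c, -, hc, -⟩ := h x hx
  exact ev_val ⟨c, hc⟩

theorem Centred.val_mem (h : Centred A R n P) {x : F} (hx : x ∈ R) : val P x ∈ A := by
  obtain ⟨c, hcA, hc, -⟩ := h x hx
  rw [val_eq hc]; exact hcA

theorem Centred.val_small (h : Centred A R n P) {x : F} (hx : x ∈ R) (hxn : x ∈ n) :
    val P x ∈ A.nonunits := by
  obtain ⟨c, -, hc, hcn⟩ := h x hx
  rw [val_eq hc]; exact hcn hxn

theorem val_const (P : Place K F) (c : K) : val P (algebraMap K F c) = c :=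
  val_eq (Fermat.Agent.RED.ev_const P c)

theorem Centred.evalLike (h : Centred A R n P) (hn : ∀ x ∈ n, x ∈ R) :
    EvalLike A R n (val P) where
  mem _ hx := h.val_mem hx
  small x hx := h.val_small (hn x hx) hx
  add _ hx _ hy := val_eq (Fermat.Agent.RED.ev_add (h.ev hx) (h.ev hy))
  mul _ hx _ hy := val_eq (Fermat.Agent.RED.ev_mul (h.ev hx) (h.ev hy))
  const c _ := val_const P c

end Centred

section Iso

variable {A : ValuationSubring K} {W : ValuationSubring F}

/-- an isometry of `(F, W)` induces an isometry of `(K, A)`. -/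
theorem Gauss.baseAut_iso (h : Gauss A W) {g : SemilinearAut K F}
    (hg : ∀ x : F, W.valuation (g • x) = W.valuation x) (c : K) :
    A.valuation (SemilinearAut.baseAut g c) = A.valuation c := by
  rw [← h.val_eq_iff, ← SemilinearAut.smul_algebraMap, hg]

theorem iso_pow {g : SemilinearAut K F} (hg : ∀ x : F, W.valuation (g • x) = W.valuation x)
    (i : ℕ) (x : F) : W.valuation ((g ^ i) • x) = W.valuation x := by
  induction i with
  | zero => simp
  | succ i ih => rw [pow_succ', mul_smul, hg, ih]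

end Iso

end Fermat.Agent.MR.PL
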