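import Fermat.Agent.RED.EvBasic
import Fermat.Agent.INJ.Defs

/-!
# MR / PL : "Picard-Lefschetz at p", abstract form.  Definitions.

Setting.  `K` a field with a valuation subring `A`; `F / K` a function field; `W₁ = W_∞`, `W₂ = W_0`
two valuation subrings of `F` over `A` ("Gauss norms": every `x ≠ 0` has the norm of a constant).
`a b : F` with `a * b = p`, `|a|₂ = |b|₁ = 1`.

All norm inequalities are written with `W.valuation` and constants, e.g.
`W.valuation (x - 1) < W.valuation (algebraMap K F c)`.  NO residue fields appear.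

A *local datum* `LocData A W₁ W₂ a b R n` is a local subring `R ⊆ W₁ ∩ W₂` of `F` with maximal ideal
`n = (a, b) + 𝔪_A R` and residue field `A / 𝔪_A`:
* a NODE  : `W₁ ≠ W₂`, `a * b = p` (`Setting`), plus `N3`;
* a SMOOTH POINT : `W₁ = W₂ = W`, `a = b = τ` a local parameter, `|τ| = 1`.
A place `P` of `F / K` is *centred* at `(R, n)` if every `x ∈ R` is regular at `P` with value in `A`,
and value in `𝔪_A` for `x ∈ n`.
-/

set_option autoImplicit false

noncomputable section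

namespace Fermat.Agent.MR.PL

open AlgebraicCurve
open Fermat.Agent.RED (Ev)

variable {K F : Type*} [Field K] [Field F] [Algebra K F]

/-- `W` is a valuation subring of `F` over `A`, unramified over `A`. -/
structure Gauss (A : ValuationSubring K) (W : ValuationSubring F) : Prop where
  const_mem : ∀ c : K, algebraMap K F c ∈ W ↔ c ∈ A
  scale : ∀ x : F, x ≠ 0 → ∃ c : K, c ≠ 0 ∧ x * algebraMap K F c ∈ W ∧
    (x * algebraMap K F c)⁻¹ ∈ W

/-- INJ reduction data give a `Gauss` pair. -/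
theorem Gauss.ofRedData {k Fb : Type*} [Field k] [Field Fb] [Algebra k Fb]
    (D : Fermat.Agent.INJ.RedData K F k Fb) : Gauss D.A D.O :=
  ⟨D.mem_iff, D.unram⟩

/-- every place of `F / K` has residue field `K`. -/
def ResK (K F : Type*) [Field K] [Field F] [Algebra K F] : Prop :=
  ∀ (P : Place K F) (x : F), x ∈ P.toValuationSubring → ∃ c : K, Ev P x c

open Classical in
/-- the value of `x` at `P` (junk value `0` if `x` has no value in `K` at `P`). -/
def val (P : Place K F) (x : F) : K := if h : ∃ c, Ev P x c then h.choose else 0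

theorem ev_val {P : Place K F} {x : F} (h : ∃ c, Ev P x c) : Ev P x (val P x) := by
  rw [val, dif_pos h]; exact h.choose_spec

theorem val_eq {P : Place K F} {x : F} {c : K} (h : Ev P x c) : val P x = c :=
  Fermat.Agent.RED.ev_unique (ev_val ⟨c, h⟩) h

/-- `P` is centred at the local ring `(R, n)`. -/
def Centred (A : ValuationSubring K) (R : Subring F) (n : Set F) (P : Place K F) : Prop :=
  ∀ x ∈ R, ∃ c ∈ A, Ev P x c ∧ (x ∈ n → c ∈ A.nonunits)

/-- the subring `A[S]` of `F`. -/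
def adj (A : ValuationSubring K) (S : Set F) : Subring F :=
  Subring.closure ((algebraMap K F) '' (A : Set K) ∪ S)

/-- Local datum (node or smooth point), see the header. -/
structure LocData (A : ValuationSubring K) (W₁ W₂ : ValuationSubring F) (a b : F)
    (R : Subring F) (n : Set F) : Prop where
  n_sub : ∀ x ∈ n, x ∈ R
  n_add : ∀ x ∈ n, ∀ y ∈ n, x + y ∈ n
  n_mul : ∀ x ∈ R, ∀ y ∈ n, x * y ∈ n
  one_not_mem : (1 : F) ∉ n
  inv_mem : ∀ x ∈ R, x ∉ n → x⁻¹ ∈ R
  const_mem : ∀ c ∈ A, algebraMap K F c ∈ R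
  le₁ : ∀ x ∈ R, x ∈ W₁
  le₂ : ∀ x ∈ R, x ∈ W₂
  small₁ : ∀ x ∈ R, x ∈ W₁.nonunits → x ∈ n
  small₂ : ∀ x ∈ R, x ∈ W₂.nonunits → x ∈ n
  /-- residue field `A / 𝔪_A`. -/
  res : ∀ x ∈ R, ∃ c ∈ A, x - algebraMap K F c ∈ n
  a_mem : a ∈ n
  b_mem : b ∈ n
  /-- (N1) `n = (a, b) + 𝔪_A R`. -/
  gen : ∀ x ∈ n, ∃ x₁ ∈ R, ∃ x₂ ∈ R, ∃ x₃ ∈ R, ∃ μ ∈ A.nonunits,
    x = a * x₁ + b * x₂ + algebraMap K F μ * x₃
  /-- (FG) `R` is a localisation of a finitely generated `A`-algebra. -/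
  fg : ∃ S : Finset F, (∀ s ∈ S, s ∈ R) ∧
    ∀ x ∈ R, ∃ y ∈ adj A (S : Set F), ∃ z ∈ adj A (S : Set F), z ∉ n ∧ x * z = y
  /-- (REG) -/
  reg : ∀ x ∈ W₁, x ∈ W₂ → (∀ P : Place K F, Centred A R n P → x ∈ P.toValuationSubring) → x ∈ R
  /-- (SEP) -/
  sep : ∀ P P' : Place K F, Centred A R n P → Centred A R n P' →
    (∀ x ∈ R, val P x = val P' x) → P = P'
  /-- (UNIF) -/
  unif : ∀ P : Place K F, Centred A R n P → ∃ x ∈ R, P.ord (x - algebraMap K F (val P x)) = 1

/-- the global two-norm setting: `a * b = p`. -/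
structure Setting (p : ℕ) (A : ValuationSubring K) (W₁ W₂ : ValuationSubring F) (a b : F) :
    Prop where
  g₁ : Gauss A W₁
  g₂ : Gauss A W₂
  p_ne : (p : K) ≠ 0
  p_small : (p : K) ∈ A.nonunits
  ab : a * b = algebraMap K F (p : K)
  a_unit : W₂.valuation a = 1
  b_unit : W₁.valuation b = 1

/-- (N3) the reduction of `a` at `W₂ = W_0` is a uniformiser of the branch of the node:
every unit of `W₂` is `a ^ k * x / y` modulo `𝔪_{W₂}` with `x y ∈ Rˣ`. -/
def N3 (W₂ : ValuationSubring F) (a : F) (R : Subring F) (n : Set F) : Prop :=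
  ∀ g : F, W₂.valuation g = 1 → ∃ (k : ℤ) (x y : F), x ∈ R ∧ x ∉ n ∧ y ∈ R ∧ y ∉ n ∧
    W₂.valuation (g * y / (a ^ k * x) - 1) < 1

/-- a ring-hom-like function `R → A` which is the identity on `A` and maps `n` to `𝔪_A`. -/
structure EvalLike (A : ValuationSubring K) (R : Subring F) (n : Set F) (φ : F → K) : Prop where
  mem : ∀ x ∈ R, φ x ∈ A
  small : ∀ x ∈ n, φ x ∈ A.nonunits
  add : ∀ x ∈ R, ∀ y ∈ R, φ (x + y) = φ x + φ y
  mul : ∀ x ∈ R, ∀ y ∈ R, φ (x * y) = φ x * φ y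
  const : ∀ c ∈ A, φ (algebraMap K F c) = c

/-- `M_D(a) = ∏_P (a - a(P)) ^ D(P)`. -/
def Mf (a : F) (D : Divisor K F) : F :=
  D.prod fun P k => (a - algebraMap K F (val P a)) ^ k

/-- `Z_D = M_D(0) = ∏_P (- a(P)) ^ D(P)`. -/
def Zc (a : F) (D : Divisor K F) : K :=
  D.prod fun P k => (- val P a) ^ k

/-- total degree (all places have degree one). -/
def dg (D : Divisor K F) : ℤ := D.sum fun _ k => k

open Classical in
/-- the part of the divisor `D` which is centred at `(R, n)`. -/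
def cpart (A : ValuationSubring K) (R : Subring F) (n : Set F) (D : Divisor K F) : Divisor K F :=
  D.filter (Centred A R n)

/-- the semilinear automorphism `g` is an isometry for the two norms and fixes `a`, `b`. -/
structure Pres (g : SemilinearAut K F) (W₁ W₂ : ValuationSubring F) (a b : F) : Prop where
  w₁ : ∀ x : F, W₁.valuation (g • x) = W₁.valuation x
  w₂ : ∀ x : F, W₂.valuation (g • x) = W₂.valuation x
  a_fix : g • a = a
  b_fix : g • b = b

/-- `g` preserves the subring `R`. -/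
def PresR (g : SemilinearAut K F) (R : Subring F) : Prop := ∀ x : F, g • x ∈ R ↔ x ∈ R

/-- norm and trace for the cyclic group generated by `σ` (of order `p` on `F₁`). -/
def Nm (σ : SemilinearAut K F) (p : ℕ) (x : F) : F := ∏ i ∈ Finset.range p, (σ ^ i) • x

def Trc (σ : SemilinearAut K F) (p : ℕ) (x : F) : F := ∑ i ∈ Finset.range p, (σ ^ i) • x

/-- Field data.  `F₁ = F^H ⊇ K₁ = K_t(g₁)`, `σ` a generator of `Gal(K₁ / K_t)` acting on `F₁`
(order `p`), `F_t = F₁^σ` has value group `|w|^ℤ`, `w = 1 - ζ`; `g₁ ^ p = 1 + p a₀`, `a₀` a unit,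
`σ g₁ = ζ g₁`.  Notation in the comments: `dl = g₁ - 1`, `π = w / dl`. -/
structure FieldData (p : ℕ) (A : ValuationSubring K) (W : ValuationSubring F)
    (σ : SemilinearAut K F) (F₁ : Subfield F) (ζ g₁ a₀ : K) : Prop where
  prime : p.Prime
  odd : p ≠ 2
  gauss : Gauss A W
  p_ne : (p : K) ≠ 0
  p_small : (p : K) ∈ A.nonunits
  zeta_pow : ζ ^ p = 1
  zeta_ne : ζ ≠ 1
  g_pow : g₁ ^ p = 1 + (p : K) * a₀
  a_unit : A.valuation a₀ = 1
  sig_zeta : SemilinearAut.baseAut σ ζ = ζ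
  sig_g : SemilinearAut.baseAut σ g₁ = ζ * g₁
  sig_W : ∀ x : F, W.valuation (σ • x) = W.valuation x
  zeta_mem : algebraMap K F ζ ∈ F₁
  g_mem : algebraMap K F g₁ ∈ F₁
  sig_mem : ∀ x ∈ F₁, σ • x ∈ F₁
  sig_pow : ∀ x ∈ F₁, (σ ^ p) • x = x
  vg : ∀ x ∈ F₁, x ≠ 0 → σ • x = x →
    ∃ m : ℤ, W.valuation x = W.valuation (algebraMap K F (1 - ζ)) ^ m

/-- `π = w / dl = (1 - ζ) / (g₁ - 1)`: a uniformiser of `K₁`. -/
def piK (ζ g₁ : K) : K := (1 - ζ) / (g₁ - 1)

/-- OUTPUT SHAPE: `u = c * t ^ k * e * r` with `c` a nonzero constant, `|e - 1| < 1`, `r ∈ Rˣ`.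
(So `rd (u / c) = rd(t) ^ k * rd(r)` and `rd(r)` is a unit at the point.) -/
def Shape (K : Type*) {F : Type*} [Field K] [Field F] [Algebra K F]
    (W : ValuationSubring F) (t : F) (R : Subring F) (n : Set F) (u : F) (k : ℤ) : Prop :=
  ∃ (c : K) (e r : F), c ≠ 0 ∧ W.valuation (e - 1) < 1 ∧ r ∈ R ∧ r ∉ n ∧
    u = algebraMap K F c * t ^ k * e * r

end Fermat.Agent.MR.PL
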