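import Fermat.Agent.MR.PL.Interface

/-!
# MR / PL : rebasing `F₁ = ⊕ F_t dl^j` (`Stmt_Dec`)
-/

set_option autoImplicit false

namespace Fermat.Agent.MR.PL

open AlgebraicCurve

/-- pure algebra: rebasing from powers of `1 + d` to powers of `d`. -/
theorem DEC_rebase {F : Type*} [CommRing F] (p : ℕ) (c : ℕ → F) (d : F) :
    ∑ j ∈ Finset.range p, c j * (d + 1) ^ j =
      ∑ i ∈ Finset.range p, (∑ j ∈ Finset.range p, (j.choose i : F) * c j) * d ^ i := by
  have h1 : ∀ j ∈ Finset.range p, c j * (d + 1) ^ j =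
      ∑ i ∈ Finset.range p, (j.choose i : F) * c j * d ^ i := by
    intro j hj
    rw [add_pow, Finset.mul_sum]
    have hsub : Finset.range (j + 1) ⊆ Finset.range p := by
      intro i hi
      rw [Finset.mem_range] at hi hj ⊢
      omega
    rw [← Finset.sum_subset hsub]
    · refine Finset.sum_congr rfl fun i _ => ?_
      rw [one_pow]
      ring
    · intro i _ hi
      rw [Finset.mem_range, not_lt] at hi
      rw [Nat.choose_eq_zero_of_lt (by omega), Nat.cast_zero, zero_mul, zero_mul]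
  rw [Finset.sum_congr rfl h1, Finset.sum_comm]
  refine Finset.sum_congr rfl fun i _ => ?_
  rw [Finset.sum_mul]

theorem dec (h : Stmt_DecG) : Stmt_Dec := by
  intro K F _ _ _ p A W σ F₁ ζ g₁ a₀ hFD f hf
  obtain ⟨c, hc, hfc⟩ := h K F p A W σ F₁ ζ g₁ a₀ hFD f hf
  refine ⟨fun i => ∑ j ∈ Finset.range p, (j.choose i : F) * c j, fun i => ⟨?_, ?_⟩, ?_⟩
  · exact F₁.sum_mem fun j _ => F₁.mul_mem (natCast_mem F₁ _) (hc j).1
  · rw [Finset.smul_sum]
    refine Finset.sum_congr rfl fun j _ => ?_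
    rw [smul_mul', (hc j).2]
    congr 1
    exact map_natCast (SemilinearAut.toRingAut σ) _
  · rw [hfc, ← DEC_rebase]
    refine Finset.sum_congr rfl fun j _ => ?_
    rw [map_sub, map_one, sub_add_cancel]

end Fermat.Agent.MR.PL
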