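import Fermat.Agent.MR.PL.Interface

/-!
# MR / PL : (PL-DECG) eigen-decomposition `F₁ = ⊕ F_t g₁ ^ j` for a cyclic action of order `p`
-/

set_option autoImplicit false

noncomputable section

namespace Fermat.Agent.MR.PL

open Finset

section Abs

variable {F M : Type*} [Field F] [Group M] [MulSemiringAction M F]

/-- the `i`-th term of the projector on the `j`-th eigenspace (`Y = Z⁻¹`). -/
def DECG_phi (σ : M) (Y f : F) (j i : ℕ) : F := Y ^ (i * j) * (σ ^ i • f)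

/-- the projection on the `j`-th eigenspace. -/
def DECG_e (σ : M) (p : ℕ) (Y f : F) (j : ℕ) : F :=
  (p : F)⁻¹ * ∑ i ∈ range p, DECG_phi σ Y f j i

theorem DECG_smul_natCast (σ : M) (n : ℕ) : σ • (n : F) = n :=
  map_natCast (MulSemiringAction.toRingHom M F σ) n

theorem DECG_smul_phi (σ : M) {Z Y : F} (f : F) (hZY : Z * Y = 1) (hY : σ • Y = Y) (j i : ℕ) :
    σ • DECG_phi σ Y f j i = Z ^ j * DECG_phi σ Y f j (i + 1) := by
  unfold DECG_phi
  rw [smul_mul', smul_pow', hY, ← mul_smul, ← pow_succ', ← mul_assoc]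
  congr 1
  rw [add_mul, one_mul, pow_add, mul_comm (Y ^ (i * j)), ← mul_assoc, ← mul_pow, hZY, one_pow,
    one_mul]

theorem DECG_sum_shift (σ : M) {p : ℕ} {Y f : F} (hY : Y ^ p = 1) (hf : σ ^ p • f = f) (j : ℕ) :
    ∑ i ∈ range p, DECG_phi σ Y f j (i + 1) = ∑ i ∈ range p, DECG_phi σ Y f j i := by
  have h1 := Finset.sum_range_succ (DECG_phi σ Y f j) p
  have h2 := Finset.sum_range_succ' (DECG_phi σ Y f j) p
  have h3 : DECG_phi σ Y f j p = DECG_phi σ Y f j 0 := by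
    unfold DECG_phi
    rw [pow_mul, hY, one_pow, hf]
    simp
  rw [h2, h3] at h1
  exact add_right_cancel h1

theorem DECG_smul_e (σ : M) {p : ℕ} {Z Y f : F} (hZY : Z * Y = 1) (hY : σ • Y = Y)
    (hYp : Y ^ p = 1) (hf : σ ^ p • f = f) (j : ℕ) :
    σ • DECG_e σ p Y f j = Z ^ j * DECG_e σ p Y f j := by
  unfold DECG_e
  rw [smul_mul', smul_inv'', DECG_smul_natCast, Finset.smul_sum]
  simp_rw [DECG_smul_phi σ f hZY hY]
  rw [← Finset.mul_sum, DECG_sum_shift σ hYp hf]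
  ring

theorem DECG_sum_e (σ : M) {p : ℕ} (hp0 : 0 < p) (hpF : (p : F) ≠ 0) {Y : F} (f : F)
    (hYp : Y ^ p = 1) (hYne : ∀ i, 0 < i → i < p → Y ^ i ≠ 1) :
    ∑ j ∈ range p, DECG_e σ p Y f j = f := by
  unfold DECG_e
  rw [← Finset.mul_sum, Finset.sum_comm]
  have h : ∀ i ∈ range p, ∑ j ∈ range p, DECG_phi σ Y f j i
      = if i = 0 then (p : F) * f else 0 := by
    intro i hi
    rw [Finset.mem_range] at hi
    unfold DECG_phi
    rw [← Finset.sum_mul]
    split_ifs with h0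
    · subst h0
      simp
    · have h1 : ∑ j ∈ range p, Y ^ (i * j) = 0 := by
        have h2 : (∑ j ∈ range p, (Y ^ i) ^ j) * (Y ^ i - 1) = (Y ^ i) ^ p - 1 :=
          geom_sum_mul (Y ^ i) p
        rw [← pow_mul, mul_comm i p, pow_mul, hYp, one_pow, sub_self] at h2
        have h3 : Y ^ i - 1 ≠ 0 := sub_ne_zero.2 (hYne i (Nat.pos_of_ne_zero h0) hi)
        have h4 := (mul_eq_zero.1 h2).resolve_right h3
        simpa only [pow_mul] using h4
      rw [h1, zero_mul]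
  rw [Finset.sum_congr rfl h, Finset.sum_ite_eq' (range p) 0 (fun _ => (p : F) * f),
    if_pos (Finset.mem_range.2 hp0), inv_mul_cancel_left₀ hpF]

end Abs

/-- **PL-DECG** (no hypothesis needed). -/
theorem decG' : Stmt_DecG := by
  intro K F _ _ _ p A W σ F₁ ζ g₁ a₀ hD f hf
  have hp := hD.prime
  have : Fact p.Prime := ⟨hp⟩
  have hinj : Function.Injective (algebraMap K F) := (algebraMap K F).injective
  have hpF : (p : F) ≠ 0 := by
    rw [← map_natCast (algebraMap K F)]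
    exact (map_ne_zero _).2 hD.p_ne
  -- the constants
  have hζ0 : ζ ≠ 0 := by
    rintro rfl
    have := hD.zeta_pow
    rw [zero_pow hp.ne_zero] at this
    exact zero_ne_one this
  have hg0 : g₁ ≠ 0 := by
    rintro rfl
    have h1 := hD.g_pow
    rw [zero_pow hp.ne_zero] at h1
    have h2 : (p : K) * a₀ = -1 := by linear_combination -h1
    have h3 : A.valuation ((p : K) * a₀) = 1 := by rw [h2, Valuation.map_neg, map_one]
    rw [map_mul, hD.a_unit, mul_one] at h3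
    have h4 : A.valuation (p : K) < 1 := (ValuationSubring.mem_nonunits_iff A).1 hD.p_small
    exact h4.ne h3
  obtain ⟨Z, hZdef⟩ : ∃ Z : F, Z = algebraMap K F ζ := ⟨_, rfl⟩
  obtain ⟨G, hGdef⟩ : ∃ G : F, G = algebraMap K F g₁ := ⟨_, rfl⟩
  have hZ0 : Z ≠ 0 := by rw [hZdef]; exact (map_ne_zero _).2 hζ0
  have hG0 : G ≠ 0 := by rw [hGdef]; exact (map_ne_zero _).2 hg0
  have hσZ : σ • Z = Z := by rw [hZdef, AlgebraicCurve.SemilinearAut.smul_algebraMap, hD.sig_zeta]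
  have hσG : σ • G = Z * G := by
    rw [hZdef, hGdef, AlgebraicCurve.SemilinearAut.smul_algebraMap, hD.sig_g, map_mul]
  have hZp : Z ^ p = 1 := by rw [hZdef, ← map_pow, hD.zeta_pow, map_one]
  have hZ1 : Z ≠ 1 := by
    rw [hZdef]
    intro h
    exact hD.zeta_ne (hinj (by rw [h, map_one]))
  have hZF : Z ∈ F₁ := by rw [hZdef]; exact hD.zeta_mem
  have hGF : G ∈ F₁ := by rw [hGdef]; exact hD.g_mem
  have hZY : Z * Z⁻¹ = 1 := mul_inv_cancel₀ hZ0
  have hσY : σ • Z⁻¹ = Z⁻¹ := by rw [smul_inv'', hσZ]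
  have hYp : Z⁻¹ ^ p = 1 := by rw [inv_pow, hZp, inv_one]
  have hY1 : Z⁻¹ ≠ 1 := fun h => hZ1 (by rw [← inv_inv Z, h, inv_one])
  have hprim : IsPrimitiveRoot Z⁻¹ p := by
    have := IsPrimitiveRoot.orderOf Z⁻¹
    rwa [orderOf_eq_prime hYp hY1] at this
  have hYne : ∀ i, 0 < i → i < p → Z⁻¹ ^ i ≠ 1 := fun i h0 hi =>
    hprim.pow_ne_one_of_pos_of_lt h0.ne' hi
  have hfp : σ ^ p • f = f := hD.sig_pow f hf
  have hpow : ∀ i : ℕ, σ ^ i • f ∈ F₁ := by
    intro i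
    induction i with
    | zero => simpa using hf
    | succ i ih =>
      rw [pow_succ', mul_smul]
      exact hD.sig_mem _ ih
  have heF : ∀ j, DECG_e σ p Z⁻¹ f j ∈ F₁ := by
    intro j
    unfold DECG_e DECG_phi
    exact mul_mem (inv_mem (natCast_mem F₁ p))
      (sum_mem fun i _ => mul_mem (pow_mem (inv_mem hZF) _) (hpow i))
  refine ⟨fun j => DECG_e σ p Z⁻¹ f j / G ^ j, fun j => ⟨div_mem (heF j) (pow_mem hGF j), ?_⟩, ?_⟩
  · rw [smul_div₀', smul_pow', hσG, DECG_smul_e σ hZY hσY hYp hfp, mul_pow,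
      mul_div_mul_left _ _ (pow_ne_zero j hZ0)]
  · rw [← hGdef]
    have h1 : ∀ j ∈ range p, DECG_e σ p Z⁻¹ f j / G ^ j * G ^ j = DECG_e σ p Z⁻¹ f j :=
      fun j _ => div_mul_cancel₀ _ (pow_ne_zero j hG0)
    rw [Finset.sum_congr rfl h1, DECG_sum_e σ hp.pos hpF f hYp hYne]

/-- **PL-DECG** with the announced signature. -/
theorem decG (_hfb : Stmt_FB) : Stmt_DecG := decG'

end Fermat.Agent.MR.PL

end
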