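import Fermat.Agent.MR.PL.Interface

/-!
# MR / PL : PL-FB, numerical facts on `ζ`, `w = 1 - ζ`, `dl = g₁ - 1`, `π = w / dl` (helper93)
-/

set_option autoImplicit false

namespace Fermat.Agent.MR.PL

theorem FB_pow_eq_one {Γ : Type*} [LinearOrderedCommGroupWithZero Γ] {x : Γ} {n : ℕ} (hn : n ≠ 0)
    (h : x ^ n = 1) : x = 1 :=
  le_antisymm ((pow_le_one_iff hn).1 h.le) ((one_le_pow_iff hn).1 h.ge)

section

variable {K : Type} [Field K] (A : ValuationSubring K)

theorem FB_le_one {x : K} (hx : x ∈ A) : A.valuation x ≤ 1 := (A.valuation_le_one_iff x).2 hx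

theorem FB_mem {x : K} (hx : A.valuation x ≤ 1) : x ∈ A := (A.valuation_le_one_iff x).1 hx

theorem FB_add_pow {p : ℕ} (hp : p.Prime) {x y : K} (hx : x ∈ A) (hy : y ∈ A) :
    ∃ r ∈ A, (x + y) ^ p = x ^ p + y ^ p + (p : K) * x * y * r := by
  obtain ⟨r, hr⟩ := exists_add_pow_prime_eq hp (⟨x, hx⟩ : A) ⟨y, hy⟩
  refine ⟨r, r.2, ?_⟩
  have := congrArg (Subtype.val) hr
  simpa using this

theorem FB_sum_mem {ι : Type*} (s : Finset ι) (f : ι → K) (h : ∀ i ∈ s, f i ∈ A) :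
    ∑ i ∈ s, f i ∈ A := A.toSubring.sum_mem h

theorem FB_mul_lt {x y : K} (hx : A.valuation x < 1) (hy : y ∈ A) : A.valuation (x * y) < 1 := by
  rw [map_mul]
  calc A.valuation x * A.valuation y ≤ A.valuation x * 1 := mul_le_mul' le_rfl (FB_le_one A hy)
    _ = A.valuation x := mul_one _
    _ < 1 := hx

theorem FB_core {p : ℕ} {ζ g₁ a₀ : K} (hp : p.Prime) (hodd : p ≠ 2) (hp0 : (p : K) ≠ 0)
    (hps : (p : K) ∈ A.nonunits) (hζp : ζ ^ p = 1) (hζ1 : ζ ≠ 1) (hg : g₁ ^ p = 1 + (p : K) * a₀)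
    (ha₀ : A.valuation a₀ = 1) : FBFacts p A ζ g₁ := by
  have hpn : p ≠ 0 := hp.ne_zero
  have hvp : A.valuation (p : K) < 1 := (ValuationSubring.mem_nonunits_iff A).1 hps
  have hvp0 : A.valuation (p : K) ≠ 0 := (Valuation.ne_zero_iff _).2 hp0
  have hpodd : Odd p := hp.odd_of_ne_two hodd
  have : Fact p.Prime := ⟨hp⟩
  have prim : IsPrimitiveRoot ζ p := by
    have := IsPrimitiveRoot.orderOf ζ
    rwa [orderOf_eq_prime hζp hζ1] at this
  have zeta_val : A.valuation ζ = 1 := FB_pow_eq_one hpn (by rw [← map_pow, hζp, map_one])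
  have hζA : ζ ∈ A := FB_mem A zeta_val.le
  have hζpow : ∀ m : ℕ, ζ ^ m ∈ A := fun m => A.pow_mem hζA m
  have w_ne : 1 - ζ ≠ 0 := sub_ne_zero.2 (Ne.symm hζ1)
  have w_lt : A.valuation (1 - ζ) < 1 := by
    obtain ⟨r, hr, e⟩ := FB_add_pow A hp A.one_mem (A.neg_mem _ hζA)
    rw [hpodd.neg_pow, hζp, one_pow, ← sub_eq_add_neg, ← sub_eq_add_neg, sub_self, zero_add] at e
    rw [← pow_lt_one_iff hpn, ← map_pow, e, mul_assoc, mul_assoc]
    exact FB_mul_lt A hvp (A.mul_mem _ _ A.one_mem (A.mul_mem _ _ (A.neg_mem _ hζA) hr))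
  have hw0 : A.valuation (1 - ζ) ≠ 0 := (Valuation.ne_zero_iff _).2 w_ne
  have nat_unit : ∀ j : ℕ, 0 < j → j < p → A.valuation (j : K) = 1 := by
    intro j hj0 hjp
    have hcop : Nat.Coprime j p := (Nat.coprime_comm.1 ((Nat.Prime.coprime_iff_not_dvd hp).2
      (Nat.not_dvd_of_pos_of_lt hj0 hjp)))
    obtain ⟨x, y, hxy⟩ := (Nat.isCoprime_iff_coprime.2 hcop)
    have hK : (x : K) * (j : K) + (y : K) * (p : K) = 1 := by
      have := congrArg (Int.cast : ℤ → K) hxy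
      push_cast at this
      exact this
    refine le_antisymm (FB_le_one A (natCast_mem A j)) (not_lt.1 fun hlt => ?_)
    have h1 : A.valuation ((x : K) * (j : K) + (y : K) * (p : K)) < 1 := by
      refine Valuation.map_add_lt _ ?_ ?_
      · rw [mul_comm]; exact FB_mul_lt A hlt (intCast_mem A x)
      · rw [mul_comm]; exact FB_mul_lt A hvp (intCast_mem A y)
    rw [hK, map_one] at h1
    exact lt_irrefl _ h1
  -- `v (ζ ^ m - 1) < 1`
  have hpm : ∀ m : ℕ, A.valuation (ζ ^ m - 1) < 1 := by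
    intro m
    rw [← geom_sum_mul, mul_comm]
    refine FB_mul_lt A ?_ (FB_sum_mem A _ _ fun i _ => hζpow i)
    rw [Valuation.map_sub_swap]
    exact w_lt
  have hgs : ∀ i : ℕ, 0 < i → i < p → A.valuation (∑ m ∈ Finset.range i, ζ ^ m) = 1 := by
    intro i hi0 hip
    have h1 : A.valuation (∑ m ∈ Finset.range i, ζ ^ m - (i : K)) < 1 := by
      have e : ∑ m ∈ Finset.range i, ζ ^ m - (i : K) = ∑ m ∈ Finset.range i, (ζ ^ m - 1) := by
        rw [Finset.sum_sub_distrib]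
        simp
      rw [e]
      exact Valuation.map_sum_lt _ one_ne_zero fun m _ => hpm m
    have h2 := Valuation.map_sub_eq_of_lt_right (v := A.valuation)
      (x := ∑ m ∈ Finset.range i, ζ ^ m - (i : K)) (y := -(i : K))
      (by rw [Valuation.map_neg, nat_unit i hi0 hip]; exact h1)
    rw [Valuation.map_neg, nat_unit i hi0 hip, sub_neg_eq_add, sub_add_cancel] at h2
    exact h2
  have hwi : ∀ i : ℕ, 0 < i → i < p → A.valuation (1 - ζ ^ i) = A.valuation (1 - ζ) := by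
    intro i hi0 hip
    have e : 1 - ζ ^ i = (∑ m ∈ Finset.range i, ζ ^ m) * (1 - ζ) := by
      have := geom_sum_mul ζ i
      linear_combination this
    rw [e, map_mul, hgs i hi0 hip, one_mul]
  have p_val : A.valuation (p : K) = A.valuation (1 - ζ) ^ (p - 1) := by
    obtain ⟨n, rfl⟩ : ∃ n, p = n + 1 := ⟨p - 1, by have := hp.pos; omega⟩
    have h1 := prim.prod_one_sub_pow_eq_order
    have h2 : ((n + 1 : ℕ) : K) = ∏ k ∈ Finset.range n, (1 - ζ ^ (k + 1)) := by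
      rw [h1]; push_cast; ring
    rw [h2, map_prod, Nat.add_sub_cancel]
    rw [Finset.prod_congr rfl fun k hk => hwi (k + 1) (Nat.succ_pos k)
      (by have := Finset.mem_range.1 hk; omega)]
    rw [Finset.prod_const, Finset.card_range]
  have g_val : A.valuation g₁ = 1 := by
    refine FB_pow_eq_one hpn ?_
    rw [← map_pow, hg]
    exact Valuation.map_one_add_of_lt _ (FB_mul_lt A hvp (FB_mem A ha₀.le))
  have hgA : g₁ ∈ A := FB_mem A g_val.le
  have hdlA : g₁ - 1 ∈ A := A.sub_mem hgA A.one_mem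
  obtain ⟨r, hr, e⟩ := FB_add_pow A hp A.one_mem hdlA
  have e' : (g₁ - 1) ^ p = (p : K) * (a₀ - (g₁ - 1) * r) := by
    rw [add_sub_cancel, hg, one_pow] at e
    linear_combination -e
  have dl_lt : A.valuation (g₁ - 1) < 1 := by
    rw [← pow_lt_one_iff hpn, ← map_pow, e']
    exact FB_mul_lt A hvp (A.sub_mem (FB_mem A ha₀.le) (A.mul_mem _ _ hdlA hr))
  have dl_val : A.valuation (g₁ - 1) ^ p = A.valuation (p : K) := by
    rw [← map_pow, e', map_mul]
    have : A.valuation (a₀ - (g₁ - 1) * r) = A.valuation a₀ :=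
      Valuation.map_sub_eq_of_lt_left _ (by rw [ha₀]; exact FB_mul_lt A dl_lt hr)
    rw [this, ha₀, mul_one]
  have dl_ne : g₁ - 1 ≠ 0 := by
    intro h
    rw [h, map_zero, zero_pow hpn] at dl_val
    exact hvp0 dl_val.symm
  have hdl0 : A.valuation (g₁ - 1) ≠ 0 := (Valuation.ne_zero_iff _).2 dl_ne
  have pi_ne : piK ζ g₁ ≠ 0 := div_ne_zero w_ne dl_ne
  have hp1 : p = (p - 1) + 1 := by have := hp.pos; omega
  have pi_pow : A.valuation (piK ζ g₁) ^ p = A.valuation (1 - ζ) := by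
    rw [piK, map_div₀, div_pow, dl_val, p_val]
    have : A.valuation (1 - ζ) ^ p = A.valuation (1 - ζ) ^ (p - 1) * A.valuation (1 - ζ) := by
      rw [← pow_succ, ← hp1]
    rw [this, mul_div_assoc, mul_comm, div_mul_cancel₀ _ (pow_ne_zero _ hw0)]
  have pi_lt : A.valuation (piK ζ g₁) < 1 := by
    rw [← pow_lt_one_iff hpn, pi_pow]
    exact w_lt
  have pi_dl : A.valuation (piK ζ g₁) ^ (p - 1) = A.valuation (g₁ - 1) := by
    rw [piK, map_div₀, div_pow, ← p_val, ← dl_val]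
    have : A.valuation (g₁ - 1) ^ p = A.valuation (g₁ - 1) ^ (p - 1) * A.valuation (g₁ - 1) := by
      rw [← pow_succ, ← hp1]
    rw [this, mul_div_assoc, mul_comm, div_mul_cancel₀ _ (pow_ne_zero _ hdl0)]
  exact ⟨prim, zeta_val, w_ne, w_lt, p_val, g_val, dl_ne, dl_val, dl_lt, pi_ne, pi_lt, pi_pow, pi_dl,
    nat_unit⟩

end

theorem fb : Stmt_FB := by
  intro K F _ _ _ p A W σ F₁ ζ g₁ a₀ H
  exact FB_core A H.prime H.odd H.p_ne H.p_small H.zeta_pow H.zeta_ne H.g_pow H.a_unit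

end Fermat.Agent.MR.PL
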