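import Fermat.Agent.MR.PL.Interface

/-!
# MR / PL / Fin : final arithmetic, `p ∣ k s - k s'`
-/

set_option autoImplicit false

namespace Fermat.Agent.MR.PL

open AlgebraicCurve
open Fermat.Agent.RED (Ev)

/-- arithmetic in a linearly ordered group with zero. -/
theorem FIN_arith {Γ : Type*} [LinearOrderedCommGroupWithZero Γ] (p : ℕ) (hp : 1 ≤ p)
    (x c z z' : Γ) (k k' m : ℤ) (hx0 : x ≠ 0) (hx1 : x < 1) (hc : c ≠ 0) (hz' : z' ≠ 0)
    (hz : z = x ^ m * z')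
    (h : c * (x ^ (p - 1)) ^ k * z ^ p = c * (x ^ (p - 1)) ^ k' * z' ^ p) :
    (p : ℤ) ∣ k - k' := by
  have hpos : 0 < x := zero_lt_iff.2 hx0
  have e1 : (x ^ (p - 1)) ^ k * (x ^ m) ^ p = (x ^ (p - 1)) ^ k' := by
    have hzp : z' ^ p ≠ 0 := pow_ne_zero _ hz'
    rw [hz, mul_pow] at h
    have h2 : c * z' ^ p * ((x ^ (p - 1)) ^ k * (x ^ m) ^ p) =
        c * z' ^ p * (x ^ (p - 1)) ^ k' := by
      calc c * z' ^ p * ((x ^ (p - 1)) ^ k * (x ^ m) ^ p)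
          = c * (x ^ (p - 1)) ^ k * ((x ^ m) ^ p * z' ^ p) := by ac_rfl
        _ = c * (x ^ (p - 1)) ^ k' * z' ^ p := h
        _ = c * z' ^ p * (x ^ (p - 1)) ^ k' := by ac_rfl
    exact mul_left_cancel₀ (mul_ne_zero hc hzp) h2
  have e2 : x ^ (((p - 1 : ℕ) : ℤ) * k + m * (p : ℤ)) = x ^ (((p - 1 : ℕ) : ℤ) * k') := by
    rw [zpow_add₀ hx0, zpow_mul, zpow_mul, zpow_mul, zpow_natCast, zpow_natCast]
    exact e1
  have e3 : ((p - 1 : ℕ) : ℤ) * k + m * (p : ℤ) = ((p - 1 : ℕ) : ℤ) * k' :=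
    zpow_right_injective₀ hpos hx1.ne e2
  rw [Nat.cast_sub hp, Nat.cast_one] at e3
  exact ⟨k - k' + m, by linarith⟩

/-- (FIN) -/
theorem fin : Stmt_Fin := by
  intro K F _ _ _ p A W₁ W₂ w u ι c₀ Z k hp g₁ g₂ hw hw1 hpw hne h₂ h₁ hm s s'
  obtain ⟨m, hm⟩ := hm s s'
  have hc : A.valuation (c₀ s) = A.valuation (c₀ s') :=
    (g₂.val_eq_iff _ _).1 ((h₂ s).symm.trans (h₂ s'))
  have hE := (g₁.val_eq_iff _ _).1 ((h₁ s).symm.trans (h₁ s'))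
  rw [map_mul, map_mul, map_mul, map_mul, map_zpow₀, map_zpow₀, map_pow, map_pow, hpw, ← hc] at hE
  have hZ' : A.valuation (Z s') ≠ 0 := (Valuation.ne_zero_iff _).2 (hne s').2
  refine FIN_arith p hp.one_le (A.valuation w) (A.valuation (c₀ s)) (A.valuation (Z s))
    (A.valuation (Z s')) (k s) (k s') m ((Valuation.ne_zero_iff _).2 hw) hw1
    ((Valuation.ne_zero_iff _).2 (hne s).1) hZ' ?_ hE
  rw [map_div₀] at hm
  exact (div_eq_iff hZ').1 hm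

end Fermat.Agent.MR.PL
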