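import Fermat.Agent.MR.PL.Interface

/-!
# MR / PL / HFix : `M` and `Z` of an `h`-invariant divisor are `h`-invariant
-/

set_option autoImplicit false

namespace Fermat.Agent.MR.PL

open AlgebraicCurve
open Fermat.Agent.RED (Ev)

section HFIX

variable {K F : Type} [Field K] [Field F] [Algebra K F]
  {A : ValuationSubring K} {W₁ W₂ : ValuationSubring F} {a b : F} {R : Subring F} {n : Set F}
  {h : SemilinearAut K F}

theorem HFIX_mem_A (hG : Gauss A W₁) (hh : ∀ x : F, W₁.valuation (h • x) = W₁.valuation x)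
    (c : K) : SemilinearAut.baseAut h c ∈ A ↔ c ∈ A := by
  rw [← ValuationSubring.valuation_le_one_iff, ← ValuationSubring.valuation_le_one_iff,
    hG.baseAut_iso hh]

theorem HFIX_mem_nonunits (hG : Gauss A W₁)
    (hh : ∀ x : F, W₁.valuation (h • x) = W₁.valuation x)
    (c : K) : SemilinearAut.baseAut h c ∈ A.nonunits ↔ c ∈ A.nonunits := by
  rw [ValuationSubring.mem_nonunits_iff, ValuationSubring.mem_nonunits_iff, hG.baseAut_iso hh]

theorem HFIX_centred_smul (hG : Gauss A W₁) (L : LocData A W₁ W₂ a b R n)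
    (hP : Pres h W₁ W₂ a b) (hR : PresR h R) {P : Place K F} (hc : Centred A R n P) :
    Centred A R n (h • P) := by
  intro x hx
  have hx' : h⁻¹ • x ∈ R := by
    rw [← hR, smul_inv_smul]; exact hx
  obtain ⟨c, hcA, hev, hcn⟩ := hc _ hx'
  refine ⟨SemilinearAut.baseAut h c, (HFIX_mem_A hG hP.w₁ c).2 hcA, ?_, ?_⟩
  · have := Fermat.Agent.RED.ev_smul h hev
    rwa [smul_inv_smul] at this
  · intro hxn
    apply (HFIX_mem_nonunits hG hP.w₁ c).2
    apply hcn
    rw [← hR.mem_n_iff L, smul_inv_smul]; exact hxn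

theorem HFIX_centred_of_smul (hG : Gauss A W₁) (L : LocData A W₁ W₂ a b R n)
    (hP : Pres h W₁ W₂ a b) (hR : PresR h R) {P : Place K F} (hc : Centred A R n (h • P)) :
    Centred A R n P := by
  intro x hx
  obtain ⟨c', hcA, hev, hcn⟩ := hc (h • x) ((hR x).2 hx)
  have hc' : SemilinearAut.baseAut h ((SemilinearAut.baseAut h).symm c') = c' :=
    RingEquiv.apply_symm_apply _ _
  refine ⟨(SemilinearAut.baseAut h).symm c', ?_, ?_, ?_⟩
  · rw [← HFIX_mem_A hG hP.w₁, hc']; exact hcA
  · rw [← Fermat.Agent.RED.ev_smul_iff h, hc']; exact hev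
  · intro hxn
    rw [← HFIX_mem_nonunits hG hP.w₁, hc']
    exact hcn ((hR.mem_n_iff L x).2 hxn)

theorem HFIX_centred_iff (hG : Gauss A W₁) (L : LocData A W₁ W₂ a b R n)
    (hP : Pres h W₁ W₂ a b) (hR : PresR h R) (P : Place K F) :
    Centred A R n (h • P) ↔ Centred A R n P :=
  ⟨HFIX_centred_of_smul hG L hP hR, HFIX_centred_smul hG L hP hR⟩

theorem HFIX_val_smul (L : LocData A W₁ W₂ a b R n)
    (hP : Pres h W₁ W₂ a b) {P : Place K F} (hc : Centred A R n P) :
    val (h • P) a = SemilinearAut.baseAut h (val P a) := by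
  have h1 := Fermat.Agent.RED.ev_smul h (hc.ev (L.n_sub a L.a_mem))
  rw [hP.a_fix] at h1
  exact val_eq h1

theorem HFIX_cpart_apply (D : Divisor K F) (P : Place K F) :
    cpart A R n D P = (open Classical in if Centred A R n P then D P else 0) := by
  classical
  unfold cpart
  rw [Finsupp.filter_apply]

theorem HFIX_cpart_smul (hG : Gauss A W₁) (L : LocData A W₁ W₂ a b R n)
    (hP : Pres h W₁ W₂ a b) (hR : PresR h R) (D : Divisor K F) (hD : ∀ P, D (h • P) = D P) :
    Finsupp.mapDomain (h • ·) (cpart A R n D) = cpart A R n D := by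
  classical
  have key : ∀ P, cpart A R n D (h • P) = cpart A R n D P := by
    intro P
    rw [HFIX_cpart_apply, HFIX_cpart_apply, hD]
    simp only [HFIX_centred_iff hG L hP hR P]
  rw [← SemilinearAut.divisor_smul_def]
  ext Q
  rw [SemilinearAut.divisor_smul_apply, ← key, smul_inv_smul]

theorem HFIX_centred_of_mem (D : Divisor K F) {P : Place K F}
    (hP : P ∈ (cpart A R n D).support) : Centred A R n P := by
  classical
  rw [Finsupp.mem_support_iff, HFIX_cpart_apply] at hP
  by_contra hcon
  rw [if_neg hcon] at hP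
  exact hP rfl

end HFIX

/-- (HFIX) `M` and `Z` of an `h`-invariant divisor are `h`-invariant. -/
theorem hFix : Stmt_HFix := by
  intro K F _ _ _ A W₁ W₂ a b R n h hG L hP hR D hD
  set E := cpart A R n D with hE
  have hfix : Finsupp.mapDomain (h • ·) E = E := HFIX_cpart_smul hG L hP hR D hD
  constructor
  · have h1 : Mf a E = Mf a (Finsupp.mapDomain (h • ·) E) := by rw [hfix]
    conv_rhs => rw [h1]
    unfold Mf
    rw [Finsupp.prod_mapDomain_index_inj (MulAction.injective h)]
    change SemilinearAut.toRingAut h _ = _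
    rw [map_finsuppProd]
    apply Finsupp.prod_congr
    intro P hPm
    have hc : Centred A R n P := HFIX_centred_of_mem D hPm
    rw [HFIX_val_smul L hP hc, map_zpow₀, map_sub, SemilinearAut.commutes]
    have : SemilinearAut.toRingAut h a = a := hP.a_fix
    rw [this]
  · have h1 : Zc a E = Zc a (Finsupp.mapDomain (h • ·) E) := by rw [hfix]
    conv_rhs => rw [h1]
    unfold Zc
    rw [Finsupp.prod_mapDomain_index_inj (MulAction.injective h), map_finsuppProd]
    apply Finsupp.prod_congr
    intro P hPm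
    have hc : Centred A R n P := HFIX_centred_of_mem D hPm
    rw [HFIX_val_smul L hP hc, map_zpow₀, map_neg]

end Fermat.Agent.MR.PL

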