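import Fermat.Agent.MR.PL.Interface2

/-!
# MR / PL, task PL-ISO (helper92): an automorphism preserving `W` with finite orbits on `K` is an
isometry
-/

set_option autoImplicit false

namespace Fermat.Agent.MR.PL

open AlgebraicCurve IntermediateField
open Fermat.Agent.RED (Ev)

section Base

variable {K : Type*} [Field K] {A : ValuationSubring K} {s : K ≃+* K}

theorem ISO_le_iff (hs : ∀ c : K, s c ∈ A ↔ c ∈ A) (c d : K) :
    A.valuation (s c) ≤ A.valuation (s d) ↔ A.valuation c ≤ A.valuation d := by
  rcases eq_or_ne d 0 with rfl | hd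
  · simp
  have hsd : s d ≠ 0 := by simpa using hd
  have h1 : 0 < A.valuation d := zero_lt_iff.2 ((Valuation.ne_zero_iff _).2 hd)
  have h2 : 0 < A.valuation (s d) := zero_lt_iff.2 ((Valuation.ne_zero_iff _).2 hsd)
  have h3 := hs (c / d)
  rw [map_div₀, ← ValuationSubring.valuation_le_one_iff, ← ValuationSubring.valuation_le_one_iff,
    map_div₀, map_div₀, div_le_one₀ h1, div_le_one₀ h2] at h3
  exact h3

theorem ISO_lt_iff (hs : ∀ c : K, s c ∈ A ↔ c ∈ A) (c d : K) :
    A.valuation (s c) < A.valuation (s d) ↔ A.valuation c < A.valuation d := by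
  rw [← not_le, ← not_le, ISO_le_iff hs]

theorem ISO_pow_succ (s : K ≃+* K) (i : ℕ) (c : K) : (s ^ (i + 1)) c = s ((s ^ i) c) := by
  rw [pow_succ']
  rfl

theorem ISO_base (hs : ∀ c : K, s c ∈ A ↔ c ∈ A)
    (hfin : ∀ c : K, ∃ m : ℕ, 0 < m ∧ (s ^ m) c = c) (c : K) :
    A.valuation (s c) = A.valuation c := by
  obtain ⟨m, hm, hmc⟩ := hfin c
  rcases lt_trichotomy (A.valuation c) (A.valuation (s c)) with h | h | h
  · exfalso
    have hmono : StrictMono fun i : ℕ => A.valuation ((s ^ i) c) := by
      refine strictMono_nat_of_lt_succ fun i => ?_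
      induction i with
      | zero => simpa using h
      | succ i ih =>
        rw [ISO_pow_succ s (i + 1), ISO_pow_succ s i, ISO_lt_iff hs, ← ISO_pow_succ s i]
        exact ih
    have := hmono hm
    simp only [pow_zero, hmc] at this
    exact lt_irrefl _ this
  · exact h.symm
  · exfalso
    have hanti : StrictAnti fun i : ℕ => A.valuation ((s ^ i) c) := by
      refine strictAnti_nat_of_succ_lt fun i => ?_
      induction i with
      | zero => simpa using h
      | succ i ih =>
        rw [ISO_pow_succ s (i + 1), ISO_pow_succ s i, ISO_lt_iff hs, ← ISO_pow_succ s i]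
        exact ih
    have := hanti hm
    simp only [pow_zero, hmc] at this
    exact lt_irrefl _ this

end Base

/-- **PL-ISO**. -/
theorem iso : Stmt_Iso := by
  intro K F _ _ _ A W g hG hW hfin x
  have hs : ∀ c : K, SemilinearAut.baseAut g c ∈ A ↔ c ∈ A := by
    intro c
    rw [← hG.const_mem, ← SemilinearAut.smul_algebraMap, hW, hG.const_mem]
  have hbase := ISO_base hs hfin
  rcases eq_or_ne x 0 with rfl | hx
  · rw [smul_zero]
  obtain ⟨c, hc, hxc⟩ := hG.exists_const hx
  have hc' : algebraMap K F c ≠ 0 := by simpa using hc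
  have hvc : W.valuation (algebraMap K F c) ≠ 0 := (Valuation.ne_zero_iff _).2 hc'
  have hy : W.valuation (x / algebraMap K F c) = 1 := by
    rw [map_div₀, hxc, div_self hvc]
  have hy1 : x / algebraMap K F c ∈ W := (ValuationSubring.valuation_le_one_iff _ _).1 hy.le
  have hy2 : (x / algebraMap K F c)⁻¹ ∈ W := by
    rw [← ValuationSubring.valuation_le_one_iff, map_inv₀, hy, inv_one]
  have hgy1 : W.valuation (g • (x / algebraMap K F c)) ≤ 1 :=
    (ValuationSubring.valuation_le_one_iff _ _).2 ((hW _).2 hy1)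
  have hgy2 : W.valuation (g • (x / algebraMap K F c))⁻¹ ≤ 1 := by
    rw [← smul_inv'']
    exact (ValuationSubring.valuation_le_one_iff _ _).2 ((hW _).2 hy2)
  have hgy0 : g • (x / algebraMap K F c) ≠ 0 := by
    rw [Ne, smul_eq_zero_iff_eq]
    exact div_ne_zero hx hc'
  have hgy : W.valuation (g • (x / algebraMap K F c)) = 1 := by
    refine le_antisymm hgy1 ?_
    rw [map_inv₀] at hgy2
    exact (inv_le_one₀ (zero_lt_iff.2 ((Valuation.ne_zero_iff _).2 hgy0))).1 hgy2
  have e : x = x / algebraMap K F c * algebraMap K F c := by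
    rw [div_mul_cancel₀ _ hc']
  conv_lhs => rw [e]
  rw [smul_mul', map_mul, hgy, one_mul, SemilinearAut.smul_algebraMap, hxc, hG.val_eq_iff]
  exact hbase c

end Fermat.Agent.MR.PL
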