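import Fermat.Agent.MR.PL.Interface

/-!
# MR / PL : PL-ORTH, orthogonality of the decomposition `⊕ F_t dl^j` (helper9)
-/

set_option autoImplicit false

namespace Fermat.Agent.MR.PL

/-- KEY: `dd ^ p = ω ^ (p - 1)`, `0 < ω < 1`: `dd ^ i ∈ ω ^ ℤ` implies `p ∣ i`. -/
theorem ORTH_indep {Γ : Type*} [LinearOrderedCommGroupWithZero Γ] (ω dd : Γ) (p : ℕ)
    (hp : p.Prime) (h0 : 0 < ω) (h1 : ω < 1) (hdd : dd ^ p = ω ^ (p - 1)) (i m : ℤ)
    (h : dd ^ i = ω ^ m) : (p : ℤ) ∣ i := by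
  have e1 : ω ^ (((p - 1 : ℕ) : ℤ) * i) = ω ^ (m * (p : ℤ)) := by
    rw [zpow_mul, zpow_natCast, ← hdd, zpow_mul, zpow_natCast, ← h, ← zpow_natCast dd p,
      ← zpow_natCast (dd ^ i) p, ← zpow_mul, ← zpow_mul, mul_comm]
  have e2 : ((p - 1 : ℕ) : ℤ) * i = m * (p : ℤ) := zpow_right_injective₀ h0 h1.ne e1
  have e3 : (p : ℤ) ∣ ((p - 1 : ℕ) : ℤ) * i := ⟨m, by rw [e2, mul_comm]⟩
  rcases Int.Prime.dvd_mul' hp e3 with h4 | h4
  · exfalso
    have h5 : p ∣ p - 1 := Int.natCast_dvd_natCast.1 h4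
    have h6 := Nat.le_of_dvd (by have := hp.two_le; omega) h5
    have := hp.two_le
    omega
  · exact h4

/-- if the nonzero terms have pairwise distinct valuations, every term is bounded by the sum. -/
theorem ORTH_max {F Γ : Type*} [Field F] [LinearOrderedCommGroupWithZero Γ] (v : Valuation F Γ)
    (s : Finset ℕ) (x : ℕ → F)
    (hd : ∀ i ∈ s, ∀ j ∈ s, i ≠ j → x i ≠ 0 → v (x i) ≠ v (x j)) :
    ∀ j ∈ s, v (x j) ≤ v (∑ i ∈ s, x i) := by
  intro j hj
  obtain ⟨j0, hj0, hmax⟩ := Finset.exists_max_image s (fun i => v (x i)) ⟨j, hj⟩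
  by_cases h0 : x j0 = 0
  · refine le_trans (hmax j hj) ?_
    show v (x j0) ≤ _
    rw [h0, map_zero]
    exact zero_le
  · have hv0 : v (x j0) ≠ 0 := (Valuation.ne_zero_iff v).2 h0
    have hlt : v (∑ i ∈ s.erase j0, x i) < v (x j0) := by
      refine Valuation.map_sum_lt v hv0 fun i hi => ?_
      have hi' := Finset.mem_erase.1 hi
      exact lt_of_le_of_ne (hmax i hi'.2) (hd j0 hj0 i hi'.2 (Ne.symm hi'.1) h0).symm
    rw [← Finset.add_sum_erase s x hj0, Valuation.map_add_eq_of_lt_left v hlt]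
    exact hmax j hj

theorem orth (hfb : Stmt_FB) : Stmt_Orth := by
  intro K F _ _ _ p A W σ F₁ ζ g₁ a₀ hD c hc
  have FB := hfb K F p A W σ F₁ ζ g₁ a₀ hD
  have hG := hD.gauss
  have hp := hD.prime
  have hw0 : algebraMap K F (1 - ζ) ≠ 0 := (map_ne_zero _).2 FB.w_ne
  have hdl0 : algebraMap K F (g₁ - 1) ≠ 0 := (map_ne_zero _).2 FB.dl_ne
  have hω0 : 0 < W.valuation (algebraMap K F (1 - ζ)) :=
    zero_lt_iff.2 ((Valuation.ne_zero_iff _).2 hw0)
  have hω1 : W.valuation (algebraMap K F (1 - ζ)) < 1 := (hG.val_lt_one_iff _).2 FB.w_lt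
  have hdd0 : W.valuation (algebraMap K F (g₁ - 1)) ≠ 0 := (Valuation.ne_zero_iff _).2 hdl0
  have hdd : W.valuation (algebraMap K F (g₁ - 1)) ^ p
      = W.valuation (algebraMap K F (1 - ζ)) ^ (p - 1) := by
    rw [← map_pow, ← map_pow, ← map_pow, ← map_pow, hG.val_eq_iff, map_pow, map_pow, FB.dl_val,
      FB.p_val]
  have part1 : ∀ i < p, ∀ j < p, i ≠ j → c i ≠ 0 →
      W.valuation (c i * algebraMap K F (g₁ - 1) ^ i) ≠
        W.valuation (c j * algebraMap K F (g₁ - 1) ^ j) := by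
    intro i hi j hj hij hci heq
    by_cases hcj : c j = 0
    · rw [hcj, zero_mul, map_zero] at heq
      exact (Valuation.ne_zero_iff _).2 (mul_ne_zero hci (pow_ne_zero _ hdl0)) heq
    · obtain ⟨m, hm⟩ := hD.vg (c i) (hc i).1 hci (hc i).2
      obtain ⟨m', hm'⟩ := hD.vg (c j) (hc j).1 hcj (hc j).2
      rw [map_mul, map_mul, map_pow, map_pow, hm, hm'] at heq
      have hωne : W.valuation (algebraMap K F (1 - ζ)) ≠ 0 := hω0.ne'
      have e1 : W.valuation (algebraMap K F (g₁ - 1)) ^ ((i : ℤ) - (j : ℤ))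
          = W.valuation (algebraMap K F (1 - ζ)) ^ (m' - m) := by
        rw [zpow_sub₀ hdd0, zpow_sub₀ hωne, zpow_natCast, zpow_natCast,
          div_eq_div_iff (pow_ne_zero _ hdd0) (zpow_ne_zero _ hωne), mul_comm]
        exact heq
      have e2 := ORTH_indep _ _ p hp hω0 hω1 hdd _ _ e1
      have e3 : (i : ℤ) - (j : ℤ) = 0 := by
        refine Int.eq_zero_of_abs_lt_dvd e2 ?_
        rw [abs_lt]
        constructor <;> omega
      apply hij
      omega
  refine ⟨part1, fun j hj => ?_⟩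
  exact ORTH_max W.valuation (Finset.range p) (fun i => c i * algebraMap K F (g₁ - 1) ^ i)
    (fun i hi j hj hij h0 => part1 i (Finset.mem_range.1 hi) j (Finset.mem_range.1 hj) hij
      (left_ne_zero_of_mul h0)) j (Finset.mem_range.2 hj)

end Fermat.Agent.MR.PL
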