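import Fermat.Agent.MR.PL.Interface
import Fermat.Agent.MR.PL.Orth

/-!
# MR / PL, task PL-LEAD (helper77): leading term `γ ϖ` of an element of `F₁` of norm `≤ |π|`
-/

set_option autoImplicit false

namespace Fermat.Agent.MR.PL

open AlgebraicCurve

section Gamma

variable {Γ : Type*} [LinearOrderedCommGroupWithZero Γ]

/-- the terms `j < p - 1` are strictly smaller than `|π| = ω / dd`. -/
theorem LEAD_lt (ω dd : Γ) (p : ℕ) (hp : p.Prime) (h0 : 0 < ω) (h1 : ω < 1) (hd0 : dd ≠ 0)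
    (hdd : dd ^ p = ω ^ (p - 1)) (j : ℕ) (hj : j + 1 < p) (m : ℤ)
    (h : ω ^ m * dd ^ j ≤ ω / dd) : ω ^ m * dd ^ j < ω / dd := by
  refine lt_of_le_of_ne h fun heq => ?_
  have e1 : ω ^ m * (dd ^ j * dd) = ω := by
    rw [← mul_assoc, heq, div_mul_cancel₀ _ hd0]
  have e2 : dd ^ ((j + 1 : ℕ) : ℤ) = ω ^ (1 - m) := by
    rw [zpow_natCast, pow_succ, zpow_sub₀ h0.ne', zpow_one, eq_div_iff (zpow_ne_zero _ h0.ne'),
      mul_comm]
    exact e1
  have e3 := ORTH_indep ω dd p hp h0 h1 hdd _ _ e2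
  have e4 : p ∣ j + 1 := Int.natCast_dvd_natCast.1 e3
  have := Nat.le_of_dvd (Nat.succ_pos j) e4
  omega

theorem LEAD_le_one (ω dd a : Γ) (p : ℕ) (hp : 2 ≤ p) (h0 : 0 < ω) (hd0 : dd ≠ 0)
    (hdd : dd ^ p = ω ^ (p - 1)) (h : a * dd ^ (p - 1) ≤ ω / dd) : a * ω ^ (p - 2) ≤ 1 := by
  have hd : 0 < dd := zero_lt_iff.2 hd0
  have e1 : a * dd ^ (p - 1) * dd ≤ ω := (le_div_iff₀ hd).1 h
  have e2 : dd ^ (p - 1) * dd = ω ^ (p - 2) * ω := by
    rw [← pow_succ, ← pow_succ]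
    have h1 : p - 1 + 1 = p := by omega
    have h2 : p - 2 + 1 = p - 1 := by omega
    rw [h1, h2, hdd]
  rw [mul_assoc, e2, ← mul_assoc] at e1
  refine le_of_mul_le_mul_right ?_ h0
  rw [one_mul]
  exact e1

end Gamma

theorem lead (hfb : Stmt_FB) (hd : Stmt_Dec) (ho : Stmt_Orth) : Stmt_Lead := by
  intro K F _ _ _ p A W σ F₁ ζ g₁ a₀ hD x hx hxP
  have FB := hfb K F p A W σ F₁ ζ g₁ a₀ hD
  have hG := hD.gauss
  have hp := hD.prime
  have hp2 := hp.two_le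
  have hw0 : algebraMap K F (1 - ζ) ≠ 0 := (map_ne_zero _).2 FB.w_ne
  have hdl0 : algebraMap K F (g₁ - 1) ≠ 0 := (map_ne_zero _).2 FB.dl_ne
  have hω0 : 0 < W.valuation (algebraMap K F (1 - ζ)) :=
    zero_lt_iff.2 ((Valuation.ne_zero_iff _).2 hw0)
  have hω1 : W.valuation (algebraMap K F (1 - ζ)) < 1 := (hG.val_lt_one_iff _).2 FB.w_lt
  have hdd0 : W.valuation (algebraMap K F (g₁ - 1)) ≠ 0 := (Valuation.ne_zero_iff _).2 hdl0
  have hdd : W.valuation (algebraMap K F (g₁ - 1)) ^ p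
      = W.valuation (algebraMap K F (1 - ζ)) ^ (p - 1) := by
    rw [← map_pow, ← map_pow, ← map_pow, ← map_pow, hG.val_eq_iff, map_pow, map_pow, FB.dl_val,
      FB.p_val]
  have hP : W.valuation (algebraMap K F (piK ζ g₁)) =
      W.valuation (algebraMap K F (1 - ζ)) / W.valuation (algebraMap K F (g₁ - 1)) := by
    rw [piK, map_div₀, map_div₀]
  have hP0 : W.valuation (algebraMap K F (piK ζ g₁)) ≠ 0 :=
    (Valuation.ne_zero_iff _).2 ((map_ne_zero _).2 FB.pi_ne)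
  obtain ⟨c, hc, hxc⟩ := hd K F p A W σ F₁ ζ g₁ a₀ hD x hx
  have hle : ∀ j < p, W.valuation (c j * algebraMap K F (g₁ - 1) ^ j) ≤
      W.valuation (algebraMap K F (piK ζ g₁)) := by
    intro j hj
    refine le_trans ((ho K F p A W σ F₁ ζ g₁ a₀ hD c hc).2 j hj) ?_
    rw [← hxc]
    exact hxP
  have hlt : ∀ j ∈ Finset.range (p - 1), W.valuation (c j * algebraMap K F (g₁ - 1) ^ j) <
      W.valuation (algebraMap K F (piK ζ g₁)) := by
    intro j hj
    have hj' : j + 1 < p := by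
      have := Finset.mem_range.1 hj
      omega
    by_cases hcj : c j = 0
    · rw [hcj, zero_mul, map_zero]
      exact zero_lt_iff.2 hP0
    · obtain ⟨m, hm⟩ := hD.vg (c j) (hc j).1 hcj (hc j).2
      have h1 := hle j (by omega)
      rw [map_mul, map_pow, hm, hP] at h1 ⊢
      exact LEAD_lt _ _ p hp hω0 hω1 hdd0 hdd j hj' m h1
  have hwF : algebraMap K F (1 - ζ) ∈ F₁ := by
    rw [map_sub, map_one]
    exact sub_mem (one_mem _) hD.zeta_mem
  have hσw : σ • algebraMap K F (1 - ζ) = algebraMap K F (1 - ζ) := by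
    rw [SemilinearAut.smul_algebraMap, map_sub, map_one, hD.sig_zeta]
  have hγϖ : c (p - 1) * algebraMap K F (1 - ζ) ^ (p - 2) * algebraMap K F (varpi p ζ g₁) =
      c (p - 1) * algebraMap K F (g₁ - 1) ^ (p - 1) := by
    rw [varpi, map_div₀, map_pow, map_pow]
    field_simp
  refine ⟨c (p - 1) * algebraMap K F (1 - ζ) ^ (p - 2),
    mul_mem (hc _).1 (pow_mem hwF _), ?_, ?_, ?_⟩
  · rw [smul_mul', smul_pow', (hc _).2, hσw]
  · have h1 := hle (p - 1) (by omega)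
    rw [map_mul, map_pow, hP] at h1
    rw [map_mul, map_pow]
    exact LEAD_le_one _ _ _ p hp2 hω0 hdd0 hdd h1
  · have h1 : x - c (p - 1) * algebraMap K F (1 - ζ) ^ (p - 2) * algebraMap K F (varpi p ζ g₁) =
        ∑ j ∈ Finset.range (p - 1), c j * algebraMap K F (g₁ - 1) ^ j := by
      have h2 : p = p - 1 + 1 := by omega
      rw [hγϖ, hxc]
      conv_lhs => rw [h2, Finset.sum_range_succ]
      simp
    rw [h1]
    exact Valuation.map_sum_lt _ hP0 hlt

end Fermat.Agent.MR.PL
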