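import Fermat.Agent.MR.PL.Interface

/-!
# MR / PL : (M2) `M_E(a) ≡ a ^ deg E` for a norm with `|a| = 1`, (M1) `M_E(a) ≡ Z_E` for the norm
with `|a| = |p|`.
-/

set_option autoImplicit false

namespace Fermat.Agent.MR.PL

open AlgebraicCurve
open Fermat.Agent.RED (Ev)

section U

variable {F Γ : Type*} [Field F] [LinearOrderedCommGroupWithZero Γ] (v : Valuation F Γ)

theorem MM_U_val {x : F} (hx : v (x - 1) < 1) : v x = 1 := by
  have h : x = 1 + (x - 1) := by ring
  rw [h, Valuation.map_add_eq_of_lt_left v (by rw [map_one]; exact hx), map_one]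

theorem MM_U_one : v ((1 : F) - 1) < 1 := by
  rw [sub_self, map_zero]; exact zero_lt_one

theorem MM_U_mul {x y : F} (hx : v (x - 1) < 1) (hy : v (y - 1) < 1) : v (x * y - 1) < 1 := by
  have h : x * y - 1 = x * (y - 1) + (x - 1) := by ring
  rw [h]
  refine lt_of_le_of_lt (v.map_add _ _) (max_lt ?_ hx)
  rw [map_mul, MM_U_val v hx, one_mul]
  exact hy

theorem MM_U_inv {x : F} (hx : v (x - 1) < 1) : v (x⁻¹ - 1) < 1 := by
  have hx1 := MM_U_val v hx
  have hx0 : x ≠ 0 := by
    rintro rfl
    rw [map_zero] at hx1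
    exact zero_ne_one hx1
  have h : x⁻¹ - 1 = (1 - x) * x⁻¹ := by field_simp
  rw [h, map_mul, map_inv₀, hx1, inv_one, mul_one, Valuation.map_sub_swap]
  exact hx

theorem MM_U_pow {x : F} (hx : v (x - 1) < 1) (k : ℕ) : v (x ^ k - 1) < 1 := by
  induction k with
  | zero => rw [pow_zero]; exact MM_U_one v
  | succ k ih => rw [pow_succ]; exact MM_U_mul v ih hx

theorem MM_U_zpow {x : F} (hx : v (x - 1) < 1) (k : ℤ) : v (x ^ k - 1) < 1 := by
  cases k with
  | ofNat k => rw [Int.ofNat_eq_natCast, zpow_natCast]; exact MM_U_pow v hx k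
  | negSucc k => rw [zpow_negSucc]; exact MM_U_inv v (MM_U_pow v hx _)

theorem MM_U_prod {ι : Type*} (s : Finset ι) (f : ι → F) (h : ∀ i ∈ s, v (f i - 1) < 1) :
    v (∏ i ∈ s, f i - 1) < 1 := by
  classical
  induction s using Finset.induction_on with
  | empty => rw [Finset.prod_empty]; exact MM_U_one v
  | insert i s hi ih =>
    rw [Finset.prod_insert hi]
    exact MM_U_mul v (h i (Finset.mem_insert_self i s))
      (ih fun j hj => h j (Finset.mem_insert_of_mem hj))

end U

theorem MM_zpow_sum {F ι : Type*} [Field F] {a : F} (ha : a ≠ 0) (s : Finset ι) (k : ι → ℤ) :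
    a ^ (∑ i ∈ s, k i) = ∏ i ∈ s, a ^ k i := by
  classical
  induction s using Finset.induction_on with
  | empty => simp
  | insert i s hi ih => rw [Finset.sum_insert hi, Finset.prod_insert hi, zpow_add₀ ha, ih]

theorem m2 : Stmt_M2 := by
  intro K F _ _ _ A W₁ W₂ a b R n hG L ha E hE
  have ha0 : a ≠ 0 := by
    rintro rfl
    rw [map_zero] at ha
    exact zero_ne_one ha
  have e : Mf a E / a ^ dg E
      = ∏ P ∈ E.support, ((a - algebraMap K F (val P a)) / a) ^ (E P) := by
    rw [Mf, dg, Finsupp.prod, Finsupp.sum, MM_zpow_sum ha0, ← Finset.prod_div_distrib]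
    exact Finset.prod_congr rfl fun P _ => (div_zpow _ _ _).symm
  rw [e]
  refine MM_U_prod _ _ _ fun P hP => MM_U_zpow _ ?_ _
  have hc : Centred A R n P := by
    by_contra hc
    exact (Finsupp.mem_support_iff.1 hP) (hE P hc)
  have hs : val P a ∈ A.nonunits := hc.val_small (L.n_sub a L.a_mem) L.a_mem
  have e2 : (a - algebraMap K F (val P a)) / a - 1 = -(algebraMap K F (val P a) / a) := by
    field_simp
    ring
  rw [e2, Valuation.map_neg, map_div₀, ha, div_one, hG.val_lt_one_iff]
  exact (ValuationSubring.mem_nonunits_iff A).1 hs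

theorem m1 (h1 : Stmt_W1) : Stmt_M1 := by
  intro K F _ _ _ p A W₁ W₂ a b R n S L E hE
  have hcen : ∀ P ∈ E.support, Centred A R n P := by
    intro P hP
    by_contra hc
    exact (Finsupp.mem_support_iff.1 hP) (hE P hc)
  have hα : ∀ P ∈ E.support, val P a ≠ 0 := by
    intro P hP h0
    have := (h1 K F p A W₁ W₂ a b R n S L P (hcen P hP)).1
    rw [h0, zero_mul] at this
    exact S.p_ne this.symm
  have hZ : Zc a E ≠ 0 := by
    rw [Zc, Finsupp.prod, Finset.prod_ne_zero_iff]
    exact fun P hP => zpow_ne_zero _ (neg_ne_zero.2 (hα P hP))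
  refine ⟨hZ, ?_⟩
  have e : Mf a E / algebraMap K F (Zc a E)
      = ∏ P ∈ E.support,
        ((a - algebraMap K F (val P a)) / algebraMap K F (-val P a)) ^ (E P) := by
    rw [Mf, Zc, Finsupp.prod, Finsupp.prod, map_prod, ← Finset.prod_div_distrib]
    refine Finset.prod_congr rfl fun P _ => ?_
    rw [map_zpow₀, div_zpow]
  rw [e]
  refine MM_U_prod _ _ _ fun P hP => MM_U_zpow _ ?_ _
  obtain ⟨hab, -, hβ⟩ := h1 K F p A W₁ W₂ a b R n S L P (hcen P hP)
  have hα0 : algebraMap K F (val P a) ≠ 0 := by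
    rw [Ne, map_eq_zero]; exact hα P hP
  have e2 : (a - algebraMap K F (val P a)) / algebraMap K F (-val P a) - 1
      = -(a / algebraMap K F (val P a)) := by
    rw [map_neg]
    field_simp
    ring
  have hva : W₁.valuation a = W₁.valuation (algebraMap K F (p : K)) := by
    rw [← S.ab, map_mul, S.b_unit, mul_one]
  have hv : W₁.valuation (a / algebraMap K F (val P a))
      = W₁.valuation (algebraMap K F (val P b)) := by
    rw [map_div₀, hva, ← hab, map_mul, map_mul,
      mul_div_cancel_left₀ _ ((Valuation.ne_zero_iff _).2 hα0)]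
  rw [e2, Valuation.map_neg, hv, S.g₁.val_lt_one_iff]
  exact (ValuationSubring.mem_nonunits_iff A).1 hβ

end Fermat.Agent.MR.PL
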