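import Fermat.Agent.MR.PL.Interface

/-!
# MR / PL : (NL) `g ∈ F₁`, `g ≡ 1`, `N(g) ≡ const` mod `< |w|`  ⟹  `g ≡ const` mod `< |π|`
-/

set_option autoImplicit false

namespace Fermat.Agent.MR.PL

open AlgebraicCurve Polynomial
open Fermat.Agent.RED (Ev)

/-- a product of norm `< 1` has a factor of norm `< 1`. -/
theorem NL_exists_lt_one {F : Type} [Field F] (W : ValuationSubring F) (s : Multiset F)
    (h : W.valuation s.prod < 1) : ∃ y ∈ s, W.valuation y < 1 := by
  induction s using Multiset.induction_on with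
  | empty => simp at h
  | cons a s ih =>
    rw [Multiset.prod_cons, map_mul] at h
    by_cases ha : W.valuation a < 1
    · exact ⟨a, Multiset.mem_cons_self a s, ha⟩
    · by_cases hs : W.valuation s.prod < 1
      · obtain ⟨y, hy, hy1⟩ := ih hs
        exact ⟨y, Multiset.mem_cons_of_mem hy, hy1⟩
      · exact absurd h (not_lt.2 (one_le_mul_of_one_le_of_one_le (not_lt.1 ha) (not_lt.1 hs)))

/-- a polynomial `α X^p + β X - c` over an algebraically closed field, `|α| = 1`: if its value at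
`γ` is small then `γ` is close to a constant. -/
theorem NL_root {K F : Type} [Field K] [IsAlgClosed K] [Field F] [Algebra K F]
    (W : ValuationSubring F) (p : ℕ) (hp : 2 ≤ p) (α β c : K)
    (hα : W.valuation (algebraMap K F α) = 1) (γ : F)
    (h : W.valuation (algebraMap K F α * γ ^ p + algebraMap K F β * γ - algebraMap K F c) < 1) :
    ∃ ρ : K, W.valuation (γ - algebraMap K F ρ) < 1 := by
  have hα0 : α ≠ 0 := by
    rintro rfl
    rw [map_zero, map_zero] at hα
    exact zero_ne_one hα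
  set q : K[X] := C α * X ^ p + (C β * X + C (-c)) with hq
  have hdeg : (C β * X + C (-c)).degree < (C α * X ^ p).degree := by
    rw [degree_C_mul_X_pow p hα0]
    refine lt_of_le_of_lt degree_linear_le ?_
    exact_mod_cast hp
  have hlc : q.leadingCoeff = α := by
    rw [hq, leadingCoeff_add_of_degree_lt' hdeg, leadingCoeff_C_mul_X_pow]
  have hfac := (IsAlgClosed.splits q).eq_prod_roots
  rw [hlc] at hfac
  have hev : aeval γ q = algebraMap K F α * γ ^ p + algebraMap K F β * γ - algebraMap K F c := by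
    rw [hq]
    simp only [map_add, map_mul, aeval_C, map_pow, aeval_X, map_neg]
    ring
  have hev2 : aeval γ q =
      algebraMap K F α * ((q.roots.map fun ρ => γ - algebraMap K F ρ)).prod := by
    conv_lhs => rw [hfac]
    rw [map_mul, aeval_C, map_multiset_prod, Multiset.map_map]
    congr 2
    refine Multiset.map_congr rfl fun ρ _ => ?_
    simp
  rw [← hev, hev2, map_mul, hα, one_mul] at h
  obtain ⟨y, hy, hy1⟩ := NL_exists_lt_one W _ h
  obtain ⟨ρ, -, rfl⟩ := Multiset.mem_map.1 hy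
  exact ⟨ρ, hy1⟩

/-- `|ϖ| = |π|`. -/
theorem NL_varpi_val {K : Type} [Field K] {p : ℕ} {A : ValuationSubring K} {ζ g₁ : K}
    (hp : 2 ≤ p) (fb : FBFacts p A ζ g₁) :
    A.valuation (varpi p ζ g₁) = A.valuation (piK ζ g₁) := by
  have ht : A.valuation (piK ζ g₁) ≠ 0 := (Valuation.ne_zero_iff _).2 fb.pi_ne
  rw [varpi, map_div₀, map_pow, map_pow, ← fb.pi_dl, ← fb.pi_pow,
    div_eq_iff (pow_ne_zero _ (pow_ne_zero _ ht)), ← pow_mul, ← pow_mul, ← pow_succ']
  congr 1
  obtain ⟨k, rfl⟩ := Nat.exists_eq_add_of_le hp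
  simp only [Nat.add_sub_cancel_left]
  have : 2 + k - 1 = k + 1 := by omega
  rw [this]
  ring

theorem nl (hfb : Stmt_FB) (hv : Stmt_VG1) (hl : Stmt_Lead) (h1 : Stmt_NL1) : Stmt_NL := by
  intro K F _ _ _ _ p A W σ F₁ ζ g₁ a₀ hD g hg hg1 c₁ hN
  have fb := hfb K F p A W σ F₁ ζ g₁ a₀ hD
  have G := hD.gauss
  have hp2 : 2 ≤ p := hD.prime.two_le
  have hP0 : W.valuation (algebraMap K F (piK ζ g₁)) ≠ 0 :=
    (Valuation.ne_zero_iff _).2 (by simpa using fb.pi_ne)
  have hP1 : W.valuation (algebraMap K F (piK ζ g₁)) < 1 := (G.val_lt_one_iff _).2 fb.pi_lt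
  have hω0 : W.valuation (algebraMap K F (1 - ζ)) ≠ 0 :=
    (Valuation.ne_zero_iff _).2 ((map_ne_zero (algebraMap K F)).2 fb.w_ne)
  have hx : g - 1 ∈ F₁ := F₁.sub_mem hg F₁.one_mem
  rcases eq_or_ne (g - 1) 0 with hx0 | hx0
  · refine ⟨1, ?_⟩
    rw [map_one, hx0, map_zero]
    exact zero_lt_iff.2 hP0
  -- `|x| ≤ |π|`
  obtain ⟨m, hm⟩ := hv K F p A W σ F₁ ζ g₁ a₀ hD (g - 1) hx hx0
  have hm1 : 1 ≤ m := by
    by_contra hcon
    have : 1 ≤ W.valuation (algebraMap K F (piK ζ g₁)) ^ m :=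
      one_le_zpow_of_nonpos₀ (zero_lt_iff.2 hP0) hP1.le (by omega)
    rw [← hm] at this
    exact absurd hg1 (not_lt.2 this)
  have hxP : W.valuation (g - 1) ≤ W.valuation (algebraMap K F (piK ζ g₁)) := by
    rw [hm]
    have := zpow_le_zpow_right_of_le_one₀ (zero_lt_iff.2 hP0) hP1.le hm1
    rwa [zpow_one] at this
  obtain ⟨γ, hγ, hσγ, hγ1, hlead⟩ := hl K F p A W σ F₁ ζ g₁ a₀ hD (g - 1) hx hxP
  obtain ⟨α, β, hα, -, hnl⟩ := h1 K F p A W σ F₁ ζ g₁ a₀ hD
  have h2 := hnl (g - 1) hx γ hγ hσγ hγ1 hlead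
  rw [add_sub_cancel] at h2
  -- the polynomial condition
  have h3 := Valuation.map_sub_lt _ hN h2
  have hw : algebraMap K F (1 - ζ) ≠ 0 := (map_ne_zero (algebraMap K F)).2 fb.w_ne
  have h4 : Nm σ p g - algebraMap K F c₁ - (Nm σ p g - (1 + algebraMap K F (1 - ζ) *
      (algebraMap K F α * γ ^ p + algebraMap K F β * γ))) =
      algebraMap K F (1 - ζ) * (algebraMap K F α * γ ^ p + algebraMap K F β * γ -
        algebraMap K F ((c₁ - 1) / (1 - ζ))) := by
    rw [map_div₀, map_sub (algebraMap K F) c₁ 1, map_one]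
    field_simp
    ring
  rw [h4, map_mul] at h3
  have h5 := (mul_lt_iff_lt_one_right (zero_lt_iff.2 hω0)).1 h3
  obtain ⟨ρ, hρ⟩ := NL_root W p hp2 α β _ ((G.val_eq_one_iff α).2 hα) γ h5
  refine ⟨1 + ρ * varpi p ζ g₁, ?_⟩
  have h6 : g - algebraMap K F (1 + ρ * varpi p ζ g₁) =
      (γ - algebraMap K F ρ) * algebraMap K F (varpi p ζ g₁) +
        (g - 1 - γ * algebraMap K F (varpi p ζ g₁)) := by
    rw [map_add, map_one, map_mul]
    ring
  rw [h6]
  refine Valuation.map_add_lt _ ?_ hlead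
  rw [map_mul, (G.val_eq_iff _ _).2 (NL_varpi_val hp2 fb)]
  exact mul_lt_of_lt_one_left (zero_lt_iff.2 hP0) hρ

end Fermat.Agent.MR.PL
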