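import Fermat.Agent.MR.PL.Interface

/-!
# MR / PL, task PL-NL1 (helper16): the norm of `1 + γ ϖ + (smaller)`.
-/

set_option autoImplicit false

namespace Fermat.Agent.MR.PL

open AlgebraicCurve

theorem NL1_prodle {F Γ : Type*} [Field F] [LinearOrderedCommGroupWithZero Γ] (v : Valuation F Γ)
    (P : Γ) (A : ℕ → F) (hA : ∀ i, v (A i) ≤ P) (m : ℕ) :
    v (∏ i ∈ Finset.range m, A i) ≤ P ^ m := by
  induction m with
  | zero => simp
  | succ m ih =>
    rw [Finset.prod_range_succ, map_mul, pow_succ]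
    exact mul_le_mul' ih (hA m)

theorem NL1_proddiff {F Γ : Type*} [Field F] [LinearOrderedCommGroupWithZero Γ] (v : Valuation F Γ)
    (P : Γ) (hP : P ≠ 0) (A B : ℕ → F) (hA : ∀ i, v (A i) ≤ P) (hB : ∀ i, v (B i) < P) (m : ℕ) :
    v (∏ i ∈ Finset.range (m + 1), (A i + B i) - ∏ i ∈ Finset.range (m + 1), A i) < P ^ (m + 1) := by
  have hP0 : 0 < P := zero_lt_iff.2 hP
  induction m with
  | zero => simpa using hB 0
  | succ m ih =>
    have e : ∏ i ∈ Finset.range (m + 1 + 1), (A i + B i) - ∏ i ∈ Finset.range (m + 1 + 1), A i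
        = (∏ i ∈ Finset.range (m + 1), (A i + B i) - ∏ i ∈ Finset.range (m + 1), A i)
            * (A (m + 1) + B (m + 1)) + (∏ i ∈ Finset.range (m + 1), A i) * B (m + 1) := by
      rw [Finset.prod_range_succ _ (m + 1), Finset.prod_range_succ _ (m + 1)]; ring
    rw [e, pow_succ P (m + 1)]
    have hAB : v (A (m + 1) + B (m + 1)) ≤ P :=
      (v.map_add _ _).trans (max_le (hA _) (hB _).le)
    have hPm : 0 < P ^ (m + 1) := pow_pos hP0 _
    refine Valuation.map_add_lt v ?_ ?_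
    · rw [map_mul]
      exact mul_lt_mul_of_lt_of_le_of_nonneg_of_pos ih hAB zero_le hP0
    · rw [map_mul]
      exact mul_lt_mul_of_le_of_lt_of_nonneg_of_pos (NL1_prodle v P A hA (m + 1)) (hB _) zero_le hPm

theorem NL1_prod_roots {K : Type*} [Field K] {ζ : K} {n : ℕ} (h : IsPrimitiveRoot ζ n) (hn : 0 < n)
    (f : K → K) : ∏ μ ∈ Polynomial.nthRootsFinset n (1 : K), f μ
      = ∏ i ∈ Finset.range n, f (ζ ^ i) := by
  symm
  refine Finset.prod_nbij (fun i => ζ ^ i) ?_ ?_ ?_ (fun _ _ => rfl)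
  · intro i _
    rw [Polynomial.mem_nthRootsFinset hn, ← pow_mul, mul_comm, pow_mul, h.pow_eq_one, one_pow]
  · intro i hi j hj hij
    exact h.pow_inj (Finset.mem_range.1 hi) (Finset.mem_range.1 hj) hij
  · intro μ hμ
    have hμ' : μ ^ n = 1 := (Polynomial.mem_nthRootsFinset hn (1 : K)).1 hμ
    have : NeZero n := ⟨hn.ne'⟩
    obtain ⟨i, hi, hiμ⟩ := h.eq_pow_of_pow_eq_one hμ'
    exact ⟨i, Finset.mem_coe.2 (Finset.mem_range.2 hi), hiμ⟩

/-- `∏_{i<n} (ζ^i g - 1) = g^n - 1` for `n` odd. -/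
theorem NL1_prod_sub_one {K : Type*} [Field K] {ζ : K} {n : ℕ} (h : IsPrimitiveRoot ζ n)
    (hn : Odd n) (g : K) : ∏ i ∈ Finset.range n, (ζ ^ i * g - 1) = g ^ n - 1 := by
  have h1 := h.pow_sub_pow_eq_prod_sub_mul 1 g hn.pos
  rw [NL1_prod_roots h hn.pos (fun μ => 1 - μ * g), one_pow] at h1
  have h2 : ∏ i ∈ Finset.range n, (ζ ^ i * g - 1) = ∏ i ∈ Finset.range n, (-1) * (1 - ζ ^ i * g) :=
    Finset.prod_congr rfl fun i _ => by ring
  rw [h2, Finset.prod_mul_distrib, ← h1, Finset.prod_const, Finset.card_range, hn.neg_one_pow]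
  ring

theorem NL1_Trc_add {K F : Type*} [Field K] [Field F] [Algebra K F] (σ : SemilinearAut K F) (p : ℕ)
    (y z : F) : Trc σ p (y + z) = Trc σ p y + Trc σ p z := by
  unfold Trc
  rw [← Finset.sum_add_distrib]
  exact Finset.sum_congr rfl fun i _ => smul_add _ _ _

theorem nl1 (hfb : Stmt_FB) (ht : Stmt_Tr) (hn : Stmt_Newt) : Stmt_NL1 := by
  intro K F _ _ _ p A W σ F₁ ζ g₁ a₀ hD
  have fb := hfb K F p A W σ F₁ ζ g₁ a₀ hD
  obtain ⟨ht1, ht2⟩ := ht K F p A W σ F₁ ζ g₁ a₀ hD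
  have hnw := hn K F p A W σ F₁ ζ g₁ a₀ hD
  have hodd : Odd p := hD.prime.odd_of_ne_two hD.odd
  obtain ⟨q, rfl⟩ : ∃ q, p = q + 2 := ⟨p - 2, by have := hD.prime.two_le; omega⟩
  have heven : Even (q + 1) := by
    obtain ⟨k, hk⟩ := hodd
    exact ⟨k, by omega⟩
  have gs := hD.gauss
  -- valuations of constants
  have hb0 : A.valuation (1 - ζ) ≠ 0 := (Valuation.ne_zero_iff _).2 fb.w_ne
  have ha0 : A.valuation (g₁ - 1) ≠ 0 := (Valuation.ne_zero_iff _).2 fb.dl_ne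
  have hpv : A.valuation (((q + 2 : ℕ) : K)) = A.valuation (1 - ζ) ^ (q + 1) := fb.p_val
  have hdv : A.valuation (g₁ - 1) ^ (q + 2) = A.valuation (1 - ζ) ^ (q + 1) := by
    rw [fb.dl_val]; exact hpv
  refine ⟨(((q + 2 : ℕ) : K) * a₀) ^ (q + 1) / (1 - ζ) ^ ((q + 1) * (q + 1)),
    ((q + 2 : ℕ) : K) / (1 - ζ) ^ (q + 1), ?_, ?_, ?_⟩
  · rw [map_div₀, map_pow, map_pow, map_mul, hpv, hD.a_unit, mul_one, ← pow_mul]
    exact div_self (pow_ne_zero _ hb0)
  · rw [map_div₀, map_pow, hpv]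
    exact div_self (pow_ne_zero _ hb0)
  intro x hx γ hγ hσγ hγ1 hxγ
  -- notation
  obtain ⟨Z, hZ⟩ : ∃ Z : F, Z = algebraMap K F ζ := ⟨_, rfl⟩
  obtain ⟨G, hG⟩ : ∃ G : F, G = algebraMap K F g₁ := ⟨_, rfl⟩
  obtain ⟨VP, hVPdef⟩ : ∃ VP : F, VP = algebraMap K F (varpi (q + 2) ζ g₁) := ⟨_, rfl⟩
  have hw : algebraMap K F (1 - ζ) = 1 - Z := by rw [map_sub, map_one, hZ]
  have hdl : algebraMap K F (g₁ - 1) = G - 1 := by rw [map_sub, map_one, hG]
  have hw0 : (1 - Z : F) ≠ 0 := by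
    rw [← hw]; exact (map_ne_zero (algebraMap K F)).2 fb.w_ne
  have hVP : VP = (G - 1) ^ (q + 1) * ((1 - Z) ^ q)⁻¹ := by
    rw [hVPdef]
    show algebraMap K F ((g₁ - 1) ^ (q + 1) / (1 - ζ) ^ q) = _
    rw [map_div₀, map_pow, map_pow, hw, hdl, div_eq_mul_inv]
  have hZmem : Z ∈ F₁ := hZ ▸ hD.zeta_mem
  have hGmem : G ∈ F₁ := hG ▸ hD.g_mem
  have hVPmem : VP ∈ F₁ := by
    rw [hVP]
    exact F₁.mul_mem (F₁.pow_mem (F₁.sub_mem hGmem F₁.one_mem) _)
      (F₁.inv_mem (F₁.pow_mem (F₁.sub_mem F₁.one_mem hZmem) _))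
  -- the action of `σ ^ i`
  have hσZ1 : σ • Z = Z := by rw [hZ, SemilinearAut.smul_algebraMap, hD.sig_zeta]
  have hσG1 : σ • G = Z * G := by rw [hG, hZ, SemilinearAut.smul_algebraMap, hD.sig_g, map_mul]
  have hσZ : ∀ i : ℕ, (σ ^ i) • Z = Z := by
    intro i
    induction i with
    | zero => simp
    | succ i ih => rw [pow_succ', mul_smul, ih, hσZ1]
  have hσγ' : ∀ i : ℕ, (σ ^ i) • γ = γ := by
    intro i
    induction i with
    | zero => simp
    | succ i ih => rw [pow_succ', mul_smul, ih, hσγ]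
  have hσG : ∀ i : ℕ, (σ ^ i) • G = Z ^ i * G := by
    intro i
    induction i with
    | zero => simp
    | succ i ih => rw [pow_succ', mul_smul, ih, smul_mul', smul_pow', hσZ1, hσG1]; ring
  have hσc : ∀ i : ℕ, (σ ^ i) • ((1 - Z) ^ q)⁻¹ = ((1 - Z) ^ q)⁻¹ := by
    intro i
    rw [smul_inv'', smul_pow', smul_sub, smul_one, hσZ]
  -- the norms
  obtain ⟨P, hPdef⟩ : ∃ P, P = W.valuation (algebraMap K F (piK ζ g₁)) := ⟨_, rfl⟩
  obtain ⟨ω, hωdef⟩ : ∃ ω, ω = W.valuation (algebraMap K F (1 - ζ)) := ⟨_, rfl⟩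
  rw [← hPdef] at hxγ
  rw [← hωdef]
  have hP0 : P ≠ 0 := by
    rw [hPdef]; exact (Valuation.ne_zero_iff _).2 ((map_ne_zero (algebraMap K F)).2 fb.pi_ne)
  have hPp : P ^ (q + 2) = ω := by
    have := (gs.val_eq_iff (piK ζ g₁ ^ (q + 2)) (1 - ζ)).2 (by rw [map_pow]; exact fb.pi_pow)
    rw [map_pow, map_pow] at this
    rw [hPdef, hωdef]; exact this
  have hdP : W.valuation (algebraMap K F (g₁ - 1)) * P = ω := by
    rw [hPdef, hωdef, ← map_mul, ← map_mul, piK, mul_div_cancel₀ _ fb.dl_ne]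
  have hvVP : W.valuation VP = P := by
    rw [hVPdef, hPdef, gs.val_eq_iff]
    show A.valuation ((g₁ - 1) ^ (q + 1) / (1 - ζ) ^ q) = A.valuation ((1 - ζ) / (g₁ - 1))
    rw [map_div₀, map_div₀, map_pow, map_pow, div_eq_div_iff (pow_ne_zero _ hb0) ha0, ← pow_succ,
      hdv, pow_succ']
  have hvγVP : W.valuation (γ * VP) ≤ P := by
    rw [map_mul, hvVP]
    calc W.valuation γ * P ≤ 1 * P := by gcongr
      _ = P := one_mul _
  obtain ⟨x', hx'def⟩ : ∃ x' : F, x' = x - γ * VP := ⟨_, rfl⟩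
  rw [← hVPdef, ← hx'def] at hxγ
  have hxsum : x = γ * VP + x' := by rw [hx'def]; ring
  have hx'mem : x' ∈ F₁ := by rw [hx'def]; exact F₁.sub_mem hx (F₁.mul_mem hγ hVPmem)
  have hvx : W.valuation x ≤ P := by
    rw [hxsum]
    exact (W.valuation.map_add _ _).trans (max_le hvγVP hxγ.le)
  -- (1) Newton
  have h1 := hnw x hx (hPdef ▸ hvx)
  rw [← hωdef] at h1
  -- (2) the trace
  have hTr1 : Trc σ (q + 2) (γ * VP) = algebraMap K F (1 - ζ) *
      (algebraMap K F (((q + 2 : ℕ) : K) / (1 - ζ) ^ (q + 1)) * γ) := by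
    have e1 : Trc σ (q + 2) (γ * VP)
        = γ * (Trc σ (q + 2) (algebraMap K F (g₁ - 1) ^ (q + 1)) * ((1 - Z) ^ q)⁻¹) := by
      unfold Trc
      rw [Finset.sum_mul, Finset.mul_sum]
      refine Finset.sum_congr rfl fun i _ => ?_
      rw [hVP, smul_mul', hσγ', smul_mul', hσc, hdl]
    rw [e1, ht1 (q + 1) (by omega), heven.neg_one_pow, one_mul, map_div₀, map_pow, hw]
    field_simp
    ring
  have hTr2 : W.valuation (Trc σ (q + 2) x') < ω := by
    refine lt_of_le_of_lt (ht2 x' hx'mem) ?_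
    rw [← hdP]
    have hd0 : 0 < W.valuation (algebraMap K F (g₁ - 1)) :=
      zero_lt_iff.2 ((Valuation.ne_zero_iff _).2 ((map_ne_zero (algebraMap K F)).2 fb.dl_ne))
    exact mul_lt_mul_of_le_of_lt_of_nonneg_of_pos le_rfl hxγ zero_le hd0
  -- (3) the norm
  have hNm1 : Nm σ (q + 2) (γ * VP) = algebraMap K F (1 - ζ) *
      (algebraMap K F ((((q + 2 : ℕ) : K) * a₀) ^ (q + 1) / (1 - ζ) ^ ((q + 1) * (q + 1)))
        * γ ^ (q + 2)) := by
    have e0 : ∏ i ∈ Finset.range (q + 2), (Z ^ i * G - 1)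
        = algebraMap K F (((q + 2 : ℕ) : K) * a₀) := by
      have := NL1_prod_sub_one fb.prim hodd g₁
      rw [hD.g_pow, add_sub_cancel_left] at this
      rw [← this, map_prod]
      refine Finset.prod_congr rfl fun i _ => ?_
      rw [map_sub, map_mul, map_pow, map_one, hZ, hG]
    have e1 : Nm σ (q + 2) (γ * VP) = γ ^ (q + 2) *
        ((∏ i ∈ Finset.range (q + 2), (Z ^ i * G - 1)) ^ (q + 1) * (((1 - Z) ^ q)⁻¹) ^ (q + 2)) := by
      unfold Nm
      have : ∀ i ∈ Finset.range (q + 2), (σ ^ i) • (γ * VP)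
          = γ * ((Z ^ i * G - 1) ^ (q + 1) * ((1 - Z) ^ q)⁻¹) := by
        intro i _
        rw [hVP, smul_mul', hσγ', smul_mul', hσc, smul_pow', smul_sub, smul_one, hσG]
      rw [Finset.prod_congr rfl this, Finset.prod_mul_distrib, Finset.prod_mul_distrib,
        Finset.prod_const, Finset.prod_const, Finset.card_range, Finset.prod_pow]
    have e2 : (q + 1) * (q + 1) = q * (q + 2) + 1 := by ring
    rw [e1, e0, map_div₀, map_pow, map_pow, hw, e2, pow_succ, inv_pow, ← pow_mul]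
    field_simp
    ring
  have hNm2 : W.valuation (Nm σ (q + 2) x - Nm σ (q + 2) (γ * VP)) < ω := by
    rw [← hPp]
    have := NL1_proddiff W.valuation P hP0 (fun i => (σ ^ i) • (γ * VP)) (fun i => (σ ^ i) • x')
      (fun i => by rw [iso_pow hD.sig_W]; exact hvγVP) (fun i => by rw [iso_pow hD.sig_W]; exact hxγ)
      (q + 1)
    have e : Nm σ (q + 2) x = ∏ i ∈ Finset.range (q + 1 + 1), ((σ ^ i) • (γ * VP) + (σ ^ i) • x') := by
      unfold Nm
      refine Finset.prod_congr rfl fun i _ => ?_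
      rw [← smul_add, ← hxsum]
    rw [e]
    exact this
  -- conclusion
  have hE : Nm σ (q + 2) (1 + x) - (1 + algebraMap K F (1 - ζ) *
      (algebraMap K F ((((q + 2 : ℕ) : K) * a₀) ^ (q + 1) / (1 - ζ) ^ ((q + 1) * (q + 1)))
        * γ ^ (q + 2) + algebraMap K F (((q + 2 : ℕ) : K) / (1 - ζ) ^ (q + 1)) * γ))
      = (Nm σ (q + 2) (1 + x) - (1 + Trc σ (q + 2) x + Nm σ (q + 2) x)) + Trc σ (q + 2) x'
        + (Nm σ (q + 2) x - Nm σ (q + 2) (γ * VP)) := by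
    have : Trc σ (q + 2) x = Trc σ (q + 2) (γ * VP) + Trc σ (q + 2) x' := by
      rw [← NL1_Trc_add, ← hxsum]
    rw [this, hTr1, hNm1]
    ring
  rw [hE]
  exact Valuation.map_add_lt _ (Valuation.map_add_lt _ h1 hTr2) hNm2

end Fermat.Agent.MR.PL
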