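import Fermat.Agent.MR.PL.Interface

/-!
# MR / PL, PL-NEWT : `N(1 + x) ≡ 1 + Tr x + N x` modulo `< |w|` for `|x| ≤ |π|`
-/

set_option autoImplicit false

namespace Fermat.Agent.MR.PL

open AlgebraicCurve

theorem newt (hfb : Stmt_FB) (ht : Stmt_Tr) (hn : Stmt_NewtAbs) : Stmt_Newt := by
  intro K F _ _ _ p A W σ F₁ ζ g₁ a₀ FD x hx hxP
  have FB := hfb K F p A W σ F₁ ζ g₁ a₀ FD
  have hG := FD.gauss
  obtain ⟨-, hT⟩ := ht K F p A W σ F₁ ζ g₁ a₀ FD
  -- the three constants
  have hP1 : W.valuation (algebraMap K F (piK ζ g₁)) < 1 := (hG.val_lt_one_iff _).2 FB.pi_lt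
  have hP0 : W.valuation (algebraMap K F (piK ζ g₁)) ≠ 0 :=
    (Valuation.ne_zero_iff _).2 ((map_ne_zero _).2 FB.pi_ne)
  have hd0 : W.valuation (algebraMap K F (g₁ - 1)) ≠ 0 :=
    (Valuation.ne_zero_iff _).2 ((map_ne_zero _).2 FB.dl_ne)
  have hw0 : W.valuation (algebraMap K F (1 - ζ)) ≠ 0 :=
    (Valuation.ne_zero_iff _).2 ((map_ne_zero _).2 FB.w_ne)
  have hprod : W.valuation (algebraMap K F (g₁ - 1)) * W.valuation (algebraMap K F (piK ζ g₁)) =
      W.valuation (algebraMap K F (1 - ζ)) := by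
    rw [← map_mul, ← map_mul, piK, mul_div_cancel₀ _ FB.dl_ne]
  -- the power sums
  have hsum : ∀ j : ℕ, ∑ i ∈ Finset.range p, ((σ ^ i) • x) ^ j = Trc σ p (x ^ j) := by
    intro j
    unfold Trc
    exact Finset.sum_congr rfl fun i _ => (smul_pow' _ _ _).symm
  have hbound : ∀ j : ℕ, W.valuation (∑ i ∈ Finset.range p, ((σ ^ i) • x) ^ j) ≤
      W.valuation (algebraMap K F (g₁ - 1)) * W.valuation (algebraMap K F (piK ζ g₁)) ^ j := by
    intro j
    rw [hsum]
    refine (hT _ (pow_mem hx j)).trans ?_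
    rw [map_pow]
    exact mul_le_mul_right (pow_le_pow_left₀ zero_le hxP j) _
  have key := hn F W p (fun i => (σ ^ i) • x) (W.valuation (algebraMap K F (1 - ζ))) FD.prime
    (fun k hk0 hkp => by
      rw [← map_natCast (algebraMap K F) k]
      exact (hG.val_eq_one_iff _).2 (FB.nat_unit k hk0 hkp))
    hw0
    (fun i => by
      show W.valuation ((σ ^ i) • x) < 1
      rw [iso_pow FD.sig_W]
      exact lt_of_le_of_lt hxP hP1)
    (fun j hj => by
      refine (hbound j).trans ?_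
      rw [← hprod]
      exact mul_le_mul_right (pow_le_of_le_one zero_le hP1.le (by omega)) _)
    (fun j hj => by
      refine lt_of_le_of_lt (hbound j) ?_
      rw [← hprod]
      refine mul_lt_mul_of_pos_left ?_ (zero_lt_iff.2 hd0)
      have h2 : W.valuation (algebraMap K F (piK ζ g₁)) ^ j ≤
          W.valuation (algebraMap K F (piK ζ g₁)) ^ 2 := pow_le_pow_of_le_one zero_le hP1.le hj
      refine lt_of_le_of_lt h2 ?_
      rw [pow_two]
      calc W.valuation (algebraMap K F (piK ζ g₁)) * W.valuation (algebraMap K F (piK ζ g₁))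
          < W.valuation (algebraMap K F (piK ζ g₁)) * 1 :=
            mul_lt_mul_of_pos_left hP1 (zero_lt_iff.2 hP0)
        _ = _ := mul_one _)
  have hN : Nm σ p (1 + x) = ∏ i ∈ Finset.range p, (1 + (σ ^ i) • x) := by
    unfold Nm
    exact Finset.prod_congr rfl fun i _ => by rw [smul_add, smul_one]
  rw [hN]
  exact key

end Fermat.Agent.MR.PL
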