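import Fermat.Agent.MR.PL.Interface

/-!
# MR / PL, task PL-NEWTABS : Newton identities, abstract form (`Stmt_NewtAbs`)
-/

set_option autoImplicit false

namespace Fermat.Agent.MR.PL

open Finset

section
variable {F Γ₀ : Type*} [Field F] [LinearOrderedCommGroupWithZero Γ₀] (v : Valuation F Γ₀)

theorem NEWTABS_mul_lt₁ {a b θ : Γ₀} (ha : a ≤ 1) (hb : b < θ) : a * b < θ :=
  lt_of_le_of_lt (by simpa using mul_le_mul_left ha b) hb

theorem NEWTABS_mul_lt₂ {a b θ : Γ₀} (ha : a < 1) (hb : b ≤ θ) (hθ : θ ≠ 0) : a * b < θ := by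
  rcases eq_or_ne b 0 with rfl | hb0
  · rw [mul_zero]; exact zero_lt_iff.2 hθ
  · calc a * b < 1 * b := mul_lt_mul_of_pos_right ha (zero_lt_iff.2 hb0)
      _ = b := one_mul b
      _ ≤ θ := hb

/-- elementary symmetric functions. -/
noncomputable def NEWTABS_E {n : ℕ} (X : Fin n → F) (k : ℕ) : F :=
  ∑ t ∈ powersetCard k (univ : Finset (Fin n)), ∏ i ∈ t, X i

theorem NEWTABS_E_eq {n : ℕ} (X : Fin n → F) (k : ℕ) :
    MvPolynomial.aeval X (MvPolynomial.esymm (Fin n) F k) = NEWTABS_E X k := by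
  simp [MvPolynomial.esymm, NEWTABS_E, map_sum, map_prod]

theorem NEWTABS_P_eq {n : ℕ} (X : Fin n → F) (k : ℕ) :
    MvPolynomial.aeval X (MvPolynomial.psum (Fin n) F k) = ∑ i, X i ^ k := by
  simp [MvPolynomial.psum, map_sum]

theorem NEWTABS_prod_le {n : ℕ} {X : Fin n → F} (hX : ∀ i, v (X i) < 1) (t : Finset (Fin n)) :
    v (∏ i ∈ t, X i) ≤ 1 := by
  rw [map_prod]
  exact Finset.prod_le_one' fun i _ => (hX i).le

theorem NEWTABS_prod_lt {n : ℕ} {X : Fin n → F} (hX : ∀ i, v (X i) < 1) {t : Finset (Fin n)}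
    (ht : t.Nonempty) : v (∏ i ∈ t, X i) < 1 := by
  obtain ⟨a, ha⟩ := ht
  rw [← Finset.mul_prod_erase t X ha, map_mul]
  exact mul_lt_one_of_lt_of_le (hX a) (NEWTABS_prod_le v hX _)

theorem NEWTABS_E_le {n : ℕ} {X : Fin n → F} (hX : ∀ i, v (X i) < 1) (k : ℕ) :
    v (NEWTABS_E X k) ≤ 1 :=
  Valuation.map_sum_le v fun t _ => NEWTABS_prod_le v hX t

theorem NEWTABS_E_lt {n : ℕ} {X : Fin n → F} (hX : ∀ i, v (X i) < 1) {k : ℕ} (hk : 0 < k) :
    v (NEWTABS_E X k) < 1 := by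
  refine Valuation.map_sum_lt v one_ne_zero fun t ht => NEWTABS_prod_lt v hX ?_
  rw [mem_powersetCard] at ht
  exact Finset.card_pos.1 (ht.2 ▸ hk)

theorem NEWTABS_newton {n : ℕ} (X : Fin n → F) (k : ℕ) :
    (k : F) * NEWTABS_E X k = (-1) ^ (k + 1) *
      ∑ a ∈ antidiagonal k with a.1 < k, (-1) ^ a.1 * NEWTABS_E X a.1 * ∑ i, X i ^ a.2 := by
  have h := congrArg (MvPolynomial.aeval X) (MvPolynomial.mul_esymm_eq_sum (Fin n) F k)
  simpa [map_mul, map_sum, map_pow, NEWTABS_E_eq, NEWTABS_P_eq] using h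

theorem NEWTABS_neg_one_pow (i : ℕ) : v ((-1 : F) ^ i) = 1 := by
  rw [map_pow, Valuation.map_neg, map_one, one_pow]

theorem NEWTABS_mid {n : ℕ} {X : Fin n → F} {θ : Γ₀} (hθ : θ ≠ 0) (hX : ∀ i, v (X i) < 1)
    (h1 : ∀ j : ℕ, 1 ≤ j → v (∑ i, X i ^ j) ≤ θ) (h2 : ∀ j : ℕ, 2 ≤ j → v (∑ i, X i ^ j) < θ)
    {k : ℕ} (hk2 : 2 ≤ k) (hk : v (k : F) = 1) : v (NEWTABS_E X k) < θ := by
  have h := congrArg v (NEWTABS_newton X k)
  rw [map_mul, hk, one_mul, map_mul, NEWTABS_neg_one_pow, one_mul] at h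
  rw [h]
  refine Valuation.map_sum_lt v hθ fun a ha => ?_
  rw [mem_filter, HasAntidiagonal.mem_antidiagonal] at ha
  rw [map_mul, map_mul, NEWTABS_neg_one_pow, one_mul]
  rcases Nat.eq_zero_or_pos a.1 with h0 | h0
  · exact NEWTABS_mul_lt₁ (NEWTABS_E_le v hX _) (h2 _ (by omega))
  · exact NEWTABS_mul_lt₂ (NEWTABS_E_lt v hX h0) (h1 _ (by omega)) hθ

theorem NEWTABS_expand {n : ℕ} (X : Fin n → F) :
    ∏ i, (1 + X i) = ∑ k ∈ range (n + 1), NEWTABS_E X k := by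
  rw [Finset.prod_one_add, Finset.sum_powerset]
  simp [NEWTABS_E]

theorem NEWTABS_E_zero {n : ℕ} (X : Fin n → F) : NEWTABS_E X 0 = 1 := by
  simp [NEWTABS_E]

theorem NEWTABS_E_one {n : ℕ} (X : Fin n → F) : NEWTABS_E X 1 = ∑ i, X i := by
  simp [NEWTABS_E, Finset.powersetCard_one]

theorem NEWTABS_E_top {n : ℕ} (X : Fin n → F) : NEWTABS_E X n = ∏ i, X i := by
  have : powersetCard n (univ : Finset (Fin n)) = {univ} := by
    have := Finset.powersetCard_self (univ : Finset (Fin n))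
    simpa using this
  simp [NEWTABS_E, this]

theorem NEWTABS_main {n : ℕ} (hn : 2 ≤ n) {X : Fin n → F} {θ : Γ₀} (hθ : θ ≠ 0)
    (hk : ∀ k : ℕ, 0 < k → k < n → v (k : F) = 1) (hX : ∀ i, v (X i) < 1)
    (h1 : ∀ j : ℕ, 1 ≤ j → v (∑ i, X i ^ j) ≤ θ) (h2 : ∀ j : ℕ, 2 ≤ j → v (∑ i, X i ^ j) < θ) :
    v (∏ i, (1 + X i) - (1 + ∑ i, X i + ∏ i, X i)) < θ := by
  have e : ∏ i, (1 + X i) - (1 + ∑ i, X i + ∏ i, X i) = ∑ k ∈ Ico 2 n, NEWTABS_E X k := by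
    rw [NEWTABS_expand, Finset.sum_range_succ, Finset.range_eq_Ico,
      Finset.sum_eq_sum_Ico_succ_bot (by omega), Finset.sum_eq_sum_Ico_succ_bot (by omega),
      NEWTABS_E_zero, NEWTABS_E_one, NEWTABS_E_top]
    ring
  rw [e]
  refine Valuation.map_sum_lt v hθ fun k hk' => ?_
  rw [mem_Ico] at hk'
  exact NEWTABS_mid v hθ hX h1 h2 hk'.1 (hk k (by omega) hk'.2)

end

theorem newtAbs : Stmt_NewtAbs := by
  intro F _ W p x θ hp hk hθ hx h1 h2
  have key := NEWTABS_main W.valuation hp.two_le (X := fun i : Fin p => x i) hθ hk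
    (fun i => hx i)
    (fun j hj => by rw [Fin.sum_univ_eq_sum_range (fun i => x i ^ j)]; exact h1 j hj)
    (fun j hj => by rw [Fin.sum_univ_eq_sum_range (fun i => x i ^ j)]; exact h2 j hj)
  rw [Fin.prod_univ_eq_prod_range (fun i => 1 + x i), Fin.sum_univ_eq_sum_range x,
    Fin.prod_univ_eq_prod_range x] at key
  exact key

end Fermat.Agent.MR.PL
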