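import Fermat.Agent.MR.PL.Interface

/-!
# MR / PL : divisor of `M_E(a)`; `M`, `Z`, `dg` of `m • E` (`Stmt_OrdM`, `Stmt_MSmul`)
-/

set_option autoImplicit false

namespace Fermat.Agent.MR.PL

open AlgebraicCurve

theorem ORDM_ord_prod {K F ι : Type*} [Field K] [Field F] [Algebra K F] (P : Place K F)
    (s : Finset ι) (f : ι → F) (k : ι → ℤ) (hf : ∀ i ∈ s, f i ≠ 0) :
    P.ord (∏ i ∈ s, f i ^ k i) = ∑ i ∈ s, k i * P.ord (f i) := by
  classical
  induction s using Finset.induction_on with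
  | empty => simp
  | insert i s hi ih =>
    have h1 : f i ≠ 0 := hf i (Finset.mem_insert_self i s)
    have h2 : ∀ j ∈ s, f j ≠ 0 := fun j hj => hf j (Finset.mem_insert_of_mem hj)
    have h3 : ∏ j ∈ s, f j ^ k j ≠ 0 :=
      Finset.prod_ne_zero_iff.2 fun j hj => zpow_ne_zero _ (h2 j hj)
    rw [Finset.prod_insert hi, Finset.sum_insert hi, Place.ord_mul _ (zpow_ne_zero _ h1) h3,
      Place.ord_zpow, ih h2]

theorem ordM : Stmt_OrdM := by
  intro K F _ _ _ A R n a hS E hE
  have hcen : ∀ P ∈ E.support, Centred A R n P := by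
    intro P hP
    by_contra hc
    exact (Finsupp.mem_support_iff.1 hP) (hE P hc)
  have hne : ∀ P ∈ E.support, a - algebraMap K F (val P a) ≠ 0 := by
    intro P hP h0
    have h1 := (hS P (hcen P hP)).1
    rw [h0, Place.ord_zero] at h1
    exact zero_ne_one h1
  have hM : Mf a E = ∏ P ∈ E.support, (a - algebraMap K F (val P a)) ^ (E P) := rfl
  refine ⟨?_, fun P' hP' => ?_⟩
  · rw [hM]
    exact Finset.prod_ne_zero_iff.2 fun P hP => zpow_ne_zero _ (hne P hP)
  · rw [hM, ORDM_ord_prod P' E.support (fun P => a - algebraMap K F (val P a)) (fun P => E P) hne,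
      Finset.sum_eq_single P']
    · rw [(hS P' hP').1, mul_one]
    · intro P hP hPP'
      rw [(hS P (hcen P hP)).2 P' hP' (Ne.symm hPP'), mul_zero]
    · intro hP
      rw [Finsupp.notMem_support_iff.1 hP, zero_mul]

theorem ORDM_prod_smul_index {α N : Type*} [CommMonoid N] (g : α →₀ ℤ) (b : ℤ) (h : α → ℤ → N)
    (h0 : ∀ i, h i 0 = 1) : (b • g).prod h = g.prod fun i c => h i (b * c) :=
  Finsupp.prod_mapRange_index (f := fun c => b * c) (hf := mul_zero b) h0

theorem mSmul : Stmt_MSmul := by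
  intro K F _ _ _ a E m
  refine ⟨?_, ?_, ?_⟩
  · unfold Mf
    rw [ORDM_prod_smul_index _ _ _ (fun _ => zpow_zero _)]
    unfold Finsupp.prod
    rw [← Finset.prod_pow]
    refine Finset.prod_congr rfl fun P _ => ?_
    beta_reduce
    rw [zpow_mul', zpow_natCast]
  · unfold Zc
    rw [ORDM_prod_smul_index _ _ _ (fun _ => zpow_zero _)]
    unfold Finsupp.prod
    rw [← Finset.prod_pow]
    refine Finset.prod_congr rfl fun P _ => ?_
    beta_reduce
    rw [zpow_mul', zpow_natCast]
  · unfold dg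
    rw [Finsupp.sum_smul_index (fun _ => rfl)]
    unfold Finsupp.sum
    rw [Finset.mul_sum]

end Fermat.Agent.MR.PL
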