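import Fermat.Agent.MR.PL.Interface2

/-!
# MR / PL : PL-PLA.  Output 2 (nodes, `u` defined over a field with value group `|w|^ℤ`)
-/

set_option autoImplicit false

namespace Fermat.Agent.MR.PL

open AlgebraicCurve
open Fermat.Agent.RED (Ev)

/-- from the congruences `p ∣ k s - k s'` to the common slope `δ`. -/
theorem PLA_conclude {K F : Type} [Field K] [Field F] [Algebra K F] (p : ℕ)
    (W₁ : ValuationSubring F) (b : F) (ι : Type) (R : ι → Subring F) (n : ι → Set F) (u : F)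
    (k : ι → ℤ) (hS : ∀ s, Shape K W₁ b (R s) (n s) u (-k s))
    (hd : ∀ s s', (p : ℤ) ∣ k s - k s') :
    ∃ δ : ℤ, ∀ s, ∃ m : ℤ, Shape K W₁ b (R s) (n s) u (δ + p * m) := by
  rcases isEmpty_or_nonempty ι with hι | ⟨⟨s0⟩⟩
  · exact ⟨0, fun s => (hι.false s).elim⟩
  · refine ⟨-k s0, fun s => ?_⟩
    obtain ⟨m, hm⟩ := hd s0 s
    refine ⟨m, ?_⟩
    have e : -k s0 + p * m = -k s := by rw [← hm]; ring
    rw [e]
    exact hS s

theorem plA (hc : Stmt_Core) (hf : Stmt_Fin) : Stmt_PLA := by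
  intro K F _ _ _ p A W₁ W₂ a b ι R n H w hp S hRes hL hN3 hw0 hw1 hpw hH hvg u D hu hD hHu
  have core := fun s => hc K F p A W₁ W₂ a b (R s) (n s) H S hRes (hL s) (hN3 s)
    (fun h hh => ⟨(hH h hh).1, (hH h hh).2 s⟩) u D hu hD hHu
  choose c₀ k r hc0 hrR hrn hueq hv2 hv1 hShape hZ hM2 hM1 hfixM using core
  have hZv : ∀ s, ∃ m : ℤ, A.valuation (Zc a (cpart A (R s) (n s) D)) = A.valuation w ^ m :=
    fun s => hvg _ (hZ s) fun h hh => (hfixM s h hh).2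
  have hwv : A.valuation w ≠ 0 := (Valuation.ne_zero_iff _).2 hw0
  have hzv : ∀ s s', ∃ m : ℤ, A.valuation (Zc a (cpart A (R s) (n s) D) /
      Zc a (cpart A (R s') (n s') D)) = A.valuation w ^ m := by
    intro s s'
    obtain ⟨m, hm⟩ := hZv s
    obtain ⟨m', hm'⟩ := hZv s'
    exact ⟨m - m', by rw [map_div₀, hm, hm', zpow_sub₀ hwv]⟩
  have hdvd := hf K F p A W₁ W₂ w u ι c₀ (fun s => Zc a (cpart A (R s) (n s) D)) k
    hp S.g₁ S.g₂ hw0 hw1 hpw (fun s => ⟨hc0 s, hZ s⟩) hv2 hv1 hzv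
  exact PLA_conclude p W₁ b ι R n u k hShape hdvd

end Fermat.Agent.MR.PL
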