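import Fermat.Agent.MR.PL.Interface2

/-!
# MR / PL : PL-PLB.  Output 3 (Theorem PL): final assembly
-/

set_option autoImplicit false

namespace Fermat.Agent.MR.PL

open AlgebraicCurve
open Fermat.Agent.RED (Ev)

/-- from the congruences `p ∣ k s - k s'` to the common slope `δ`. -/
theorem PLB_conclude {K F : Type} [Field K] [Field F] [Algebra K F] (p : ℕ)
    (W₁ : ValuationSubring F) (b : F) (ι : Type) (R : ι → Subring F) (n : ι → Set F) (u : F)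
    (k : ι → ℤ) (hS : ∀ s, Shape K W₁ b (R s) (n s) u (-k s))
    (hd : ∀ s s', (p : ℤ) ∣ k s - k s') :
    ∃ δ : ℤ, ∀ s, ∃ m : ℤ, Shape K W₁ b (R s) (n s) u (δ + p * m) := by
  rcases isEmpty_or_nonempty ι with hι | ⟨⟨s0⟩⟩
  · exact ⟨0, fun s => (hι.false s).elim⟩
  · refine ⟨-k s0, fun s => ?_⟩
    obtain ⟨m, hm⟩ := hd s0 s
    refine ⟨m, ?_⟩
    have e : -k s0 + p * m = -k s := by rw [← hm]; ring
    rw [e]
    exact hS s

theorem plB (hc : Stmt_Core) (hfb : Stmt_FB) (hy : Stmt_YC) (hx : Stmt_Xi) (hz : Stmt_ZV)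
    (hf : Stmt_Fin) : Stmt_PLB := by
  intro K F _ _ _ _ p A W₁ W₂ a b ι R n H σ F₁ ζ g₁ a₀ S hRes hL hN3 hF1 hF2 hσa hσR hH hfix
    u y g D j hu hD hHu hy1 hσy hg hyv1 hyv2 hYu
  have hFB := hfb K F p A W₁ σ F₁ ζ g₁ a₀ hF1
  have huF : u ∈ F₁ := hfix u hHu
  have haF : a ∈ F₁ := hfix a fun h hh => (hH h hh).1.a_fix
  obtain ⟨C₁, hC1, hC1'⟩ := hy K F p A W₁ σ F₁ ζ g₁ a₀ hF1 u y g j huF hy1 hg hu hσy hyv1 hYu
  obtain ⟨C₂, hC2, hC2'⟩ := hy K F p A W₂ σ F₁ ζ g₁ a₀ hF2 u y g j huF hy1 hg hu hσy hyv2 hYu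
  have core := fun s => hc K F p A W₁ W₂ a b (R s) (n s) H S hRes (hL s) (hN3 s)
    (fun h hh => ⟨(hH h hh).1, (hH h hh).2 s⟩) u D hu hD hHu
  choose c₀ k r hc0 hrR hrn hueq hv2 hv1 hShape hZ hM2 hM1 hfixM using core
  have hMF : ∀ s, Mf a (cpart A (R s) (n s) D) ∈ F₁ := fun s =>
    hfix _ fun h hh => (hfixM s h hh).1
  have hZF : ∀ s, algebraMap K F (Zc a (cpart A (R s) (n s) D)) ∈ F₁ := fun s =>
    hfix _ fun h hh => by rw [SemilinearAut.smul_algebraMap, (hfixM s h hh).2]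
  have hxi : ∀ s, A.valuation ((SemilinearAut.baseAut σ (Zc a (cpart A (R s) (n s) D)) /
      Zc a (cpart A (R s) (n s) D)) ^ p - C₁ / C₂) < A.valuation (1 - ζ) := fun s =>
    hx K F p A W₁ W₂ a b (R s) (n s) σ F₁ ζ g₁ a₀ S (hL s) hF1 hF2 hσa haF (hσR s) u _ (r s)
      (c₀ s) _ C₁ C₂ (k s) _ (hc0 s) (hMF s) (hZ s) (hZF s) (hrR s) (hrn s) (hueq s) (hM2 s)
      (hM1 s) hC1 hC2 hC1' hC2'
  have hC : A.valuation (C₁ / C₂) = 1 := by rw [map_div₀, hC1, hC2, div_one]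
  have hzv : ∀ s s', ∃ m : ℤ, A.valuation (Zc a (cpart A (R s) (n s) D) /
      Zc a (cpart A (R s') (n s') D)) = A.valuation (1 - ζ) ^ m := fun s s' =>
    hz K F p A W₁ σ F₁ ζ g₁ a₀ hF1 _ _ (C₁ / C₂) (hZ s) (hZ s') (hZF s) (hZF s') hC (hxi s)
      (hxi s')
  have hdvd := hf K F p A W₁ W₂ (1 - ζ) u ι c₀ (fun s => Zc a (cpart A (R s) (n s) D)) k
    hF1.prime S.g₁ S.g₂ hFB.w_ne hFB.w_lt hFB.p_val (fun s => ⟨hc0 s, hZ s⟩) hv2 hv1 hzv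
  exact PLB_conclude p W₁ b ι R n u k hShape hdvd

end Fermat.Agent.MR.PL
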