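import Fermat.Agent.MR.PL.Interface3

/-!
# MR / PL, task PL-PLC : Theorem PL from the two congruences `σ u / u ≡ C_i` modulo `< |w|`
-/

set_option autoImplicit false

namespace Fermat.Agent.MR.PL

open AlgebraicCurve
open Fermat.Agent.RED (Ev)

/-- **(PLC)** -/
theorem plC (hc : Stmt_Core) (hfb : Stmt_FB) (hx : Stmt_Xi) (hz : Stmt_ZV) (hf : Stmt_Fin) :
    Stmt_PLC := by
  intro K F _ _ _ p A W₁ W₂ a b ι R n H σ F₁ ζ g₁ a₀ S hres L hN3 D₁ D₂ hσa hσR hH hF₁ u D C₁ C₂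
    hu0 hord hHu hC1 hC2 hY1 hY2
  have haF : a ∈ F₁ := hF₁ a fun h hh => (hH h hh).1.a_fix
  have fb := hfb K F p A W₁ σ F₁ ζ g₁ a₀ D₁
  have core := fun s => hc K F p A W₁ W₂ a b (R s) (n s) H S hres (L s) (hN3 s)
    (fun h hh => ⟨(hH h hh).1, (hH h hh).2 s⟩) u D hu0 hord hHu
  choose c₀ k r hc₀ hr hrn hueq hv2 hv1 hshape hZ0 hM2 hM1 hfix using core
  have hZF : ∀ s, algebraMap K F (Zc a (cpart A (R s) (n s) D)) ∈ F₁ := fun s =>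
    hF₁ _ fun h hh => by rw [SemilinearAut.smul_algebraMap, (hfix s h hh).2]
  have hxi : ∀ s, A.valuation ((SemilinearAut.baseAut σ (Zc a (cpart A (R s) (n s) D))
      / Zc a (cpart A (R s) (n s) D)) ^ p - C₁ / C₂) < A.valuation (1 - ζ) := fun s =>
    hx K F p A W₁ W₂ a b (R s) (n s) σ F₁ ζ g₁ a₀ S (L s) D₁ D₂ hσa haF (hσR s) u
      (Mf a (cpart A (R s) (n s) D)) (r s) (c₀ s) (Zc a (cpart A (R s) (n s) D)) C₁ C₂ (k s)
      (dg (cpart A (R s) (n s) D)) (hc₀ s) (hF₁ _ fun h hh => (hfix s h hh).1) (hZ0 s) (hZF s)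
      (hr s) (hrn s) (hueq s) (hM2 s) (hM1 s) hC1 hC2 hY1 hY2
  have hzv : ∀ s s', ∃ m : ℤ, A.valuation (Zc a (cpart A (R s) (n s) D)
      / Zc a (cpart A (R s') (n s') D)) = A.valuation (1 - ζ) ^ m := fun s s' =>
    hz K F p A W₁ σ F₁ ζ g₁ a₀ D₁ _ _ (C₁ / C₂) (hZ0 s) (hZ0 s') (hZF s) (hZF s')
      (by rw [map_div₀, hC1, hC2, div_one]) (hxi s) (hxi s')
  have hfin := hf K F p A W₁ W₂ (1 - ζ) u ι c₀ (fun s => Zc a (cpart A (R s) (n s) D)) k D₁.prime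
    S.g₁ S.g₂ fb.w_ne fb.w_lt fb.p_val (fun s => ⟨hc₀ s, hZ0 s⟩) hv2 hv1 hzv
  by_cases hι : Nonempty ι
  · obtain ⟨s₀⟩ := hι
    refine ⟨-k s₀, fun s => ?_⟩
    obtain ⟨m, hm⟩ := hfin s₀ s
    refine ⟨m, ?_⟩
    have : -k s₀ + p * m = -k s := by linarith
    rw [this]
    exact hshape s
  · exact ⟨0, fun s => (hι ⟨s⟩).elim⟩

end Fermat.Agent.MR.PL
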