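import Fermat.Agent.MR.PL.Interface

/-!
# MR / PL : (PR-F) `|σ f - f| ≤ |π| |f|` on `F₁`, and (PR1)
-/

set_option autoImplicit false

namespace Fermat.Agent.MR.PL

open AlgebraicCurve
open Fermat.Agent.RED (Ev)

/-- `|(1 - X)^j - 1| ≤ |X|` for `|X| ≤ 1`. -/
theorem PRF_pow_sub_one {F : Type*} [Field F] (W : ValuationSubring F) {X : F}
    (hX : W.valuation X ≤ 1) (j : ℕ) : W.valuation ((1 - X) ^ j - 1) ≤ W.valuation X := by
  have h1 : W.valuation (1 - X) ≤ 1 := by
    refine (Valuation.map_sub _ _ _).trans (max_le ?_ hX)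
    rw [map_one]
  induction j with
  | zero => simp
  | succ j ih =>
    have e : (1 - X) ^ (j + 1) - 1 = ((1 - X) ^ j - 1) * (1 - X) - X := by ring
    rw [e]
    refine (Valuation.map_sub _ _ _).trans (max_le ?_ le_rfl)
    rw [map_mul]
    exact (mul_le_mul' ih h1).trans (by rw [mul_one])

/-- (PR-F) -/
theorem prf (hfb : Stmt_FB) (hd : Stmt_Dec) (ho : Stmt_Orth) : Stmt_PRF := by
  intro K F _ _ _ p A W σ F₁ ζ g₁ a₀ hD f hf
  have hB := hfb K F p A W σ F₁ ζ g₁ a₀ hD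
  obtain ⟨c, hc, hfc⟩ := hd K F p A W σ F₁ ζ g₁ a₀ hD f hf
  obtain ⟨-, ho2⟩ := ho K F p A W σ F₁ ζ g₁ a₀ hD c hc
  set DL : F := algebraMap K F (g₁ - 1) with hDL
  set X : F := algebraMap K F (piK ζ g₁ * g₁) with hX
  have hvX : W.valuation X = W.valuation (algebraMap K F (piK ζ g₁)) := by
    rw [hX, map_mul, map_mul, (hD.gauss.val_eq_one_iff g₁).2 hB.g_val, mul_one]
  have hX1 : W.valuation X ≤ 1 := by
    rw [hvX]
    exact ((hD.gauss.val_lt_one_iff _).2 hB.pi_lt).le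
  have hsDL : σ • DL = DL * (1 - X) := by
    rw [hDL, SemilinearAut.smul_algebraMap, map_sub, hD.sig_g, map_one, hX, ← map_one
      (algebraMap K F), ← map_sub, ← map_mul]
    congr 1
    rw [piK]
    have := hB.dl_ne
    field_simp
    ring
  have hterm : ∀ j, σ • (c j * DL ^ j) - c j * DL ^ j = c j * DL ^ j * ((1 - X) ^ j - 1) := by
    intro j
    rw [smul_mul', (hc j).2, smul_pow', hsDL, mul_pow]
    ring
  have hsum : σ • f - f = ∑ j ∈ Finset.range p, c j * DL ^ j * ((1 - X) ^ j - 1) := by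
    rw [hfc, Finset.smul_sum, ← Finset.sum_sub_distrib]
    exact Finset.sum_congr rfl fun j _ => hterm j
  rw [hsum]
  apply Valuation.map_sum_le
  intro j hj
  rw [map_mul, mul_comm, ← hvX]
  refine mul_le_mul' (PRF_pow_sub_one W hX1 j) ?_
  rw [hfc]
  exact ho2 j (Finset.mem_range.1 hj)

/-- (PR1) -/
theorem pr1 (hfb : Stmt_FB) (h : Stmt_PRF) : Stmt_PR1 := by
  intro K F _ _ _ p A W σ F₁ ζ g₁ a₀ hD e he he1
  have hB := hfb K F p A W σ F₁ ζ g₁ a₀ hD
  have h1 := h K F p A W σ F₁ ζ g₁ a₀ hD (e - 1) (F₁.sub_mem he F₁.one_mem)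
  have e1 : σ • (e - 1) - (e - 1) = σ • e - e := by
    rw [smul_sub, smul_one]; ring
  rw [e1] at h1
  have hP0 : W.valuation (algebraMap K F (piK ζ g₁)) ≠ 0 := by
    rw [Valuation.ne_zero_iff]
    simpa using hB.pi_ne
  have h2 : W.valuation (σ • e - e) < W.valuation (algebraMap K F (piK ζ g₁)) := by
    refine lt_of_le_of_lt h1 ?_
    exact mul_lt_of_lt_one_right (zero_lt_iff.2 hP0) he1
  have hve : W.valuation e = 1 := by
    have e2 : e = 1 + (e - 1) := by ring
    rw [e2]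
    exact Valuation.map_one_add_of_lt _ he1
  have he0 : e ≠ 0 := by
    intro h0
    rw [h0, map_zero] at hve
    exact zero_ne_one hve
  have e3 : σ • e / e - 1 = (σ • e - e) / e := by
    field_simp
  rw [e3, map_div₀, hve, div_one]
  exact h2

end Fermat.Agent.MR.PL
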