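import Fermat.Agent.MR.PL.Interface

/-!
# MR / PL : task PL-PRX (helper72).  `|σ f / f - 1| < |π|` implies `|f| ∈ |w|^ℤ`.
-/

set_option autoImplicit false

namespace Fermat.Agent.MR.PL

open AlgebraicCurve

/-- `(1 - x)^j = 1 - j x + x² h` with `h` integral. -/
theorem PRX_expand {F : Type} [Field F] (W : ValuationSubring F) (x : F) (hx : x ∈ W) (j : ℕ) :
    ∃ h ∈ W, (1 - x) ^ j = 1 - (j : F) * x + x ^ 2 * h := by
  induction j with
  | zero => exact ⟨0, W.zero_mem, by simp⟩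
  | succ j ih =>
    obtain ⟨h, hh, e⟩ := ih
    refine ⟨(j : F) + h - x * h, sub_mem (add_mem (natCast_mem W j) hh) (mul_mem hx hh), ?_⟩
    rw [pow_succ, e]
    push_cast
    ring

/-- `|(1 - x)^j - 1| = |x|` if `|x| < 1`, `|j| = 1`. -/
theorem PRX_pow_sub_one {F : Type} [Field F] (W : ValuationSubring F) (x : F)
    (hx : W.valuation x < 1) (j : ℕ) (hj : W.valuation (j : F) = 1) :
    W.valuation ((1 - x) ^ j - 1) = W.valuation x := by
  rcases eq_or_ne x 0 with rfl | hx0
  · simp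
  obtain ⟨h, hh, e⟩ := PRX_expand W x ((ValuationSubring.valuation_le_one_iff _ _).1 hx.le) j
  have e2 : (1 - x) ^ j - 1 = -((j : F) * x) + x ^ 2 * h := by rw [e]; ring
  have h1 : W.valuation (-((j : F) * x)) = W.valuation x := by
    rw [Valuation.map_neg, map_mul, hj, one_mul]
  have hpos : 0 < W.valuation x := zero_lt_iff.2 ((Valuation.ne_zero_iff _).2 hx0)
  have h2 : W.valuation (x ^ 2 * h) < W.valuation x := by
    rw [map_mul, map_pow, pow_two, mul_assoc]
    have h3 : W.valuation x * W.valuation h < 1 :=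
      mul_lt_one_of_lt_of_le hx ((ValuationSubring.valuation_le_one_iff _ _).2 hh)
    calc W.valuation x * (W.valuation x * W.valuation h) < W.valuation x * 1 :=
          mul_lt_mul_of_pos_left h3 hpos
      _ = W.valuation x := mul_one _
  rw [e2, Valuation.map_add_eq_of_lt_left _ (by rw [h1]; exact h2), h1]

theorem prx (hfb : Stmt_FB) (hd : Stmt_Dec) (ho : Stmt_Orth) (h1 : Stmt_PR1) : Stmt_PRX := by
  intro K F _ _ _ p A W σ F₁ ζ g₁ a₀ D f hf hf0 hlt
  have fb := hfb K F p A W σ F₁ ζ g₁ a₀ D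
  obtain ⟨c, hc, hfc⟩ := hd K F p A W σ F₁ ζ g₁ a₀ D f hf
  obtain ⟨o1, o2⟩ := ho K F p A W σ F₁ ζ g₁ a₀ D c hc
  rw [← hfc] at o2
  set DL : F := algebraMap K F (g₁ - 1) with hDL
  have hvf : W.valuation f ≠ 0 := (Valuation.ne_zero_iff _).2 hf0
  -- the dominant term
  obtain ⟨j0, hj0, hj0v⟩ : ∃ j0 < p, W.valuation (c j0 * DL ^ j0) = W.valuation f := by
    by_contra hcon
    push Not at hcon
    have : W.valuation f < W.valuation f := by
      conv_lhs => rw [hfc]
      exact Valuation.map_sum_lt _ hvf fun j hj =>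
        lt_of_le_of_ne (o2 j (Finset.mem_range.1 hj)) (hcon j (Finset.mem_range.1 hj))
    exact lt_irrefl _ this
  have hT0 : c j0 * DL ^ j0 ≠ 0 := (Valuation.ne_zero_iff _).1 (hj0v ▸ hvf)
  have hc0 : c j0 ≠ 0 := left_ne_zero_of_mul hT0
  rcases Nat.eq_zero_or_pos j0 with rfl | hpos
  · rw [pow_zero, mul_one] at hj0v
    rw [← hj0v]
    exact D.vg (c 0) (hc 0).1 hc0 (hc 0).2
  exfalso
  set T : F := c j0 * DL ^ j0 with hT
  have hvT : W.valuation T ≠ 0 := (Valuation.ne_zero_iff _).2 hT0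
  have hDLmem : DL ∈ F₁ := by
    rw [hDL, map_sub, map_one]
    exact F₁.sub_mem D.g_mem F₁.one_mem
  have hTmem : T ∈ F₁ := F₁.mul_mem (hc j0).1 (F₁.pow_mem hDLmem j0)
  have hEmem : f / T ∈ F₁ := F₁.div_mem hf hTmem
  have hfT : W.valuation (f - T) < W.valuation T := by
    have e : f - T = ∑ j ∈ (Finset.range p).erase j0, c j * DL ^ j := by
      rw [hfc, ← Finset.add_sum_erase _ _ (Finset.mem_range.2 hj0), add_sub_cancel_left]
    rw [e]
    refine Valuation.map_sum_lt _ hvT fun j hj => ?_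
    have hj' := Finset.mem_erase.1 hj
    have hjp := Finset.mem_range.1 hj'.2
    refine lt_of_le_of_ne ?_ ?_
    · rw [hj0v]
      exact o2 j hjp
    · exact (o1 j0 hj0 j hjp (Ne.symm hj'.1) hc0).symm
  have hE1 : W.valuation (f / T - 1) < 1 := by
    have : f / T - 1 = (f - T) / T := by field_simp
    rw [this, map_div₀]
    exact (div_lt_one₀ (zero_lt_iff.2 hvT)).2 hfT
  have ht := h1 K F p A W σ F₁ ζ g₁ a₀ D (f / T) hEmem hE1
  -- `σ DL = DL (1 - X)`
  set X : F := algebraMap K F (piK ζ g₁ * g₁) with hX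
  have hσDL : σ • DL = DL * (1 - X) := by
    rw [hDL, SemilinearAut.smul_algebraMap, map_sub, map_one, D.sig_g, hX,
      ← map_one (algebraMap K F), ← map_sub, ← map_mul]
    congr 1
    unfold piK
    have := fb.dl_ne
    field_simp
    ring
  have hvX : W.valuation X = W.valuation (algebraMap K F (piK ζ g₁)) := by
    rw [hX, map_mul, map_mul, (D.gauss.val_eq_one_iff g₁).2 fb.g_val, mul_one]
  have hPlt : W.valuation (algebraMap K F (piK ζ g₁)) < 1 :=
    (D.gauss.val_lt_one_iff _).2 fb.pi_lt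
  have hDL0 : DL ≠ 0 := fun h => hT0 (by rw [hT, h, zero_pow hpos.ne', mul_zero])
  have hσT : σ • T / T = (1 - X) ^ j0 := by
    rw [hT, smul_mul', smul_pow', (hc j0).2, hσDL, mul_pow]
    field_simp
  have hj0F : W.valuation ((j0 : ℕ) : F) = 1 := by
    rw [← map_natCast (algebraMap K F) j0]
    exact (D.gauss.val_eq_one_iff _).2 (fb.nat_unit j0 hpos hj0)
  have hs : W.valuation (σ • T / T - 1) = W.valuation (algebraMap K F (piK ζ g₁)) := by
    rw [hσT, PRX_pow_sub_one W X (hvX ▸ hPlt) j0 hj0F, hvX]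
  have hσT0 : σ • T ≠ 0 := by rwa [Ne, smul_eq_zero_iff_eq]
  have hcomb : σ • f / f - 1 = (σ • T / T - 1) + ((σ • (f / T) / (f / T) - 1) +
      (σ • T / T - 1) * (σ • (f / T) / (f / T) - 1)) := by
    have hσE : σ • (f / T) = σ • f / σ • T := by
      rw [div_eq_mul_inv f T, smul_mul' σ f T⁻¹, smul_inv'' σ T, ← div_eq_mul_inv]
    rw [hσE]
    generalize σ • T = sT at hσT0 ⊢
    generalize σ • f = sf
    clear_value T
    field_simp
    ring
  have hsmall : W.valuation ((σ • (f / T) / (f / T) - 1) +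
      (σ • T / T - 1) * (σ • (f / T) / (f / T) - 1)) < W.valuation (σ • T / T - 1) := by
    rw [hs]
    refine Valuation.map_add_lt _ ht ?_
    rw [map_mul, hs]
    exact lt_of_le_of_lt (mul_le_of_le_one_left zero_le hPlt.le) ht
  rw [hcomb, Valuation.map_add_eq_of_lt_left _ hsmall, hs] at hlt
  exact lt_irrefl _ hlt

end Fermat.Agent.MR.PL
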