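import Fermat.Agent.MR.PL.Interface

/-!
# MR / PL, task PL-POWP (helper92): `p`-th powers of one-units
-/

set_option autoImplicit false

namespace Fermat.Agent.MR.PL

open AlgebraicCurve
open Fermat.Agent.RED (Ev)

/-- the binomial expansion with an integral remainder. -/
theorem POWP_expand {F : Type*} [Field F] (W : ValuationSubring F) {p : ℕ} (hp : p.Prime) {x : F}
    (hx : W.valuation x ≤ 1) :
    ∃ r : F, W.valuation r ≤ 1 ∧ (1 + x) ^ p - 1 = x ^ p + (p : F) * x * r := by
  have hxW : x ∈ W := (ValuationSubring.valuation_le_one_iff _ _).1 hx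
  obtain ⟨r, hr⟩ := exists_add_pow_prime_eq hp (1 : W) ⟨x, hxW⟩
  refine ⟨r.1, (ValuationSubring.valuation_le_one_iff _ _).2 r.2, ?_⟩
  have h := congrArg (Subtype.val : W → F) hr
  have h' : (1 + x) ^ p = 1 ^ p + x ^ p + (p : F) * 1 * x * r.1 := by
    simpa using h
  rw [h']
  ring

/-- the abstract inequality in a linearly ordered group with zero. -/
theorem POWP_abs {F Γ : Type*} [Field F] [LinearOrderedCommGroupWithZero Γ] (v : Valuation F Γ)
    {p : ℕ} (hp2 : 2 ≤ p) {ω P dd : Γ} (hP0 : P ≠ 0) (hω0 : ω ≠ 0) (hdd0 : dd ≠ 0)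
    (ha : P ^ p = ω) (hb : v (p : F) = ω ^ (p - 1)) (hc : dd ^ p = v (p : F))
    (hd : P ^ (p - 1) = dd) (hdd : dd < 1) (hω : ω < 1) (hP : P < 1) {x r : F} (hr : v r ≤ 1) :
    v (x ^ p + (p : F) * x * r) < ω ↔ v x < P := by
  have hp0 : p ≠ 0 := by omega
  have hrem : v ((p : F) * x * r) ≤ v (p : F) * v x := by
    rw [map_mul, map_mul]
    exact mul_le_of_le_one_right' hr
  constructor
  · intro h
    by_contra hcon
    have hPx : P ≤ v x := not_lt.1 hcon
    have hx0 : 0 < v x := lt_of_lt_of_le (zero_lt_iff.2 hP0) hPx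
    have h1 : ω ≤ v (x ^ p) := by
      rw [map_pow, ← ha]
      exact pow_le_pow_left₀ zero_le hPx p
    have h2 : v (p : F) < v x ^ (p - 1) := by
      calc v (p : F) = dd ^ p := hc.symm
        _ < dd := pow_lt_self_of_lt_one₀ (zero_lt_iff.2 hdd0) hdd (by omega)
        _ = P ^ (p - 1) := hd.symm
        _ ≤ v x ^ (p - 1) := pow_le_pow_left₀ zero_le hPx _
    have h3 : v ((p : F) * x * r) < v (x ^ p) := by
      refine lt_of_le_of_lt hrem ?_
      have e : v (x ^ p) = v x ^ (p - 1) * v x := by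
        rw [map_pow, ← pow_succ, Nat.sub_add_cancel (by omega)]
      rw [e]
      exact mul_lt_mul_of_pos_right h2 hx0
    rw [Valuation.map_add_eq_of_lt_left _ h3] at h
    exact absurd h (not_lt.2 h1)
  · intro h
    refine Valuation.map_add_lt _ ?_ ?_
    · rw [map_pow, ← ha]
      exact pow_lt_pow_left₀ h zero_le hp0
    · refine lt_of_le_of_lt hrem ?_
      have h1 : v (p : F) ≤ ω := by
        rw [hb]
        exact pow_le_of_le_one zero_le hω.le (by omega)
      have h2 : v x < 1 := h.trans hP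
      calc v (p : F) * v x ≤ ω * v x := mul_le_mul_left h1 _
        _ < ω * 1 := mul_lt_mul_of_pos_left h2 (zero_lt_iff.2 hω0)
        _ = ω := mul_one _

/-- **PL-POWP**. -/
theorem powP : Stmt_PowP := by
  intro K F _ _ _ p A W ζ g₁ hp _ hG hF x hx
  obtain ⟨r, hr, he⟩ := POWP_expand W hp hx
  rw [he]
  have hcast : (p : F) = algebraMap K F (p : K) := (map_natCast (algebraMap K F) p).symm
  have hne : ∀ c : K, c ≠ 0 → W.valuation (algebraMap K F c) ≠ 0 := by
    intro c hc
    exact (Valuation.ne_zero_iff _).2 (by simpa using hc)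
  refine POWP_abs W.valuation hp.two_le (dd := W.valuation (algebraMap K F (g₁ - 1)))
    (hne _ hF.pi_ne) (hne _ hF.w_ne) (hne _ hF.dl_ne) ?_ ?_ ?_ ?_ ?_ ?_ ?_ hr
  · rw [← map_pow, ← map_pow, hG.val_eq_iff, map_pow]
    exact hF.pi_pow
  · rw [hcast, ← map_pow, ← map_pow, hG.val_eq_iff, map_pow]
    exact hF.p_val
  · rw [hcast, ← map_pow, ← map_pow, hG.val_eq_iff, map_pow]
    exact hF.dl_val
  · rw [← map_pow, ← map_pow, hG.val_eq_iff, map_pow]
    exact hF.pi_dl
  · exact (hG.val_lt_one_iff _).2 hF.dl_lt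
  · exact (hG.val_lt_one_iff _).2 hF.w_lt
  · exact (hG.val_lt_one_iff _).2 hF.pi_lt

end Fermat.Agent.MR.PL
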