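import Fermat.Agent.MR.PL.Interface
import Fermat.Agent.S24.PlaceBasic

/-!
# MR / PL : the decomposition at a smooth point (`Stmt_SDec`)
-/

set_option autoImplicit false

namespace Fermat.Agent.MR.PL

open AlgebraicCurve
open Fermat.Agent.RED (Ev)

theorem sDec (h2 : Stmt_W2s) (ho : Stmt_OrdM) (hm : Stmt_M2) : Stmt_SDec := by
  intro K F _ _ _ A W τ R n hG hRes L hτ g E hg hE hE0
  have hS := h2 K F A W τ R n hRes L
  obtain ⟨hM0, hMord⟩ := ho K F A R n τ hS E hE0
  have hτ0 : τ ≠ 0 := by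
    rintro rfl
    rw [map_zero] at hτ
    exact zero_ne_one hτ
  set M := Mf τ E with hM
  have hg' : g / M ≠ 0 := div_ne_zero hg hM0
  obtain ⟨c, hc, hcv⟩ := hG.exists_const hg'
  have hc' : algebraMap K F c ≠ 0 := by simpa using hc
  set r := g / M / algebraMap K F c with hr
  have hr0 : r ≠ 0 := div_ne_zero hg' hc'
  have hrv : W.valuation r = 1 := by
    rw [hr, map_div₀, hcv]
    exact div_self ((Valuation.ne_zero_iff _).2 hc')
  have hrW : r ∈ W := (ValuationSubring.valuation_le_one_iff _ _).1 hrv.le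
  have hrW' : r⁻¹ ∈ W := by
    apply (ValuationSubring.valuation_le_one_iff _ _).1
    rw [map_inv₀, hrv, inv_one]
  have hord : ∀ P : Place K F, Centred A R n P → P.ord r = 0 := by
    intro P hP
    rw [hr, div_eq_mul_inv, div_eq_mul_inv, Place.ord_mul _ (mul_ne_zero hg (inv_ne_zero hM0))
      (inv_ne_zero hc'), Place.ord_mul _ hg (inv_ne_zero hM0), Place.ord_inv, Place.ord_inv,
      hMord P hP, hE P hP, Fermat.Agent.S24.ord_algebraMap P c]
    ring
  have hrR : r ∈ R := L.reg r hrW hrW fun P hP =>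
    Fermat.Agent.S24.mem_of_ord_nonneg P hr0 (by rw [hord P hP])
  have hrR' : r⁻¹ ∈ R := L.reg r⁻¹ hrW' hrW' fun P hP =>
    Fermat.Agent.S24.mem_of_ord_nonneg P (inv_ne_zero hr0) (by rw [Place.ord_inv, hord P hP, neg_zero])
  have hrn : r ∉ n := by
    intro h
    rcases ((L.mem_n_iff r).1 h).2 with h0 | h0
    · exact hr0 h0
    · exact h0 hrR'
  refine ⟨c, M / τ ^ dg E, r, hc, hm K F A W W τ τ R n hG L hτ E hE0, hrR, hrn, ?_⟩
  have hτk : τ ^ dg E ≠ 0 := zpow_ne_zero _ hτ0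
  rw [hr]
  field_simp

end Fermat.Agent.MR.PL
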