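import Fermat.Agent.MR.PL.Interface

/-!
# MR / PL, task PL-SL (helper92): slopes
-/

set_option autoImplicit false

namespace Fermat.Agent.MR.PL

open AlgebraicCurve
open Fermat.Agent.RED (Ev)

/-- one-units have norm one. -/
theorem SL_val_eq_one {F : Type*} [Field F] (W : ValuationSubring F) {x : F}
    (h : W.valuation (x - 1) < 1) : W.valuation x = 1 := by
  have e : x = 1 + (x - 1) := by ring
  rw [e]
  exact Valuation.map_one_add_of_lt _ h

/-- (SL) -/
theorem sl (hm1 : Stmt_M1) (hm2 : Stmt_M2) : Stmt_SL := by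
  intro K F _ _ _ p A W₁ W₂ a b R n S L E g r c₀ k hE hc₀ hr hrn hg
  obtain ⟨hZ, hM1⟩ := hm1 K F p A W₁ W₂ a b R n S L E hE
  have hM2 := hm2 K F A W₁ W₂ a b R n S.g₂ L S.a_unit E hE
  have h2M : W₂.valuation (Mf a E) = 1 := by
    have := SL_val_eq_one W₂ hM2
    rw [map_div₀, map_zpow₀, S.a_unit, one_zpow, div_one] at this
    exact this
  have hi : W₂.valuation g = W₂.valuation (algebraMap K F c₀) := by
    rw [hg, map_mul, map_mul, map_mul, map_zpow₀, S.a_unit, one_zpow, h2M, L.val₂_eq_one hr hrn,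
      mul_one, mul_one, mul_one]
  have hb0 : b ≠ 0 := by
    intro h
    have := S.b_unit
    rw [h, map_zero] at this
    exact zero_ne_one this
  have hbk : b ^ k ≠ 0 := zpow_ne_zero _ hb0
  have hak : a ^ k = algebraMap K F (p : K) ^ k * (b ^ k)⁻¹ := by
    rw [← S.ab, mul_zpow, mul_assoc, mul_inv_cancel₀ hbk, mul_one]
  have hZ' : algebraMap K F (Zc a E) ≠ 0 := by simpa using hZ
  have hshape : g = algebraMap K F (c₀ * (p : K) ^ k * Zc a E) * b ^ (-k) *
      (Mf a E / algebraMap K F (Zc a E)) * r := by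
    rw [hg, map_mul, map_mul, map_zpow₀, zpow_neg, hak]
    field_simp
  refine ⟨hi, ?_, c₀ * (p : K) ^ k * Zc a E, Mf a E / algebraMap K F (Zc a E), r,
    mul_ne_zero (mul_ne_zero hc₀ (zpow_ne_zero _ S.p_ne)) hZ, hM1, hr, hrn, hshape⟩
  conv_lhs => rw [hshape]
  rw [map_mul, map_mul, map_mul, map_zpow₀, S.b_unit, one_zpow, SL_val_eq_one W₁ hM1,
    L.val₁_eq_one hr hrn, mul_one, mul_one, mul_one]

end Fermat.Agent.MR.PL
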