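import Fermat.Agent.MR.PL.Interface

/-!
# MR / PL : PL-SMOOTH.  Output 1 (smooth points)
-/

set_option autoImplicit false

namespace Fermat.Agent.MR.PL

open AlgebraicCurve
open Fermat.Agent.RED (Ev)

section

variable {K F : Type} [Field K] [Field F] [Algebra K F]

theorem SMOOTH_cpart_of_centred (A : ValuationSubring K) (R : Subring F) (n : Set F)
    (D : Divisor K F) {P : Place K F} (h : Centred A R n P) : cpart A R n D P = D P := by
  classical
  unfold cpart
  rw [Finsupp.filter_apply]
  exact if_pos h

theorem SMOOTH_cpart_of_not_centred (A : ValuationSubring K) (R : Subring F) (n : Set F)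
    (D : Divisor K F) {P : Place K F} (h : ¬ Centred A R n P) : cpart A R n D P = 0 := by
  classical
  unfold cpart
  rw [Finsupp.filter_apply]
  exact if_neg h

end

theorem smooth (hs : Stmt_SDec) (hm : Stmt_MSmul) : Stmt_Smooth := by
  intro K F _ _ _ p A W τ R n hG hRes hL hτ u D hu hD
  refine ⟨dg (cpart A R n D), ?_⟩
  rw [← (hm K F τ (cpart A R n D) p).2.2]
  refine hs K F A W τ R n hG hRes hL hτ u _ hu (fun P hP => ?_) (fun P hP => ?_)
  · rw [Finsupp.smul_apply, smul_eq_mul, SMOOTH_cpart_of_centred A R n D hP, hD]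
  · rw [Finsupp.smul_apply, smul_eq_mul, SMOOTH_cpart_of_not_centred A R n D hP, mul_zero]

end Fermat.Agent.MR.PL
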