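import Fermat.Agent.MR.PL.Interface

/-!
# MR / PL : PL-TR, traces: `Tr(dl^j) = (-1)^j p`, `|Tr z| ≤ |dl| |z|`
-/

set_option autoImplicit false

namespace Fermat.Agent.MR.PL

open AlgebraicCurve
open Fermat.Agent.RED (Ev)

section TR

variable {K F : Type} [Field K] [Field F] [Algebra K F]

theorem TR_pow_smul_fixed (σ : SemilinearAut K F) {x : F} (hx : σ • x = x) (i : ℕ) :
    (σ ^ i) • x = x := by
  induction i with
  | zero => rw [pow_zero, one_smul]
  | succ i ih => rw [pow_succ', mul_smul, ih, hx]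

theorem TR_pow_smul_G (σ : SemilinearAut K F) {G Z : F} (hZ : σ • Z = Z) (hG : σ • G = Z * G)
    (i : ℕ) : (σ ^ i) • G = Z ^ i * G := by
  induction i with
  | zero => rw [pow_zero, one_smul, pow_zero, one_mul]
  | succ i ih =>
    rw [pow_succ', mul_smul, ih, smul_mul', smul_pow', hZ, hG, pow_succ, mul_assoc]

theorem TR_geom {Z : F} {p m : ℕ} (hZp : Z ^ p = 1) (hm : Z ^ m ≠ 1) :
    ∑ i ∈ Finset.range p, (Z ^ m) ^ i = 0 := by
  have h1 := mul_geom_sum (Z ^ m) p
  rw [← pow_mul, mul_comm m p, pow_mul, hZp, one_pow, sub_self] at h1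
  rcases mul_eq_zero.1 h1 with h2 | h2
  · exact absurd (sub_eq_zero.1 h2) hm
  · exact h2

/-- the trace of `(G - 1) ^ j`. -/
theorem TR_trc_pow (σ : SemilinearAut K F) {G Z : F} {p : ℕ} (hZ : σ • Z = Z)
    (hG : σ • G = Z * G) (hZp : Z ^ p = 1) (hZm : ∀ m, m ≠ 0 → m < p → Z ^ m ≠ 1) (j : ℕ)
    (hj : j < p) : Trc σ p ((G - 1) ^ j) = (-1) ^ j * (p : F) := by
  unfold Trc
  have h1 : ∀ i ∈ Finset.range p, (σ ^ i) • (G - 1) ^ j
      = ∑ m ∈ Finset.range (j + 1), (Z ^ m) ^ i * (G ^ m * (-1) ^ (j - m) * (j.choose m : F)) := by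
    intro i _
    rw [smul_pow', smul_sub, smul_one, TR_pow_smul_G σ hZ hG, sub_eq_add_neg, add_pow]
    refine Finset.sum_congr rfl (fun m _ => ?_)
    rw [mul_pow, ← pow_mul, ← pow_mul, mul_comm i m]
    ring
  rw [Finset.sum_congr rfl h1, Finset.sum_comm]
  rw [Finset.sum_eq_single 0]
  · simp only [pow_zero, one_pow, Nat.sub_zero, Nat.choose_zero_right, Nat.cast_one, mul_one,
      one_mul, Finset.sum_const, Finset.card_range, nsmul_eq_mul]
    ring
  · intro m hm hm0
    rw [← Finset.sum_mul, TR_geom hZp (hZm m hm0 (lt_of_le_of_lt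
      (Nat.lt_succ_iff.1 (Finset.mem_range.1 hm)) hj)), zero_mul]
  · intro h
    exact absurd (Finset.mem_range.2 (Nat.succ_pos j)) h

end TR

theorem tr (hfb : Stmt_FB) (hd : Stmt_Dec) (ho : Stmt_Orth) : Stmt_Tr := by
  intro K F _ _ _ p A W σ F₁ ζ g₁ a₀ hD
  have hB := hfb K F p A W σ F₁ ζ g₁ a₀ hD
  have hZ : σ • algebraMap K F ζ = algebraMap K F ζ := by
    rw [SemilinearAut.smul_algebraMap, hD.sig_zeta]
  have hG : σ • algebraMap K F g₁ = algebraMap K F ζ * algebraMap K F g₁ := by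
    rw [SemilinearAut.smul_algebraMap, hD.sig_g, map_mul]
  have hZp : algebraMap K F ζ ^ p = 1 := by rw [← map_pow, hD.zeta_pow, map_one]
  have hZm : ∀ m, m ≠ 0 → m < p → algebraMap K F ζ ^ m ≠ 1 := by
    intro m hm0 hmp h
    rw [← map_pow, ← map_one (algebraMap K F)] at h
    exact hB.prim.pow_ne_one_of_pos_of_lt hm0 hmp ((algebraMap K F).injective h)
  have hDL : algebraMap K F (g₁ - 1) = algebraMap K F g₁ - 1 := by rw [map_sub, map_one]
  have ha : ∀ j < p, Trc σ p (algebraMap K F (g₁ - 1) ^ j)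
      = algebraMap K F ((-1) ^ j * (p : K)) := by
    intro j hj
    rw [hDL, TR_trc_pow σ hZ hG hZp hZm j hj, map_mul, map_pow, map_neg, map_one, map_natCast]
  refine ⟨ha, ?_⟩
  intro z hz
  obtain ⟨c, hc, hzc⟩ := hd K F p A W σ F₁ ζ g₁ a₀ hD z hz
  have ho2 := (ho K F p A W σ F₁ ζ g₁ a₀ hD c hc).2
  rw [← hzc] at ho2
  have hT : Trc σ p z = ∑ j ∈ Finset.range p, c j * algebraMap K F ((-1) ^ j * (p : K)) := by
    have h1 : Trc σ p z = ∑ i ∈ Finset.range p, ∑ j ∈ Finset.range p,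
        c j * (σ ^ i) • (algebraMap K F (g₁ - 1) ^ j) := by
      unfold Trc
      refine Finset.sum_congr rfl (fun i _ => ?_)
      rw [hzc, Finset.smul_sum]
      refine Finset.sum_congr rfl (fun j _ => ?_)
      rw [smul_mul', TR_pow_smul_fixed σ (hc j).2]
    rw [h1, Finset.sum_comm]
    refine Finset.sum_congr rfl (fun j hj => ?_)
    rw [← Finset.mul_sum, ← ha j (Finset.mem_range.1 hj)]
    rfl
  rw [hT]
  apply Valuation.map_sum_le
  intro j hj
  have hjp : j < p := Finset.mem_range.1 hj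
  have hvp : W.valuation (algebraMap K F (p : K)) = W.valuation (algebraMap K F (g₁ - 1)) ^ p := by
    rw [← map_pow, ← map_pow, hD.gauss.val_eq_iff, map_pow, hB.dl_val]
  have hdd : W.valuation (algebraMap K F (g₁ - 1)) ≤ 1 :=
    ((hD.gauss.val_lt_one_iff _).2 hB.dl_lt).le
  have hneg : W.valuation ((-1 : F) ^ j) = 1 := by
    rw [map_pow, Valuation.map_neg, map_one, one_pow]
  have hpj : p = j + (p - j) := by omega
  calc W.valuation (c j * algebraMap K F ((-1) ^ j * (p : K)))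
      = W.valuation (c j * algebraMap K F (g₁ - 1) ^ j)
          * W.valuation (algebraMap K F (g₁ - 1)) ^ (p - j) := by
        rw [map_mul (algebraMap K F), map_pow (algebraMap K F), map_neg, map_one, map_mul, map_mul,
          hneg, one_mul, hvp, map_mul, map_pow, mul_assoc, ← pow_add, ← hpj]
    _ ≤ W.valuation z * W.valuation (algebraMap K F (g₁ - 1)) :=
        mul_le_mul' (ho2 j hjp) (pow_le_of_le_one zero_le hdd (by omega))
    _ = W.valuation (algebraMap K F (g₁ - 1)) * W.valuation z := mul_comm _ _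

end Fermat.Agent.MR.PL
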