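import Fermat.Agent.MR.PL.Interface

/-!
# MR / PL, task PL-U : the gluing lemma (U)
-/

set_option autoImplicit false

namespace Fermat.Agent.MR.PL

open AlgebraicCurve
open Fermat.Agent.RED (Ev)

/-- **(U)** -/
theorem uLemma : Stmt_U := by
  intro K F _ _ _ A W₁ W₂ a b R n g₁ g₂ L r l₁ l₂ d hr h₁ h₂
  by_contra hcon
  rw [not_lt] at hcon
  -- `l₁ - l₂ ≠ 0`
  have hl : l₁ - l₂ ≠ 0 := by
    intro h0
    rw [h0, map_zero, le_zero_iff, map_eq_zero] at hcon
    rw [hcon, map_zero, map_zero] at h₁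
    exact not_lt_zero h₁
  have hl' : algebraMap K F (l₁ - l₂) ≠ 0 := (map_ne_zero (algebraMap K F)).2 hl
  have hv₁ : W₁.valuation (algebraMap K F (l₁ - l₂)) ≠ 0 := (Valuation.ne_zero_iff _).2 hl'
  have hv₂ : W₂.valuation (algebraMap K F (l₁ - l₂)) ≠ 0 := (Valuation.ne_zero_iff _).2 hl'
  set e : F := (r - algebraMap K F l₂) / algebraMap K F (l₁ - l₂) with he
  have he1 : e - 1 = (r - algebraMap K F l₁) / algebraMap K F (l₁ - l₂) := by
    rw [he, div_sub_one hl', map_sub]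
    congr 1
    ring
  have hs₂ : e ∈ W₂.nonunits := by
    rw [ValuationSubring.mem_nonunits_iff, he, map_div₀, div_lt_one₀ (zero_lt_iff.2 hv₂)]
    exact lt_of_lt_of_le h₂ ((g₂.val_le_iff _ _).2 hcon)
  have hs₁ : e - 1 ∈ W₁.nonunits := by
    rw [ValuationSubring.mem_nonunits_iff, he1, map_div₀, div_lt_one₀ (zero_lt_iff.2 hv₁)]
    exact lt_of_lt_of_le h₁ ((g₁.val_le_iff _ _).2 hcon)
  have hW₂ : e ∈ W₂ := W₂.nonunits_subset hs₂
  have hW₁ : e ∈ W₁ := by
    have := W₁.add_mem _ _ (W₁.nonunits_subset hs₁) W₁.one_mem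
    rwa [sub_add_cancel] at this
  have hR : e ∈ R := by
    refine L.reg e hW₁ hW₂ fun P hP => ?_
    have h1 : r ∈ P.toValuationSubring := Fermat.Agent.RED.ev_mem (hP.ev hr)
    have h2 : r - algebraMap K F l₂ ∈ P.toValuationSubring :=
      P.toValuationSubring.sub_mem h1 (P.algebraMap_mem' l₂)
    have h3 : (algebraMap K F (l₁ - l₂))⁻¹ ∈ P.toValuationSubring := by
      rw [← map_inv₀]
      exact P.algebraMap_mem' _
    rw [he, div_eq_mul_inv]
    exact P.toValuationSubring.mul_mem _ _ h2 h3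
  have hn₂ : e ∈ n := L.small₂ e hR hs₂
  have hn₁ : e - 1 ∈ n := L.small₁ _ (R.sub_mem hR R.one_mem) hs₁
  have := L.sub_mem hn₂ hn₁
  rw [sub_sub_cancel] at this
  exact L.one_not_mem this

end Fermat.Agent.MR.PL
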