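import Fermat.Agent.MR.PL.Interface

/-!
# MR / PL : (VG1) the value group of `F₁` is `|π|^ℤ`   (helper97)
-/

set_option autoImplicit false

namespace Fermat.Agent.MR.PL

open AlgebraicCurve
open Fermat.Agent.RED (Ev)

theorem vg1 (hfb : Stmt_FB) (hd : Stmt_Dec) (ho : Stmt_Orth) : Stmt_VG1 := by
  intro K F _ _ _ p A W σ F₁ ζ g₁ a₀ D f hf hf0
  have B := hfb K F p A W σ F₁ ζ g₁ a₀ D
  obtain ⟨c, hc, hsum⟩ := hd K F p A W σ F₁ ζ g₁ a₀ D f hf
  obtain ⟨-, hle⟩ := ho K F p A W σ F₁ ζ g₁ a₀ D c hc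
  rw [← hsum] at hle
  have hvf : W.valuation f ≠ 0 := (Valuation.ne_zero_iff _).2 hf0
  obtain ⟨j, hj, hjle⟩ : ∃ j < p, W.valuation f ≤ W.valuation (c j * algebraMap K F (g₁ - 1) ^ j) := by
    by_contra hcon
    push Not at hcon
    have h1 : W.valuation (∑ j ∈ Finset.range p, c j * algebraMap K F (g₁ - 1) ^ j)
        < W.valuation f :=
      Valuation.map_sum_lt _ hvf (fun i hi => hcon i (Finset.mem_range.1 hi))
    rw [← hsum] at h1
    exact lt_irrefl _ h1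
  have heq : W.valuation f = W.valuation (c j * algebraMap K F (g₁ - 1) ^ j) :=
    le_antisymm hjle (hle j hj)
  have hcj : c j ≠ 0 := by
    intro h0
    rw [h0, zero_mul, map_zero] at heq
    exact hvf heq
  obtain ⟨m, hm⟩ := D.vg (c j) (hc j).1 hcj (hc j).2
  set P := W.valuation (algebraMap K F (piK ζ g₁)) with hP
  have hP0 : P ≠ 0 := (Valuation.ne_zero_iff _).2 (by simpa using B.pi_ne)
  have h1 : W.valuation (algebraMap K F (1 - ζ)) = P ^ p := by
    rw [hP, ← map_pow, ← map_pow, D.gauss.val_eq_iff, map_pow]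
    exact B.pi_pow.symm
  have h2 : W.valuation (algebraMap K F (g₁ - 1)) = P ^ (p - 1) := by
    rw [hP, ← map_pow, ← map_pow, D.gauss.val_eq_iff, map_pow]
    exact B.pi_dl.symm
  refine ⟨(p : ℤ) * m + ((p - 1 : ℕ) : ℤ) * (j : ℤ), ?_⟩
  rw [heq, map_mul, map_pow, hm, h1, h2, zpow_add₀ hP0, zpow_mul, zpow_mul, zpow_natCast,
    zpow_natCast, zpow_natCast]

end Fermat.Agent.MR.PL
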