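import Fermat.Agent.MR.PL.Interface
import Fermat.Agent.S24.PlaceCases

/-!
# MR / PL : (W1), (W2) at nodes and at smooth points
-/

set_option autoImplicit false

namespace Fermat.Agent.MR.PL

open AlgebraicCurve
open Fermat.Agent.RED (Ev)

theorem w1 : Stmt_W1 := by
  intro K F _ _ _ p A W₁ W₂ a b R n S L P hP
  have haR := L.n_sub a L.a_mem
  have hbR := L.n_sub b L.b_mem
  refine ⟨?_, hP.val_small haR L.a_mem, hP.val_small hbR L.b_mem⟩
  have h1 := Fermat.Agent.RED.ev_mul (hP.ev haR) (hP.ev hbR)
  rw [S.ab] at h1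
  exact Fermat.Agent.RED.ev_unique h1 (Fermat.Agent.RED.ev_const P _)

/-- a centred place where `a` takes another value is not a zero of `a - α`. -/
theorem W12_ord_eq_zero {K F : Type} [Field K] [Field F] [Algebra K F] {A : ValuationSubring K}
    {R : Subring F} {n : Set F} {P' : Place K F} (hP' : Centred A R n P') {a : F} (ha : a ∈ R)
    {α : K} (h : val P' a ≠ α) : P'.ord (a - algebraMap K F α) = 0 :=
  Fermat.Agent.RED.ev_ord_eq_zero
    (Fermat.Agent.RED.ev_sub (hP'.ev ha) (Fermat.Agent.RED.ev_const P' α)) (sub_ne_zero.2 h)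

theorem w2n (h1 : Stmt_W1) (ha : Stmt_W2a) (hb : Stmt_W2b) : Stmt_W2n := by
  intro K F _ _ _ p A W₁ W₂ a b R n S hres L P hP
  have haR := L.n_sub a L.a_mem
  obtain ⟨hαβ, -, -⟩ := h1 K F p A W₁ W₂ a b R n S L P hP
  have hα : val P a ≠ 0 := by
    intro h
    rw [h, zero_mul] at hαβ
    exact S.p_ne hαβ.symm
  refine ⟨?_, fun P' hP' hne => ?_⟩
  · rcases hb K F A W₁ W₂ a b R n hres L P hP with h | h
    · exact h
    · have hp' : algebraMap K F (p : K) ≠ 0 :=
        (map_ne_zero_iff _ (algebraMap K F).injective).2 S.p_ne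
      have hα' : algebraMap K F (val P a) ≠ 0 := by simpa using hα
      have ha0 : a ≠ 0 := by
        intro h0
        have h3 := S.ab
        rw [h0, zero_mul] at h3
        exact hp' h3.symm
      have hb0 : b - algebraMap K F (val P b) ≠ 0 := by
        intro h0
        rw [h0, P.ord_zero] at h
        exact zero_ne_one h
      have hrel : (b - algebraMap K F (val P b)) * (a * algebraMap K F (val P a))
          = -algebraMap K F (p : K) * (a - algebraMap K F (val P a)) := by
        have e1 : algebraMap K F (val P a) * algebraMap K F (val P b) = algebraMap K F (p : K) := by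
          rw [← map_mul, hαβ]
        linear_combination (algebraMap K F (val P a)) * S.ab - a * e1
      have ha1 : a - algebraMap K F (val P a) ≠ 0 := by
        intro h0
        rw [h0, mul_zero] at hrel
        exact mul_ne_zero hb0 (mul_ne_zero ha0 hα') hrel
      have h2 := congrArg P.ord hrel
      rw [P.ord_mul hb0 (mul_ne_zero ha0 hα'), P.ord_mul ha0 hα',
        P.ord_mul (neg_ne_zero.2 hp') ha1, S24.place_ord_neg, S24.ord_algebraMap,
        S24.ord_algebraMap, Fermat.Agent.RED.ev_ord_eq_zero (hP.ev haR) hα, h] at h2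
      omega
  · refine W12_ord_eq_zero hP' haR fun h => hne ?_
    obtain ⟨hαβ', -, -⟩ := h1 K F p A W₁ W₂ a b R n S L P' hP'
    rw [h, ← hαβ] at hαβ'
    exact ha K F A W₁ W₂ a b R n L P' P hP' hP h (mul_left_cancel₀ hα hαβ')

theorem w2s (ha : Stmt_W2a) (hb : Stmt_W2b) : Stmt_W2s := by
  intro K F _ _ _ A W τ R n hres L P hP
  have hτR := L.n_sub τ L.a_mem
  refine ⟨?_, fun P' hP' hne => ?_⟩
  · rcases hb K F A W W τ τ R n hres L P hP with h | h <;> exact h
  · exact W12_ord_eq_zero hP' hτR fun h => hne (ha K F A W W τ τ R n L P' P hP' hP h h)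

end Fermat.Agent.MR.PL
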