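import Fermat.Agent.MR.PL.Interface

/-!
# MR / PL : (W2a) a centred place is determined by `a(P)`, `b(P)`   (helper97)
-/

set_option autoImplicit false

namespace Fermat.Agent.MR.PL

open AlgebraicCurve
open Fermat.Agent.RED (Ev)

theorem w2a (h : Stmt_Contr) : Stmt_W2a := by
  intro K F _ _ _ A W₁ W₂ a b R n L P P' hP hP' ha hb
  have e := hP.evalLike L.n_sub
  have e' := hP'.evalLike L.n_sub
  refine L.sep P P' hP hP' fun x hx => ?_
  have h0 := h K F A W₁ W₂ a b R n L (val P) (val P') (fun x => val P x - val P' x) e e'
    (fun x hx y hy => by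
      show val P (x + y) - val P' (x + y) = _
      rw [e.add x hx y hy, e'.add x hx y hy]; ring)
    (fun x hx y hy => by
      show val P (x * y) - val P' (x * y) = _
      rw [e.mul x hx y hy, e'.mul x hx y hy]; ring)
    (fun c _ => by
      show val P _ - val P' _ = 0
      rw [val_const, val_const, sub_self])
    (sub_eq_zero.2 ha) (sub_eq_zero.2 hb) x hx
  exact sub_eq_zero.1 h0

end Fermat.Agent.MR.PL
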