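import Fermat.Agent.MR.PL.Interface

/-!
# MR / PL / W2b : `a - a(P)` or `b - b(P)` is a uniformiser at a centred place (helper86)
-/

set_option autoImplicit false

namespace Fermat.Agent.MR.PL

open AlgebraicCurve
open Fermat.Agent.RED (Ev ev_add ev_mul ev_sub ev_const ev_zero ev_one ev_zero_iff_ord)

section

variable {K F : Type} [Field K] [Field F] [Algebra K F] {A : ValuationSubring K}
  {R : Subring F} {n : Set F} {P : Place K F}

/-- `y - y(P)` vanishes at `P`. -/
theorem W2B_ev_sub (hP : Centred A R n P) {y : F} (hy : y ∈ R) :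
    Ev P (y - algebraMap K F (val P y)) 0 := by
  have := ev_sub (hP.ev hy) (ev_const P (val P y))
  rwa [sub_self] at this

/-- the order of `(y - y(P)) / π`. -/
theorem W2B_ord_div {π d : F} (hπ : P.ord π = 1) (hd : d ≠ 0) :
    P.ord (d / π) = P.ord d - 1 := by
  have hπ0 : π ≠ 0 := by
    rintro rfl
    rw [Place.ord_zero] at hπ
    exact zero_ne_one hπ
  rw [div_eq_mul_inv, P.ord_mul hd (inv_ne_zero hπ0), P.ord_inv, hπ]
  ring

/-- `(y - y(P)) / π` has a value at `P`. -/
theorem W2B_ev_q (hK : ResK K F) (hP : Centred A R n P) {π : F} (hπ : P.ord π = 1) {y : F}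
    (hy : y ∈ R) :
    Ev P ((y - algebraMap K F (val P y)) / π) (val P ((y - algebraMap K F (val P y)) / π)) := by
  apply ev_val
  apply hK
  by_cases hd : y - algebraMap K F (val P y) = 0
  · rw [hd, zero_div]; exact P.toValuationSubring.zero_mem
  have hπ0 : π ≠ 0 := by
    rintro rfl
    rw [Place.ord_zero] at hπ
    exact zero_ne_one hπ
  refine Fermat.Agent.S24.mem_of_ord_nonneg P (div_ne_zero hd hπ0) ?_
  rw [W2B_ord_div hπ hd]
  have := (ev_zero_iff_ord hd).1 (W2B_ev_sub hP hy)
  omega

/-- if `y - y(P)` is not a uniformiser then `(y - y(P)) / π` vanishes at `P`. -/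
theorem W2B_delta_zero (hP : Centred A R n P) {π : F} (hπ : P.ord π = 1) {y : F}
    (hy : y ∈ R) (h1 : P.ord (y - algebraMap K F (val P y)) ≠ 1) :
    val P ((y - algebraMap K F (val P y)) / π) = 0 := by
  by_cases hd : y - algebraMap K F (val P y) = 0
  · rw [hd, zero_div]; exact val_eq (ev_zero P)
  have hπ0 : π ≠ 0 := by
    rintro rfl
    rw [Place.ord_zero] at hπ
    exact zero_ne_one hπ
  apply val_eq
  rw [ev_zero_iff_ord (div_ne_zero hd hπ0), W2B_ord_div hπ hd]
  have := (ev_zero_iff_ord hd).1 (W2B_ev_sub hP hy)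
  omega

end

/-- **(W2b)** -/
theorem w2b (h : Stmt_Contr) : Stmt_W2b := by
  intro K F _ _ _ A W₁ W₂ a b R n hK L P hP
  by_contra hcon
  push Not at hcon
  obtain ⟨ha, hb⟩ := hcon
  obtain ⟨x0, hx0, hπ⟩ := L.unif P hP
  set π : F := x0 - algebraMap K F (val P x0) with hπdef
  have hπ0 : π ≠ 0 := by
    intro h0
    rw [h0, Place.ord_zero] at hπ
    exact zero_ne_one hπ
  have hE := hP.evalLike L.n_sub
  have key := h K F A W₁ W₂ a b R n L (val P) (val P)
    (fun y => val P ((y - algebraMap K F (val P y)) / π)) hE hE ?_ ?_ ?_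
    (W2B_delta_zero hP hπ (L.n_sub a L.a_mem) ha) (W2B_delta_zero hP hπ (L.n_sub b L.b_mem) hb)
    x0 hx0
  · have h1 : (x0 - algebraMap K F (val P x0)) / π = 1 := div_self hπ0
    simp only [h1] at key
    rw [val_eq (ev_one P)] at key
    exact one_ne_zero key
  · intro x hx y hy
    have h1 : (x + y - algebraMap K F (val P (x + y))) / π =
        (x - algebraMap K F (val P x)) / π + (y - algebraMap K F (val P y)) / π := by
      rw [hE.add x hx y hy, map_add]; ring
    show val P _ = _
    rw [h1]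
    exact val_eq (ev_add (W2B_ev_q hK hP hπ hx) (W2B_ev_q hK hP hπ hy))
  · intro x hx y hy
    have h1 : (x * y - algebraMap K F (val P (x * y))) / π =
        x * ((y - algebraMap K F (val P y)) / π) +
          algebraMap K F (val P y) * ((x - algebraMap K F (val P x)) / π) := by
      rw [hE.mul x hx y hy, map_mul]; ring
    show val P _ = _
    rw [h1]
    exact val_eq (ev_add (ev_mul (hP.ev hx) (W2B_ev_q hK hP hπ hy))
      (ev_mul (ev_const P _) (W2B_ev_q hK hP hπ hx)))
  · intro c _
    show val P _ = _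
    rw [val_const, sub_self, zero_div]
    exact val_eq (ev_zero P)

end Fermat.Agent.MR.PL
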