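import Fermat.Agent.MR.PL.Interface

/-!
# MR / PL : (W3) a function without centred zero or pole at a node is `c₀ a^k r`, `r ∈ Rˣ`
-/

set_option autoImplicit false

namespace Fermat.Agent.MR.PL

open AlgebraicCurve
open Fermat.Agent.RED (Ev)

section Aux

variable {K F : Type*} [Field K] [Field F] [Algebra K F]
  {A : ValuationSubring K} {W₁ W₂ : ValuationSubring F} {a b : F} {R : Subring F} {n : Set F}

/-- units of `R` have neither zero nor pole at a centred place. -/
theorem W3_ord_unit (L : LocData A W₁ W₂ a b R n) {P : Place K F} (hP : Centred A R n P) {x : F}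
    (hx : x ∈ R) (hxn : x ∉ n) : P.ord x = 0 := by
  have hx0 := L.ne_zero hxn
  have h1 := hP.ev hx
  have h2 := hP.ev (L.inv_mem x hx hxn)
  have h3 := Fermat.Agent.RED.ev_mul h1 h2
  rw [mul_inv_cancel₀ hx0] at h3
  have h4 := Fermat.Agent.RED.ev_unique h3 (Fermat.Agent.RED.ev_one P)
  exact Fermat.Agent.RED.ev_ord_eq_zero h1 (left_ne_zero_of_mul_eq_one h4)

theorem W3_val_eq_one {W : ValuationSubring F} {x : F} (h : W.valuation (x - 1) < 1) :
    W.valuation x = 1 := by
  have := Valuation.map_one_add_of_lt (v := W.valuation) h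
  rwa [add_sub_cancel] at this

theorem W3_mem_of_val_eq_one {W : ValuationSubring F} {x : F} (h : W.valuation x = 1) : x ∈ W :=
  (ValuationSubring.valuation_le_one_iff _ _).1 h.le

end Aux

theorem w3 (h1 : Stmt_W1) : Stmt_W3 := by
  intro K F _ _ _ p A W₁ W₂ a b R n S L hN g hg hord
  obtain ⟨c, hc, hgc⟩ := S.g₂.exists_const hg
  have hc' : algebraMap K F c ≠ 0 := by simpa using hc
  have hg' : W₂.valuation (g / algebraMap K F c) = 1 := by
    rw [map_div₀, hgc, div_self ((Valuation.ne_zero_iff _).2 hc')]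
  obtain ⟨k, x, y, hx, hxn, hy, hyn, hlt⟩ := hN _ hg'
  obtain ⟨g1, hg1⟩ : ∃ g1 : F, g1 = g / algebraMap K F c * y / (a ^ k * x) := ⟨_, rfl⟩
  rw [← hg1] at hlt
  have ha0 : a ≠ 0 := by
    intro h
    have := S.a_unit
    rw [h, map_zero] at this
    exact zero_ne_one this
  have hx0 := L.ne_zero hxn
  have hy0 := L.ne_zero hyn
  have hak : a ^ k ≠ 0 := zpow_ne_zero k ha0
  have hg10 : g1 ≠ 0 := by
    rw [hg1]
    exact div_ne_zero (mul_ne_zero (div_ne_zero hg hc') hy0) (mul_ne_zero hak hx0)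
  have hv2 : W₂.valuation g1 = 1 := W3_val_eq_one hlt
  have hordg1 : ∀ P : Place K F, Centred A R n P → P.ord g1 = 0 := by
    intro P hP
    have hoa : P.ord a = 0 := by
      obtain ⟨hab, -, -⟩ := h1 K F p A W₁ W₂ a b R n S L P hP
      have hne : val P a ≠ 0 := by
        intro h
        rw [h, zero_mul] at hab
        exact S.p_ne hab.symm
      exact Fermat.Agent.RED.ev_ord_eq_zero (hP.ev (L.n_sub a L.a_mem)) hne
    rw [hg1, div_eq_mul_inv, div_eq_mul_inv,
      P.ord_mul (mul_ne_zero (mul_ne_zero hg (inv_ne_zero hc')) hy0)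
        (inv_ne_zero (mul_ne_zero hak hx0)),
      P.ord_mul (mul_ne_zero hg (inv_ne_zero hc')) hy0, P.ord_mul hg (inv_ne_zero hc'),
      P.ord_inv, P.ord_inv, P.ord_mul hak hx0, P.ord_zpow, hoa, hord P hP,
      Fermat.Agent.S24.ord_algebraMap, W3_ord_unit L hP hx hxn, W3_ord_unit L hP hy hyn]
    simp
  by_cases hW1 : g1 ∈ W₁
  · have hR : g1 ∈ R := L.reg g1 hW1 (W3_mem_of_val_eq_one hv2) fun P hP =>
      Fermat.Agent.S24.mem_of_ord_nonneg P hg10 (hordg1 P hP).ge
    have hsub : g1 - 1 ∈ n :=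
      L.small₂ _ (R.sub_mem hR R.one_mem) ((ValuationSubring.mem_nonunits_iff _).2 hlt)
    have hg1n : g1 ∉ n := L.not_mem_of_sub_one hsub
    refine ⟨c, k, x * g1 * y⁻¹, hc, R.mul_mem (R.mul_mem hx hR) (L.inv_mem y hy hyn), ?_, ?_⟩
    · exact L.mul_not_mem (R.mul_mem hx hR) (L.mul_not_mem hx hxn hg1n) (L.inv_not_mem hy hyn)
    · rw [hg1]
      field_simp
  · exfalso
    have hgt : 1 < W₁.valuation g1 := by
      rw [← not_le, ValuationSubring.valuation_le_one_iff]
      exact hW1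
    have hinv1 : g1⁻¹ ∈ W₁.nonunits := by
      rw [ValuationSubring.mem_nonunits_iff, map_inv₀]
      exact inv_lt_one_of_one_lt₀ hgt
    have hinv2 : W₂.valuation g1⁻¹ = 1 := by rw [map_inv₀, hv2, inv_one]
    have hR : g1⁻¹ ∈ R := L.reg g1⁻¹ (W₁.nonunits_subset hinv1) (W3_mem_of_val_eq_one hinv2)
      fun P hP => Fermat.Agent.S24.mem_of_ord_nonneg P (inv_ne_zero hg10) (by
        rw [P.ord_inv, hordg1 P hP, neg_zero])
    have hn : g1⁻¹ ∈ n := L.small₁ _ hR hinv1
    have hlt' : W₂.valuation (g1⁻¹ - 1) < 1 := by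
      have e : g1⁻¹ - 1 = -(g1 - 1) * g1⁻¹ := by
        field_simp
        ring
      rw [e, map_mul, Valuation.map_neg, hinv2, mul_one]
      exact hlt
    have hsub : g1⁻¹ - 1 ∈ n :=
      L.small₂ _ (R.sub_mem hR R.one_mem) ((ValuationSubring.mem_nonunits_iff _).2 hlt')
    exact L.not_mem_of_sub_one hsub hn

end Fermat.Agent.MR.PL
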