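import Fermat.Agent.MR.PL.Interface

/-!
# MR / PL : PL-WDEC, the decomposition `g = c₀ a^k M_E(a) r` at a node
-/

set_option autoImplicit false

namespace Fermat.Agent.MR.PL

open AlgebraicCurve
open Fermat.Agent.RED (Ev)

theorem wDec (h2 : Stmt_W2n) (ho : Stmt_OrdM) (h3 : Stmt_W3) : Stmt_WDec := by
  intro K F _ _ _ p A W₁ W₂ a b R n hS hK hL hN g E hg hE hE0
  have hsimple := h2 K F p A W₁ W₂ a b R n hS hK hL
  obtain ⟨hM0, hMord⟩ := ho K F A R n a hsimple E hE0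
  have hg' : g / Mf a E ≠ 0 := div_ne_zero hg hM0
  have hord : ∀ P : Place K F, Centred A R n P → P.ord (g / Mf a E) = 0 := by
    intro P hP
    rw [div_eq_mul_inv, P.ord_mul hg (inv_ne_zero hM0), P.ord_inv, hMord P hP, hE P hP,
      add_neg_cancel]
  obtain ⟨c₀, k, r, hc₀, hr, hrn, he⟩ := h3 K F p A W₁ W₂ a b R n hS hL hN (g / Mf a E) hg' hord
  refine ⟨c₀, k, r, hc₀, hr, hrn, ?_⟩
  have h1 : g = g / Mf a E * Mf a E := (div_mul_cancel₀ g hM0).symm
  rw [h1, he]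
  ring

end Fermat.Agent.MR.PL
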