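import Fermat.Agent.MR.PL.Interface

/-!
# MR / PL, task PL-XI : `ξ_s ^ p ≡ C₁ / C₂` modulo `< |w|`
-/

set_option autoImplicit false

namespace Fermat.Agent.MR.PL

open AlgebraicCurve
open Fermat.Agent.RED (Ev)

theorem XI_ne_zero_of_val {F : Type*} [Field F] {W : ValuationSubring F} {x : F}
    (h : W.valuation x = 1) : x ≠ 0 := by
  rintro rfl
  rw [map_zero] at h
  exact zero_ne_one h

/-- the computation at one norm. -/
theorem XI_one {F : Type*} [Field F] (W : ValuationSubring F) (p : ℕ) {Y C lam mu x rho : F}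
    {ω : W.ValueGroup}
    (hlam : W.valuation lam = 1) (hmu : W.valuation mu = 1) (hx : W.valuation x = 1)
    (hC : W.valuation C = 1)
    (hY : Y = lam * mu ^ p * rho) (h1 : W.valuation (Y - C) < ω)
    (h2 : W.valuation ((mu / x) ^ p - 1) < ω) :
    W.valuation (rho - C / (lam * x ^ p)) < ω := by
  have l0 := XI_ne_zero_of_val hlam
  have m0 := XI_ne_zero_of_val hmu
  have x0 := XI_ne_zero_of_val hx
  have key : rho - C / (lam * x ^ p) = ((Y - C) - C * ((mu / x) ^ p - 1)) / (lam * mu ^ p) := by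
    rw [hY, div_pow]
    field_simp
    ring
  rw [key, map_div₀, map_mul, map_pow, hlam, hmu, one_pow, one_mul, div_one]
  refine Valuation.map_sub_lt _ h1 ?_
  rw [map_mul, hC, one_mul]
  exact h2

/-- `(σ e / e) ^ p ≡ 1` modulo `< |w|` for a one-unit `e` of `F₁`. -/
theorem XI_pow (hfb : Stmt_FB) (h1 : Stmt_PR1) (hpp : Stmt_PowP) {K F : Type} [Field K] [Field F]
    [Algebra K F] {p : ℕ} {A : ValuationSubring K} {W : ValuationSubring F}
    {σ : SemilinearAut K F} {F₁ : Subfield F} {ζ g₁ a₀ : K}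
    (D : FieldData p A W σ F₁ ζ g₁ a₀) {e : F} (he : e ∈ F₁) (he1 : W.valuation (e - 1) < 1) :
    W.valuation ((σ • e / e) ^ p - 1) < W.valuation (algebraMap K F (1 - ζ)) := by
  have fb := hfb K F p A W σ F₁ ζ g₁ a₀ D
  have h := h1 K F p A W σ F₁ ζ g₁ a₀ D e he he1
  have hπ : W.valuation (algebraMap K F (piK ζ g₁)) < 1 := (D.gauss.val_lt_one_iff _).2 fb.pi_lt
  have := (hpp K F p A W ζ g₁ D.prime D.odd D.gauss fb (σ • e / e - 1) (h.trans hπ).le).2 h
  rwa [add_sub_cancel] at this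

/-- **(XI)** -/
theorem xi (hfb : Stmt_FB) (hu : Stmt_U) (h1 : Stmt_PR1) (hpp : Stmt_PowP) : Stmt_Xi := by
  intro K F _ _ _ p A W₁ W₂ a b R n σ F₁ ζ g₁ a₀ S L D₁ D₂ hσa haF hσR u M r c₀ Z C₁ C₂ k d hc₀ hM
    hZ hZF hr hrn hueq hM2 hM1 hC1 hC2 hY1 hY2
  have ha0 : a ≠ 0 := XI_ne_zero_of_val S.a_unit
  have hM0 : M ≠ 0 := by
    rintro rfl
    rw [zero_div, zero_sub, Valuation.map_neg, map_one] at hM2
    exact lt_irrefl _ hM2
  have hr0 : r ≠ 0 := L.ne_zero hrn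
  have hc₀' : algebraMap K F c₀ ≠ 0 := (map_ne_zero _).2 hc₀
  have hZ' : algebraMap K F Z ≠ 0 := (map_ne_zero _).2 hZ
  obtain ⟨lam, hlam⟩ : ∃ lam : K, lam = SemilinearAut.baseAut σ c₀ / c₀ := ⟨_, rfl⟩
  obtain ⟨xi, hxi⟩ : ∃ xi : K, xi = SemilinearAut.baseAut σ Z / Z := ⟨_, rfl⟩
  obtain ⟨mu, hmu⟩ : ∃ mu : F, mu = σ • M / M := ⟨_, rfl⟩
  obtain ⟨rho, hrho⟩ : ∃ rho : F, rho = σ • r / r := ⟨_, rfl⟩
  have hlamA : A.valuation lam = 1 := by
    rw [hlam, map_div₀, S.g₁.baseAut_iso D₁.sig_W, div_self ((Valuation.ne_zero_iff _).2 hc₀)]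
  have hxiA : A.valuation xi = 1 := by
    rw [hxi, map_div₀, S.g₁.baseAut_iso D₁.sig_W, div_self ((Valuation.ne_zero_iff _).2 hZ)]
  have hmu1 : W₁.valuation mu = 1 := by
    rw [hmu, map_div₀, D₁.sig_W, div_self ((Valuation.ne_zero_iff _).2 hM0)]
  have hmu2 : W₂.valuation mu = 1 := by
    rw [hmu, map_div₀, D₂.sig_W, div_self ((Valuation.ne_zero_iff _).2 hM0)]
  have hrhoR : rho ∈ R := by
    rw [hrho, div_eq_mul_inv]
    exact R.mul_mem ((hσR r).2 hr) (L.inv_mem r hr hrn)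
  have hzp : ∀ m : ℤ, σ • (a ^ m) = a ^ m := by
    intro m
    rw [SemilinearAut.smul_def, map_zpow₀, ← SemilinearAut.smul_def, hσa]
  have hY : σ • u / u = algebraMap K F lam * mu ^ p * rho := by
    rw [hueq, smul_mul', smul_mul', smul_mul', smul_pow', SemilinearAut.smul_algebraMap, hzp,
      hlam, hmu, hrho, map_div₀, div_pow]
    field_simp
  -- at `W₂`
  have e2F : M / a ^ d ∈ F₁ := F₁.div_mem hM (F₁.zpow_mem haF d)
  have e2σ : σ • (M / a ^ d) / (M / a ^ d) = mu / 1 := by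
    rw [div_eq_mul_inv M, smul_mul', smul_inv'', hzp, hmu]
    field_simp
  have p2 := XI_pow hfb h1 hpp D₂ e2F hM2
  rw [e2σ] at p2
  have r2 := XI_one W₂ p ((S.g₂.val_eq_one_iff _).2 hlamA) hmu2 (map_one _)
    ((S.g₂.val_eq_one_iff _).2 hC2) hY hY2 p2
  -- at `W₁`
  have e1F : M / algebraMap K F Z ∈ F₁ := F₁.div_mem hM hZF
  have e1σ : σ • (M / algebraMap K F Z) / (M / algebraMap K F Z) = mu / algebraMap K F xi := by
    have hσZ : algebraMap K F (SemilinearAut.baseAut σ Z) ≠ 0 :=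
      (map_ne_zero _).2 ((map_ne_zero _).2 hZ)
    rw [div_eq_mul_inv M, smul_mul', smul_inv'', SemilinearAut.smul_algebraMap, hmu, hxi, map_div₀]
    field_simp
  have p1 := XI_pow hfb h1 hpp D₁ e1F hM1
  rw [e1σ] at p1
  have r1 := XI_one W₁ p ((S.g₁.val_eq_one_iff _).2 hlamA) hmu1 ((S.g₁.val_eq_one_iff _).2 hxiA)
    ((S.g₁.val_eq_one_iff _).2 hC1) hY hY1 p1
  rw [one_pow, mul_one] at r2
  have hfin := hu K F A W₁ W₂ a b R n S.g₁ S.g₂ L rho (C₁ / (lam * xi ^ p)) (C₂ / lam)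
    (1 - ζ) hrhoR (by rw [map_div₀, map_mul, map_pow]; exact r1)
    (by rw [map_div₀]; exact r2)
  have l0 : lam ≠ 0 := by
    rintro rfl
    rw [map_zero] at hlamA
    exact zero_ne_one hlamA
  have x0 : xi ≠ 0 := by
    rintro rfl
    rw [map_zero] at hxiA
    exact zero_ne_one hxiA
  have c0 : C₂ ≠ 0 := by
    rintro rfl
    rw [map_zero] at hC2
    exact zero_ne_one hC2
  have key : xi ^ p - C₁ / C₂
      = -(C₁ / (lam * xi ^ p) - C₂ / lam) * (lam * xi ^ p / C₂) := by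
    field_simp
    ring
  rw [← hxi, key, map_mul, Valuation.map_neg, map_div₀, map_mul, map_pow, hlamA, hxiA, hC2, one_pow,
    one_mul, div_one, mul_one]
  exact hfin

end Fermat.Agent.MR.PL
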