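import Fermat.Agent.MR.PL.Interface

/-!
# MR / PL : (YC)  `Y = σ u / u = y ^ j * g ^ p` is a constant modulo `< |w|`
-/

set_option autoImplicit false

namespace Fermat.Agent.MR.PL

open AlgebraicCurve

section Val

variable {F Γ : Type*} [Field F] [LinearOrderedCommGroupWithZero Γ] (v : Valuation F Γ)

theorem YC_val_one {a : F} (h : v (a - 1) < 1) : v a = 1 := by
  have := Valuation.map_one_add_of_lt (v := v) h
  rwa [add_sub_cancel] at this

theorem YC_U_mul {a b : F} {t : Γ} (ht : t ≤ 1) (ha : v (a - 1) < t) (hb : v (b - 1) < t) :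
    v (a * b - 1) < t := by
  have hb1 : v b = 1 := YC_val_one v (lt_of_lt_of_le hb ht)
  have e : a * b - 1 = (a - 1) * b + (b - 1) := by ring
  rw [e]
  refine Valuation.map_add_lt v ?_ hb
  rw [map_mul, hb1, mul_one]; exact ha

theorem YC_U_inv {a : F} {t : Γ} (ht : t ≤ 1) (ha : v (a - 1) < t) : v (a⁻¹ - 1) < t := by
  have ha1 : v a = 1 := YC_val_one v (lt_of_lt_of_le ha ht)
  have ha0 : a ≠ 0 := by
    intro h; rw [h, map_zero] at ha1; exact zero_ne_one ha1
  have e : a⁻¹ - 1 = -(a - 1) * a⁻¹ := by field_simp; ring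
  rw [e, map_mul, Valuation.map_neg, map_inv₀, ha1, inv_one, mul_one]; exact ha

theorem YC_U_pow {a : F} {t : Γ} (ht : t ≤ 1) (ht0 : 0 < t) (ha : v (a - 1) < t) (n : ℕ) :
    v (a ^ n - 1) < t := by
  induction n with
  | zero => simpa using ht0
  | succ n ih => rw [pow_succ]; exact YC_U_mul v ht ih ha

theorem YC_U_zpow {a : F} {t : Γ} (ht : t ≤ 1) (ht0 : 0 < t) (ha : v (a - 1) < t) (n : ℤ) :
    v (a ^ n - 1) < t := by
  cases n with
  | ofNat n => simpa using YC_U_pow v ht ht0 ha n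
  | negSucc n =>
    rw [zpow_negSucc]
    exact YC_U_inv v ht (YC_U_pow v ht ht0 ha (n + 1))

end Val

/-- if `|g ^ p - 1| < 1` then `|g - 1| < 1` (residue characteristic `p`, `p` odd). -/
theorem YC_root {F : Type*} [Field F] (W : ValuationSubring F) {p : ℕ} (hp : p.Prime)
    (hp2 : p ≠ 2) (hpW : W.valuation (p : F) < 1) {g : F} (hg : W.valuation (g ^ p - 1) < 1) :
    W.valuation (g - 1) < 1 := by
  have h1 : W.valuation (g ^ p) = 1 := YC_val_one _ hg
  rw [map_pow] at h1
  have hg1 : W.valuation g = 1 := (pow_eq_one_iff_of_nonneg zero_le hp.ne_zero).1 h1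
  have hgW : g ∈ W := (ValuationSubring.valuation_le_one_iff _ _).1 hg1.le
  obtain ⟨r, hr⟩ := exists_add_pow_prime_eq hp (⟨g, hgW⟩ : W) (-1)
  have hr' := congrArg (Subtype.val) hr
  have hodd : Odd p := hp.odd_of_ne_two hp2
  have e : (g - 1) ^ p = (g ^ p - 1) + (p : F) * (-g * (r : F)) := by
    simp only [hodd.neg_one_pow] at hr'
    push_cast at hr'
    rw [sub_eq_add_neg, hr']
    ring
  have h2 : W.valuation ((g - 1) ^ p) < 1 := by
    rw [e]
    refine Valuation.map_add_lt _ hg ?_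
    rw [map_mul, map_mul, Valuation.map_neg, hg1, one_mul]
    have hr1 : W.valuation (r : F) ≤ 1 := (ValuationSubring.valuation_le_one_iff _ _).2 r.2
    calc W.valuation (p : F) * W.valuation (r : F) ≤ W.valuation (p : F) * 1 := by gcongr
      _ < 1 := by rwa [mul_one]
  rw [map_pow] at h2
  exact (pow_lt_one_iff hp.ne_zero).1 h2

section NmLemmas

variable {K F : Type*} [Field K] [Field F] [Algebra K F] (σ : SemilinearAut K F) (p : ℕ)

theorem YC_Nm_mul (x y : F) : Nm σ p (x * y) = Nm σ p x * Nm σ p y := by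
  simp only [Nm, smul_mul', Finset.prod_mul_distrib]

theorem YC_Nm_pow (x : F) (n : ℕ) : Nm σ p (x ^ n) = Nm σ p x ^ n := by
  simp only [Nm, smul_pow', Finset.prod_pow]

theorem YC_pow_fix {x : F} (h : σ • x = x) (i : ℕ) : (σ ^ i) • x = x := by
  induction i with
  | zero => simp
  | succ i ih => rw [pow_succ, mul_smul, h, ih]

theorem YC_Nm_fix {x : F} (h : σ • x = x) : Nm σ p x = x ^ p := by
  simp only [Nm, YC_pow_fix σ h, Finset.prod_const, Finset.card_range]

theorem YC_zpow_fix {x : F} (h : σ • x = x) (j : ℤ) : σ • (x ^ j) = x ^ j := by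
  rw [SemilinearAut.smul_def] at h ⊢
  rw [map_zpow₀, h]

theorem YC_Nm_quot {u : F} (hu : u ≠ 0) : Nm σ p (σ • u / u) = (σ ^ p) • u / u := by
  induction p with
  | zero => simp [Nm, hu]
  | succ n ih =>
    have h0 : (σ ^ n) • u ≠ 0 := by
      rw [Ne, smul_eq_zero_iff_eq]; exact hu
    have e : Nm σ (n + 1) (σ • u / u) = Nm σ n (σ • u / u) * (σ ^ n) • (σ • u / u) := by
      simp only [Nm, Finset.prod_range_succ]
    rw [e, ih, smul_div₀', ← mul_smul, ← pow_succ]
    field_simp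

end NmLemmas

/-- **(YC)** -/
theorem yc (hfb : Stmt_FB) (hprf : Stmt_PRF) (hnl : Stmt_NL) (hpp : Stmt_PowP) : Stmt_YC := by
  intro K F _ _ _ _ p A W σ F₁ ζ g₁ a₀ FD u y g j hu hy hg hu0 hσy hy1 hY
  have FB : FBFacts p A ζ g₁ := hfb K F p A W σ F₁ ζ g₁ a₀ FD
  have G := FD.gauss
  have hp := FD.prime
  have hω1 : W.valuation (algebraMap K F (1 - ζ)) < 1 := (G.val_lt_one_iff _).2 FB.w_lt
  have hω0 : 0 < W.valuation (algebraMap K F (1 - ζ)) := by
    rw [zero_lt_iff, Valuation.ne_zero_iff]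
    exact (map_ne_zero (algebraMap K F)).2 FB.w_ne
  have hP1 : W.valuation (algebraMap K F (piK ζ g₁)) < 1 := (G.val_lt_one_iff _).2 FB.pi_lt
  have hpW : W.valuation (p : F) < 1 := by
    have := (G.val_lt_one_iff (p : K)).2 ((ValuationSubring.mem_nonunits_iff _).1 FD.p_small)
    simpa using this
  -- (1)
  have hvu : W.valuation u ≠ 0 := (Valuation.ne_zero_iff _).2 hu0
  have hY1 : W.valuation (σ • u / u - 1) < 1 := by
    have e : σ • u / u - 1 = (σ • u - u) / u := by field_simp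
    rw [e, map_div₀, div_lt_one₀ (zero_lt_iff.2 hvu)]
    refine lt_of_le_of_lt (hprf K F p A W σ F₁ ζ g₁ a₀ FD u hu) ?_
    calc W.valuation (algebraMap K F (piK ζ g₁)) * W.valuation u < 1 * W.valuation u :=
          mul_lt_mul_of_pos_right hP1 (zero_lt_iff.2 hvu)
      _ = W.valuation u := one_mul _
  -- (2)
  have hyv : W.valuation y = 1 := YC_val_one _ (hy1.trans hω1)
  have hy0 : y ≠ 0 := by
    intro h; rw [h, map_zero] at hyv; exact zero_ne_one hyv
  have hyj : ∀ i : ℤ, W.valuation (y ^ i - 1) < W.valuation (algebraMap K F (1 - ζ)) :=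
    fun i => YC_U_zpow _ hω1.le hω0 hy1 i
  -- (3)
  have hgp : g ^ p = σ • u / u * y ^ (-j) := by
    rw [hY, zpow_neg]
    field_simp
  have hgp1 : W.valuation (g ^ p - 1) < 1 := by
    rw [hgp]
    exact YC_U_mul _ le_rfl hY1 ((hyj (-j)).trans hω1)
  have hg1 : W.valuation (g - 1) < 1 := YC_root W hp FD.odd hpW hgp1
  have hgv : W.valuation g = 1 := YC_val_one _ hg1
  -- (4)
  have hN : (y ^ j * Nm σ p g) ^ p = 1 := by
    have h1 : Nm σ p (σ • u / u) = 1 := by
      rw [YC_Nm_quot σ p hu0, FD.sig_pow u hu, div_self hu0]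
    rw [hY, YC_Nm_mul, YC_Nm_pow, YC_Nm_fix σ p (YC_zpow_fix σ hσy j)] at h1
    rw [mul_pow]; exact h1
  have hZ : IsPrimitiveRoot (algebraMap K F ζ) p :=
    FB.prim.map_of_injective (algebraMap K F).injective
  have : NeZero p := ⟨hp.ne_zero⟩
  obtain ⟨i, -, hi⟩ := hZ.eq_pow_of_pow_eq_one hN
  have hZv : W.valuation (algebraMap K F ζ) = 1 := (G.val_eq_one_iff _).2 FB.zeta_val
  have hNg : W.valuation (Nm σ p g - algebraMap K F (ζ ^ i)) <
      W.valuation (algebraMap K F (1 - ζ)) := by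
    have e : Nm σ p g - algebraMap K F (ζ ^ i) = algebraMap K F ζ ^ i * (y ^ (-j) - 1) := by
      rw [map_pow, hi, zpow_neg]
      field_simp
    rw [e, map_mul, map_pow, hZv, one_pow, one_mul]
    exact hyj (-j)
  -- (5)
  obtain ⟨c₂, hc₂⟩ := hnl K F p A W σ F₁ ζ g₁ a₀ FD g hg hg1 (ζ ^ i) hNg
  have hc₂v : W.valuation (algebraMap K F c₂) = 1 := by
    have h1 : W.valuation (g - algebraMap K F c₂) < W.valuation g := by
      rw [hgv]; exact hc₂.trans hP1
    have := Valuation.map_sub_eq_of_lt_left W.valuation h1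
    rw [sub_sub_cancel, hgv] at this
    exact this
  have hc₂A : A.valuation c₂ = 1 := (G.val_eq_one_iff _).1 hc₂v
  have hc₂0 : algebraMap K F c₂ ≠ 0 := by
    intro h; rw [h, map_zero] at hc₂v; exact zero_ne_one hc₂v
  have heps : W.valuation (g / algebraMap K F c₂ - 1) <
      W.valuation (algebraMap K F (piK ζ g₁)) := by
    have e : g / algebraMap K F c₂ - 1 = (g - algebraMap K F c₂) / algebraMap K F c₂ := by
      field_simp
    rw [e, map_div₀, hc₂v, div_one]; exact hc₂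
  have hpow : W.valuation ((g / algebraMap K F c₂) ^ p - 1) <
      W.valuation (algebraMap K F (1 - ζ)) := by
    have := (hpp K F p A W ζ g₁ hp FD.odd G FB (g / algebraMap K F c₂ - 1)
      (heps.trans hP1).le).2 heps
    rwa [add_sub_cancel] at this
  refine ⟨c₂ ^ p, by rw [map_pow, hc₂A, one_pow], ?_⟩
  have e : σ • u / u - algebraMap K F (c₂ ^ p) =
      algebraMap K F c₂ ^ p * (y ^ j * (g / algebraMap K F c₂) ^ p - 1) := by
    rw [hY, map_pow, div_pow, mul_sub, mul_one, mul_left_comm,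
      mul_div_cancel₀ _ (pow_ne_zero p hc₂0)]
  rw [e, map_mul, map_pow, hc₂v, one_pow, one_mul]
  exact YC_U_mul _ hω1.le (hyj j) hpow

end Fermat.Agent.MR.PL
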