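import Fermat.Agent.MR.PL.Interface3
import Fermat.Agent.MR.PL.YC

/-!
# MR / PL : (YC2)  `Y = σ u / u = const * y * g ^ p` is a constant modulo `< |w|`
(task 1483, helper53)
-/

set_option autoImplicit false

namespace Fermat.Agent.MR.PL

open AlgebraicCurve

section Aux

variable {K F : Type*} [Field K] [Field F] [Algebra K F] (σ : SemilinearAut K F) (p : ℕ)

theorem YC2_Nm_const (c : K) : ∃ c₃ : K, Nm σ p (algebraMap K F c) = algebraMap K F c₃ := by
  refine ⟨∏ i ∈ Finset.range p, SemilinearAut.baseAut (σ ^ i) c, ?_⟩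
  rw [map_prod]
  exact Finset.prod_congr rfl fun i _ => SemilinearAut.smul_algebraMap _ _

theorem YC2_Nm_val {W : ValuationSubring F}
    (hσ : ∀ x : F, W.valuation (σ • x) = W.valuation x) {x : F} (hx : W.valuation x = 1) :
    W.valuation (Nm σ p x) = 1 := by
  rw [Nm, map_prod]
  exact Finset.prod_eq_one fun i _ => by rw [iso_pow hσ, hx]

end Aux

/-- **(YC2)** -/
theorem yc2 (hfb : Stmt_FB) (hvg : Stmt_VG1) (hprf : Stmt_PRF) (hnl : Stmt_NL)
    (hpp : Stmt_PowP) : Stmt_YC2 := by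
  intro K F _ _ _ _ p A W σ F₁ ζ g₁ a₀ FD hroots u y g c hu hy hg hu0 hc0 hσy hy1 hY
  have FB : FBFacts p A ζ g₁ := hfb K F p A W σ F₁ ζ g₁ a₀ FD
  have G := FD.gauss
  have hp := FD.prime
  have hω1 : W.valuation (algebraMap K F (1 - ζ)) < 1 := (G.val_lt_one_iff _).2 FB.w_lt
  have hω0 : 0 < W.valuation (algebraMap K F (1 - ζ)) := by
    rw [zero_lt_iff, Valuation.ne_zero_iff]
    exact (map_ne_zero (algebraMap K F)).2 FB.w_ne
  have hP1 : W.valuation (algebraMap K F (piK ζ g₁)) < 1 := (G.val_lt_one_iff _).2 FB.pi_lt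
  have hpW : W.valuation (p : F) < 1 := by
    have := (G.val_lt_one_iff (p : K)).2 ((ValuationSubring.mem_nonunits_iff _).1 FD.p_small)
    simpa using this
  -- (1)
  have hvu : W.valuation u ≠ 0 := (Valuation.ne_zero_iff _).2 hu0
  have hY1 : W.valuation (σ • u / u - 1) < 1 := by
    have e : σ • u / u - 1 = (σ • u - u) / u := by field_simp
    rw [e, map_div₀, div_lt_one₀ (zero_lt_iff.2 hvu)]
    refine lt_of_le_of_lt (hprf K F p A W σ F₁ ζ g₁ a₀ FD u hu) ?_
    calc W.valuation (algebraMap K F (piK ζ g₁)) * W.valuation u < 1 * W.valuation u :=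
          mul_lt_mul_of_pos_right hP1 (zero_lt_iff.2 hvu)
      _ = W.valuation u := one_mul _
  have hYv : W.valuation (σ • u / u) = 1 := YC_val_one _ hY1
  have hyv : W.valuation y = 1 := YC_val_one _ (hy1.trans hω1)
  have hy0 : y ≠ 0 := by
    intro h; rw [h, map_zero] at hyv; exact zero_ne_one hyv
  have hg0 : g ≠ 0 := by
    rintro rfl
    rw [hY, zero_pow hp.ne_zero, mul_zero, map_zero] at hYv
    exact zero_ne_one hYv
  -- (2) normalise
  obtain ⟨m, hm⟩ := hvg K F p A W σ F₁ ζ g₁ a₀ FD g hg hg0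
  set PI : F := algebraMap K F (piK ζ g₁) with hPI
  have hPI0 : PI ≠ 0 := (map_ne_zero (algebraMap K F)).2 FB.pi_ne
  have hPImem : PI ∈ F₁ := by
    have e : PI = (1 - algebraMap K F ζ) / (algebraMap K F g₁ - 1) := by
      rw [hPI, piK, map_div₀, map_sub, map_sub, map_one]
    rw [e]
    exact F₁.div_mem (F₁.sub_mem F₁.one_mem FD.zeta_mem) (F₁.sub_mem FD.g_mem F₁.one_mem)
  set g' : F := g / PI ^ m with hg'
  have hg'mem : g' ∈ F₁ := F₁.div_mem hg (zpow_mem hPImem m)
  have hg'v : W.valuation g' = 1 := by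
    rw [hg', map_div₀, map_zpow₀, hm]
    exact div_self (zpow_ne_zero m ((Valuation.ne_zero_iff _).2 hPI0))
  set c' : K := c * piK ζ g₁ ^ ((p : ℤ) * m) with hc'
  have hY' : σ • u / u = algebraMap K F c' * y * g' ^ p := by
    rw [hY, hc', hg', map_mul, map_zpow₀, ← hPI, div_pow, ← zpow_natCast (PI ^ m) p, ← zpow_mul,
      mul_comm m (p : ℤ)]
    have : PI ^ ((p : ℤ) * m) ≠ 0 := zpow_ne_zero _ hPI0
    field_simp
  have hc'v : W.valuation (algebraMap K F c') = 1 := by
    have := hYv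
    rw [hY', map_mul, map_mul, map_pow, hyv, hg'v, one_pow, mul_one, mul_one] at this
    exact this
  have hc'A : A.valuation c' = 1 := (G.val_eq_one_iff _).1 hc'v
  -- (3) roots
  obtain ⟨b, hbmem, hb⟩ := hroots c' hc'A
  have hbpA : A.valuation (b ^ p) = 1 := by
    have h1 : A.valuation (b ^ p - c') < A.valuation c' := by rw [hc'A]; exact hb
    have := Valuation.map_add_eq_of_lt_right A.valuation h1
    rwa [sub_add_cancel, hc'A] at this
  have hb0 : b ≠ 0 := by
    rintro rfl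
    rw [zero_pow hp.ne_zero, map_zero] at hbpA
    exact zero_ne_one hbpA
  set B : F := algebraMap K F b with hB
  have hB0 : B ≠ 0 := (map_ne_zero _).2 hb0
  set c'' : K := c' / b ^ p with hc''
  set g'' : F := g' * B with hg''
  have hg''mem : g'' ∈ F₁ := F₁.mul_mem hg'mem hbmem
  have hY'' : σ • u / u = algebraMap K F c'' * y * g'' ^ p := by
    rw [hY', hc'', hg'', map_div₀, map_pow, ← hB, mul_pow]
    field_simp
  have hc''1A : A.valuation (c'' - 1) < 1 := by
    have e : c'' - 1 = -(b ^ p - c') / b ^ p := by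
      rw [hc'']; field_simp; ring
    rw [e, map_div₀, Valuation.map_neg, hbpA, div_one]; exact hb
  have hc''1 : W.valuation (algebraMap K F c'' - 1) < 1 := by
    have := (G.val_lt_one_iff (c'' - 1)).2 hc''1A
    rwa [map_sub, map_one] at this
  have hc''v : W.valuation (algebraMap K F c'') = 1 := YC_val_one _ hc''1
  have hc''0 : algebraMap K F c'' ≠ 0 := by
    intro h; rw [h, map_zero] at hc''v; exact zero_ne_one hc''v
  -- (4)
  have hgp : g'' ^ p = σ • u / u * ((algebraMap K F c'')⁻¹ * y⁻¹) := by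
    rw [hY'']; field_simp
  have hgp1 : W.valuation (g'' ^ p - 1) < 1 := by
    rw [hgp]
    exact YC_U_mul _ le_rfl hY1 (YC_U_mul _ le_rfl (YC_U_inv _ le_rfl hc''1)
      (YC_U_inv _ le_rfl (hy1.trans hω1)))
  have hg1 : W.valuation (g'' - 1) < 1 := YC_root W hp FD.odd hpW hgp1
  have hgv : W.valuation g'' = 1 := YC_val_one _ hg1
  -- (5)
  obtain ⟨c₃, hc₃⟩ := YC2_Nm_const σ p c''
  have hN : algebraMap K F c₃ * (y * Nm σ p g'') ^ p = 1 := by
    have h1 : Nm σ p (σ • u / u) = 1 := by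
      rw [YC_Nm_quot σ p hu0, FD.sig_pow u hu, div_self hu0]
    rw [hY'', YC_Nm_mul, YC_Nm_mul, YC_Nm_pow, YC_Nm_fix σ p hσy, hc₃] at h1
    rw [mul_pow, ← mul_assoc]; exact h1
  have hc₃0 : c₃ ≠ 0 := by
    rintro rfl
    rw [map_zero, zero_mul] at hN
    exact zero_ne_one hN
  obtain ⟨e, he⟩ := IsAlgClosed.exists_pow_nat_eq c₃⁻¹ hp.pos
  have he0 : e ≠ 0 := by
    rintro rfl
    rw [zero_pow hp.ne_zero] at he
    exact inv_ne_zero hc₃0 he.symm
  set E : F := algebraMap K F e with hE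
  have hE0 : E ≠ 0 := (map_ne_zero _).2 he0
  have hEp : E ^ p = (algebraMap K F c₃)⁻¹ := by rw [hE, ← map_pow, he, map_inv₀]
  have hN' : (y * Nm σ p g'' / E) ^ p = 1 := by
    rw [div_pow, hEp, div_inv_eq_mul, mul_comm]; exact hN
  have hZ : IsPrimitiveRoot (algebraMap K F ζ) p :=
    FB.prim.map_of_injective (algebraMap K F).injective
  have : NeZero p := ⟨hp.ne_zero⟩
  obtain ⟨i, -, hi⟩ := hZ.eq_pow_of_pow_eq_one hN'
  set c₁ : K := e * ζ ^ i with hc₁
  have hc₁eq : y * Nm σ p g'' = algebraMap K F c₁ := by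
    rw [hc₁, map_mul, map_pow, hi, ← hE]; field_simp
  have hNv : W.valuation (Nm σ p g'') = 1 := YC2_Nm_val σ p FD.sig_W hgv
  have hc₁v : W.valuation (algebraMap K F c₁) = 1 := by
    rw [← hc₁eq, map_mul, hyv, hNv, one_mul]
  have hNg : W.valuation (Nm σ p g'' - algebraMap K F c₁) <
      W.valuation (algebraMap K F (1 - ζ)) := by
    have e1 : Nm σ p g'' - algebraMap K F c₁ = algebraMap K F c₁ * (y⁻¹ - 1) := by
      rw [← hc₁eq]; field_simp
    rw [e1, map_mul, hc₁v, one_mul]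
    exact YC_U_inv _ hω1.le hy1
  -- (6)
  obtain ⟨c₂, hc₂⟩ := hnl K F p A W σ F₁ ζ g₁ a₀ FD g'' hg''mem hg1 c₁ hNg
  have hc₂v : W.valuation (algebraMap K F c₂) = 1 := by
    have h1 : W.valuation (g'' - algebraMap K F c₂) < W.valuation g'' := by
      rw [hgv]; exact hc₂.trans hP1
    have := Valuation.map_sub_eq_of_lt_left W.valuation h1
    rw [sub_sub_cancel, hgv] at this
    exact this
  have hc₂A : A.valuation c₂ = 1 := (G.val_eq_one_iff _).1 hc₂v
  have hc₂0 : algebraMap K F c₂ ≠ 0 := by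
    intro h; rw [h, map_zero] at hc₂v; exact zero_ne_one hc₂v
  have heps : W.valuation (g'' / algebraMap K F c₂ - 1) < W.valuation PI := by
    have e : g'' / algebraMap K F c₂ - 1 = (g'' - algebraMap K F c₂) / algebraMap K F c₂ := by
      field_simp
    rw [e, map_div₀, hc₂v, div_one]; exact hc₂
  have hpow : W.valuation ((g'' / algebraMap K F c₂) ^ p - 1) <
      W.valuation (algebraMap K F (1 - ζ)) := by
    have := (hpp K F p A W ζ g₁ hp FD.odd G FB (g'' / algebraMap K F c₂ - 1)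
      (heps.trans hP1).le).2 heps
    rwa [add_sub_cancel] at this
  refine ⟨c'' * c₂ ^ p, ?_, ?_⟩
  · rw [map_mul, map_pow, hc₂A, one_pow, mul_one]
    exact (G.val_eq_one_iff _).1 hc''v
  have e : σ • u / u - algebraMap K F (c'' * c₂ ^ p) =
      algebraMap K F c'' * algebraMap K F c₂ ^ p *
        (y * (g'' / algebraMap K F c₂) ^ p - 1) := by
    rw [hY'', map_mul, map_pow, div_pow]; field_simp
  rw [e, map_mul, map_mul, map_pow, hc₂v, hc''v, one_pow, one_mul, one_mul]
  exact YC_U_mul _ hω1.le hy1 hpow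

end Fermat.Agent.MR.PL
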