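import Fermat.Agent.MR.PL.Basic

/-!
# MR / PL : interface (all statements of the abstract Picard-Lefschetz block)

Blocks: `L` (local lemmas at a node / smooth point), `F` (field lemmas for `K₁ / K_t`),
`G` (Galois + node), and the three outputs `Stmt_Smooth`, `Stmt_PLA`, `Stmt_PLB`.
Notation in comments: `|x|₁ = W₁.valuation x`, `w = 1 - ζ`, `dl = g₁ - 1`, `π = piK ζ g₁ = w / dl`.
-/

set_option autoImplicit false

namespace Fermat.Agent.MR.PL

open AlgebraicCurve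
open Fermat.Agent.RED (Ev)

/-! ## Block L -/

/-- (CONTR) a twisted derivation `δ : R → K` killing `A`, `a`, `b` vanishes. -/
def Stmt_Contr : Prop :=
  ∀ (K F : Type) [Field K] [Field F] [Algebra K F] (A : ValuationSubring K)
    (W₁ W₂ : ValuationSubring F) (a b : F) (R : Subring F) (n : Set F),
    LocData A W₁ W₂ a b R n →
    ∀ φ φ' δ : F → K, EvalLike A R n φ → EvalLike A R n φ' →
      (∀ x ∈ R, ∀ y ∈ R, δ (x + y) = δ x + δ y) →
      (∀ x ∈ R, ∀ y ∈ R, δ (x * y) = φ x * δ y + φ' y * δ x) →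
      (∀ c ∈ A, δ (algebraMap K F c) = 0) →
      δ a = 0 → δ b = 0 → ∀ x ∈ R, δ x = 0

/-- (W2a) a centred place is determined by the values of `a` and `b`. -/
def Stmt_W2a : Prop :=
  ∀ (K F : Type) [Field K] [Field F] [Algebra K F] (A : ValuationSubring K)
    (W₁ W₂ : ValuationSubring F) (a b : F) (R : Subring F) (n : Set F),
    LocData A W₁ W₂ a b R n →
    ∀ P P' : Place K F, Centred A R n P → Centred A R n P' →
      val P a = val P' a → val P b = val P' b → P = P'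

/-- (W2b) at a centred place `a - a(P)` or `b - b(P)` is a uniformiser. -/
def Stmt_W2b : Prop :=
  ∀ (K F : Type) [Field K] [Field F] [Algebra K F] (A : ValuationSubring K)
    (W₁ W₂ : ValuationSubring F) (a b : F) (R : Subring F) (n : Set F),
    ResK K F → LocData A W₁ W₂ a b R n →
    ∀ P : Place K F, Centred A R n P →
      P.ord (a - algebraMap K F (val P a)) = 1 ∨ P.ord (b - algebraMap K F (val P b)) = 1

/-- `a - a(P)` has a simple zero at `P` and no other centred zero. -/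
def Simple {K F : Type} [Field K] [Field F] [Algebra K F] (A : ValuationSubring K)
    (R : Subring F) (n : Set F) (a : F) : Prop :=
  ∀ P : Place K F, Centred A R n P → P.ord (a - algebraMap K F (val P a)) = 1 ∧
    ∀ P' : Place K F, Centred A R n P' → P' ≠ P → P'.ord (a - algebraMap K F (val P a)) = 0

/-- (W1) -/
def Stmt_W1 : Prop :=
  ∀ (K F : Type) [Field K] [Field F] [Algebra K F] (p : ℕ) (A : ValuationSubring K)
    (W₁ W₂ : ValuationSubring F) (a b : F) (R : Subring F) (n : Set F),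
    Setting p A W₁ W₂ a b → LocData A W₁ W₂ a b R n →
    ∀ P : Place K F, Centred A R n P →
      val P a * val P b = (p : K) ∧ val P a ∈ A.nonunits ∧ val P b ∈ A.nonunits

/-- (W2) at a node. -/
def Stmt_W2n : Prop :=
  ∀ (K F : Type) [Field K] [Field F] [Algebra K F] (p : ℕ) (A : ValuationSubring K)
    (W₁ W₂ : ValuationSubring F) (a b : F) (R : Subring F) (n : Set F),
    Setting p A W₁ W₂ a b → ResK K F → LocData A W₁ W₂ a b R n → Simple A R n a

/-- (W2) at a smooth point. -/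
def Stmt_W2s : Prop :=
  ∀ (K F : Type) [Field K] [Field F] [Algebra K F] (A : ValuationSubring K)
    (W : ValuationSubring F) (τ : F) (R : Subring F) (n : Set F),
    ResK K F → LocData A W W τ τ R n → Simple A R n τ

/-- the centred part of the divisor of `M_E(a)` is `E`. -/
def Stmt_OrdM : Prop :=
  ∀ (K F : Type) [Field K] [Field F] [Algebra K F] (A : ValuationSubring K)
    (R : Subring F) (n : Set F) (a : F), Simple A R n a →
    ∀ E : Divisor K F, (∀ P, ¬ Centred A R n P → E P = 0) →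
      Mf a E ≠ 0 ∧ ∀ P, Centred A R n P → P.ord (Mf a E) = E P

/-- `M`, `Z`, `dg` of `m • E`. -/
def Stmt_MSmul : Prop :=
  ∀ (K F : Type) [Field K] [Field F] [Algebra K F] (a : F) (E : Divisor K F) (m : ℕ),
    Mf a ((m : ℤ) • E) = Mf a E ^ m ∧ Zc a ((m : ℤ) • E) = Zc a E ^ m ∧
      dg ((m : ℤ) • E) = m * dg E

/-- (W3) a function without centred zero or pole at a node is `c₀ a^k r`, `r ∈ Rˣ`. -/
def Stmt_W3 : Prop :=
  ∀ (K F : Type) [Field K] [Field F] [Algebra K F] (p : ℕ) (A : ValuationSubring K)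
    (W₁ W₂ : ValuationSubring F) (a b : F) (R : Subring F) (n : Set F),
    Setting p A W₁ W₂ a b → LocData A W₁ W₂ a b R n → N3 W₂ a R n →
    ∀ g : F, g ≠ 0 → (∀ P : Place K F, Centred A R n P → P.ord g = 0) →
      ∃ (c₀ : K) (k : ℤ) (r : F), c₀ ≠ 0 ∧ r ∈ R ∧ r ∉ n ∧ g = algebraMap K F c₀ * a ^ k * r

/-- (W) the decomposition `g = c₀ a^k M_E(a) r` at a node. -/
def Stmt_WDec : Prop :=
  ∀ (K F : Type) [Field K] [Field F] [Algebra K F] (p : ℕ) (A : ValuationSubring K)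
    (W₁ W₂ : ValuationSubring F) (a b : F) (R : Subring F) (n : Set F),
    Setting p A W₁ W₂ a b → ResK K F → LocData A W₁ W₂ a b R n → N3 W₂ a R n →
    ∀ (g : F) (E : Divisor K F), g ≠ 0 → (∀ P, Centred A R n P → E P = P.ord g) →
      (∀ P, ¬ Centred A R n P → E P = 0) →
      ∃ (c₀ : K) (k : ℤ) (r : F), c₀ ≠ 0 ∧ r ∈ R ∧ r ∉ n ∧
        g = algebraMap K F c₀ * a ^ k * Mf a E * r

/-- (M2) `M_E(a) ≡ a ^ deg E` for a norm with `|a| = 1`. -/
def Stmt_M2 : Prop :=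
  ∀ (K F : Type) [Field K] [Field F] [Algebra K F] (A : ValuationSubring K)
    (W₁ W₂ : ValuationSubring F) (a b : F) (R : Subring F) (n : Set F),
    Gauss A W₂ → LocData A W₁ W₂ a b R n → W₂.valuation a = 1 →
    ∀ E : Divisor K F, (∀ P, ¬ Centred A R n P → E P = 0) →
      W₂.valuation (Mf a E / a ^ dg E - 1) < 1

/-- (M1) `M_E(a) ≡ Z_E` for the norm with `|a| = |p|`. -/
def Stmt_M1 : Prop :=
  ∀ (K F : Type) [Field K] [Field F] [Algebra K F] (p : ℕ) (A : ValuationSubring K)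
    (W₁ W₂ : ValuationSubring F) (a b : F) (R : Subring F) (n : Set F),
    Setting p A W₁ W₂ a b → LocData A W₁ W₂ a b R n →
    ∀ E : Divisor K F, (∀ P, ¬ Centred A R n P → E P = 0) →
      Zc a E ≠ 0 ∧ W₁.valuation (Mf a E / algebraMap K F (Zc a E) - 1) < 1

/-- (SL) slopes. -/
def Stmt_SL : Prop :=
  ∀ (K F : Type) [Field K] [Field F] [Algebra K F] (p : ℕ) (A : ValuationSubring K)
    (W₁ W₂ : ValuationSubring F) (a b : F) (R : Subring F) (n : Set F),
    Setting p A W₁ W₂ a b → LocData A W₁ W₂ a b R n →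
    ∀ (E : Divisor K F) (g r : F) (c₀ : K) (k : ℤ), (∀ P, ¬ Centred A R n P → E P = 0) →
      c₀ ≠ 0 → r ∈ R → r ∉ n → g = algebraMap K F c₀ * a ^ k * Mf a E * r →
      W₂.valuation g = W₂.valuation (algebraMap K F c₀) ∧
      W₁.valuation g = W₁.valuation (algebraMap K F (c₀ * (p : K) ^ k * Zc a E)) ∧
      Shape K W₁ b R n g (-k)

/-- (U) -/
def Stmt_U : Prop :=
  ∀ (K F : Type) [Field K] [Field F] [Algebra K F] (A : ValuationSubring K)
    (W₁ W₂ : ValuationSubring F) (a b : F) (R : Subring F) (n : Set F),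
    Gauss A W₁ → Gauss A W₂ → LocData A W₁ W₂ a b R n →
    ∀ (r : F) (l₁ l₂ d : K), r ∈ R →
      W₁.valuation (r - algebraMap K F l₁) < W₁.valuation (algebraMap K F d) →
      W₂.valuation (r - algebraMap K F l₂) < W₂.valuation (algebraMap K F d) →
      A.valuation (l₁ - l₂) < A.valuation d

/-- (HFIX) `M` and `Z` of an `h`-invariant divisor are `h`-invariant. -/
def Stmt_HFix : Prop :=
  ∀ (K F : Type) [Field K] [Field F] [Algebra K F] (A : ValuationSubring K)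
    (W₁ W₂ : ValuationSubring F) (a b : F) (R : Subring F) (n : Set F) (h : SemilinearAut K F),
    Gauss A W₁ → LocData A W₁ W₂ a b R n → Pres h W₁ W₂ a b → PresR h R →
    ∀ D : Divisor K F, (∀ P, D (h • P) = D P) →
      h • Mf a (cpart A R n D) = Mf a (cpart A R n D) ∧
      SemilinearAut.baseAut h (Zc a (cpart A R n D)) = Zc a (cpart A R n D)

/-- the decomposition at a smooth point. -/
def Stmt_SDec : Prop :=
  ∀ (K F : Type) [Field K] [Field F] [Algebra K F] (A : ValuationSubring K)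
    (W : ValuationSubring F) (τ : F) (R : Subring F) (n : Set F),
    Gauss A W → ResK K F → LocData A W W τ τ R n → W.valuation τ = 1 →
    ∀ (g : F) (E : Divisor K F), g ≠ 0 → (∀ P, Centred A R n P → E P = P.ord g) →
      (∀ P, ¬ Centred A R n P → E P = 0) → Shape K W τ R n g (dg E)

/-! ## Block F -/

/-- numerical facts. -/
structure FBFacts {K : Type} [Field K] (p : ℕ) (A : ValuationSubring K) (ζ g₁ : K) : Prop where
  prim : IsPrimitiveRoot ζ p
  zeta_val : A.valuation ζ = 1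
  w_ne : 1 - ζ ≠ 0
  w_lt : A.valuation (1 - ζ) < 1
  p_val : A.valuation (p : K) = A.valuation (1 - ζ) ^ (p - 1)
  g_val : A.valuation g₁ = 1
  dl_ne : g₁ - 1 ≠ 0
  dl_val : A.valuation (g₁ - 1) ^ p = A.valuation (p : K)
  dl_lt : A.valuation (g₁ - 1) < 1
  pi_ne : piK ζ g₁ ≠ 0
  pi_lt : A.valuation (piK ζ g₁) < 1
  pi_pow : A.valuation (piK ζ g₁) ^ p = A.valuation (1 - ζ)
  pi_dl : A.valuation (piK ζ g₁) ^ (p - 1) = A.valuation (g₁ - 1)
  nat_unit : ∀ j : ℕ, 0 < j → j < p → A.valuation (j : K) = 1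

def Stmt_FB : Prop :=
  ∀ (K F : Type) [Field K] [Field F] [Algebra K F] (p : ℕ) (A : ValuationSubring K)
    (W : ValuationSubring F) (σ : SemilinearAut K F) (F₁ : Subfield F) (ζ g₁ a₀ : K),
    FieldData p A W σ F₁ ζ g₁ a₀ → FBFacts p A ζ g₁

/-- eigen-decomposition `F₁ = ⊕ F_t g₁^j`. -/
def Stmt_DecG : Prop :=
  ∀ (K F : Type) [Field K] [Field F] [Algebra K F] (p : ℕ) (A : ValuationSubring K)
    (W : ValuationSubring F) (σ : SemilinearAut K F) (F₁ : Subfield F) (ζ g₁ a₀ : K),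
    FieldData p A W σ F₁ ζ g₁ a₀ → ∀ f ∈ F₁, ∃ c : ℕ → F, (∀ j, c j ∈ F₁ ∧ σ • c j = c j) ∧
      f = ∑ j ∈ Finset.range p, c j * algebraMap K F g₁ ^ j

/-- `F₁ = ⊕ F_t dl^j`. -/
def Stmt_Dec : Prop :=
  ∀ (K F : Type) [Field K] [Field F] [Algebra K F] (p : ℕ) (A : ValuationSubring K)
    (W : ValuationSubring F) (σ : SemilinearAut K F) (F₁ : Subfield F) (ζ g₁ a₀ : K),
    FieldData p A W σ F₁ ζ g₁ a₀ → ∀ f ∈ F₁, ∃ c : ℕ → F, (∀ j, c j ∈ F₁ ∧ σ • c j = c j) ∧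
      f = ∑ j ∈ Finset.range p, c j * algebraMap K F (g₁ - 1) ^ j

/-- the decomposition is orthogonal: the nonzero terms have pairwise distinct norms. -/
def Stmt_Orth : Prop :=
  ∀ (K F : Type) [Field K] [Field F] [Algebra K F] (p : ℕ) (A : ValuationSubring K)
    (W : ValuationSubring F) (σ : SemilinearAut K F) (F₁ : Subfield F) (ζ g₁ a₀ : K),
    FieldData p A W σ F₁ ζ g₁ a₀ → ∀ c : ℕ → F, (∀ j, c j ∈ F₁ ∧ σ • c j = c j) →
      (∀ i < p, ∀ j < p, i ≠ j → c i ≠ 0 →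
        W.valuation (c i * algebraMap K F (g₁ - 1) ^ i) ≠
          W.valuation (c j * algebraMap K F (g₁ - 1) ^ j)) ∧
      (∀ j < p, W.valuation (c j * algebraMap K F (g₁ - 1) ^ j) ≤
        W.valuation (∑ i ∈ Finset.range p, c i * algebraMap K F (g₁ - 1) ^ i))

/-- the value group of `F₁` is `|π|^ℤ`. -/
def Stmt_VG1 : Prop :=
  ∀ (K F : Type) [Field K] [Field F] [Algebra K F] (p : ℕ) (A : ValuationSubring K)
    (W : ValuationSubring F) (σ : SemilinearAut K F) (F₁ : Subfield F) (ζ g₁ a₀ : K),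
    FieldData p A W σ F₁ ζ g₁ a₀ → ∀ f ∈ F₁, f ≠ 0 →
      ∃ m : ℤ, W.valuation f = W.valuation (algebraMap K F (piK ζ g₁)) ^ m

/-- (PR-F) `|σ f - f| ≤ |π| |f|` on `F₁`. -/
def Stmt_PRF : Prop :=
  ∀ (K F : Type) [Field K] [Field F] [Algebra K F] (p : ℕ) (A : ValuationSubring K)
    (W : ValuationSubring F) (σ : SemilinearAut K F) (F₁ : Subfield F) (ζ g₁ a₀ : K),
    FieldData p A W σ F₁ ζ g₁ a₀ → ∀ f ∈ F₁,
      W.valuation (σ • f - f) ≤ W.valuation (algebraMap K F (piK ζ g₁)) * W.valuation f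

/-- (PR1) -/
def Stmt_PR1 : Prop :=
  ∀ (K F : Type) [Field K] [Field F] [Algebra K F] (p : ℕ) (A : ValuationSubring K)
    (W : ValuationSubring F) (σ : SemilinearAut K F) (F₁ : Subfield F) (ζ g₁ a₀ : K),
    FieldData p A W σ F₁ ζ g₁ a₀ → ∀ e ∈ F₁, W.valuation (e - 1) < 1 →
      W.valuation (σ • e / e - 1) < W.valuation (algebraMap K F (piK ζ g₁))

/-- (PR-exact) -/
def Stmt_PRX : Prop :=
  ∀ (K F : Type) [Field K] [Field F] [Algebra K F] (p : ℕ) (A : ValuationSubring K)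
    (W : ValuationSubring F) (σ : SemilinearAut K F) (F₁ : Subfield F) (ζ g₁ a₀ : K),
    FieldData p A W σ F₁ ζ g₁ a₀ → ∀ f ∈ F₁, f ≠ 0 →
      W.valuation (σ • f / f - 1) < W.valuation (algebraMap K F (piK ζ g₁)) →
      ∃ m : ℤ, W.valuation f = W.valuation (algebraMap K F (1 - ζ)) ^ m

/-- traces. -/
def Stmt_Tr : Prop :=
  ∀ (K F : Type) [Field K] [Field F] [Algebra K F] (p : ℕ) (A : ValuationSubring K)
    (W : ValuationSubring F) (σ : SemilinearAut K F) (F₁ : Subfield F) (ζ g₁ a₀ : K),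
    FieldData p A W σ F₁ ζ g₁ a₀ →
      (∀ j < p, Trc σ p (algebraMap K F (g₁ - 1) ^ j) = algebraMap K F ((-1) ^ j * (p : K))) ∧
      (∀ z ∈ F₁, W.valuation (Trc σ p z) ≤ W.valuation (algebraMap K F (g₁ - 1)) * W.valuation z)

/-- Newton identities, abstract form. -/
def Stmt_NewtAbs : Prop :=
  ∀ (F : Type) [Field F] (W : ValuationSubring F) (p : ℕ) (x : ℕ → F) (θ : W.ValueGroup),
    p.Prime → (∀ k : ℕ, 0 < k → k < p → W.valuation (k : F) = 1) → θ ≠ 0 →
    (∀ i, W.valuation (x i) < 1) →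
    (∀ j : ℕ, 1 ≤ j → W.valuation (∑ i ∈ Finset.range p, x i ^ j) ≤ θ) →
    (∀ j : ℕ, 2 ≤ j → W.valuation (∑ i ∈ Finset.range p, x i ^ j) < θ) →
    W.valuation (∏ i ∈ Finset.range p, (1 + x i) -
      (1 + ∑ i ∈ Finset.range p, x i + ∏ i ∈ Finset.range p, x i)) < θ

/-- `N(1 + x) ≡ 1 + Tr x + N x` modulo `< |w|` for `|x| ≤ |π|`. -/
def Stmt_Newt : Prop :=
  ∀ (K F : Type) [Field K] [Field F] [Algebra K F] (p : ℕ) (A : ValuationSubring K)
    (W : ValuationSubring F) (σ : SemilinearAut K F) (F₁ : Subfield F) (ζ g₁ a₀ : K),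
    FieldData p A W σ F₁ ζ g₁ a₀ → ∀ x ∈ F₁,
      W.valuation x ≤ W.valuation (algebraMap K F (piK ζ g₁)) →
      W.valuation (Nm σ p (1 + x) - (1 + Trc σ p x + Nm σ p x)) <
        W.valuation (algebraMap K F (1 - ζ))

/-- `ϖ = dl^(p-1) / w^(p-2)`, `|ϖ| = |π|`. -/
def varpi {K : Type} [Field K] (p : ℕ) (ζ g₁ : K) : K := (g₁ - 1) ^ (p - 1) / (1 - ζ) ^ (p - 2)

/-- leading term of an element of `F₁` of norm `≤ |π|`. -/
def Stmt_Lead : Prop :=
  ∀ (K F : Type) [Field K] [Field F] [Algebra K F] (p : ℕ) (A : ValuationSubring K)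
    (W : ValuationSubring F) (σ : SemilinearAut K F) (F₁ : Subfield F) (ζ g₁ a₀ : K),
    FieldData p A W σ F₁ ζ g₁ a₀ → ∀ x ∈ F₁,
      W.valuation x ≤ W.valuation (algebraMap K F (piK ζ g₁)) →
      ∃ γ ∈ F₁, σ • γ = γ ∧ W.valuation γ ≤ 1 ∧
        W.valuation (x - γ * algebraMap K F (varpi p ζ g₁)) <
          W.valuation (algebraMap K F (piK ζ g₁))

/-- the norm of `1 + γ ϖ + (smaller)`. -/
def Stmt_NL1 : Prop :=
  ∀ (K F : Type) [Field K] [Field F] [Algebra K F] (p : ℕ) (A : ValuationSubring K)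
    (W : ValuationSubring F) (σ : SemilinearAut K F) (F₁ : Subfield F) (ζ g₁ a₀ : K),
    FieldData p A W σ F₁ ζ g₁ a₀ → ∃ α β : K, A.valuation α = 1 ∧ A.valuation β = 1 ∧
      ∀ x ∈ F₁, ∀ γ ∈ F₁, σ • γ = γ → W.valuation γ ≤ 1 →
        W.valuation (x - γ * algebraMap K F (varpi p ζ g₁)) <
          W.valuation (algebraMap K F (piK ζ g₁)) →
        W.valuation (Nm σ p (1 + x) - (1 + algebraMap K F (1 - ζ) *
          (algebraMap K F α * γ ^ p + algebraMap K F β * γ))) <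
          W.valuation (algebraMap K F (1 - ζ))

/-- (NL) -/
def Stmt_NL : Prop :=
  ∀ (K F : Type) [Field K] [IsAlgClosed K] [Field F] [Algebra K F] (p : ℕ)
    (A : ValuationSubring K)
    (W : ValuationSubring F) (σ : SemilinearAut K F) (F₁ : Subfield F) (ζ g₁ a₀ : K),
    FieldData p A W σ F₁ ζ g₁ a₀ → ∀ g ∈ F₁, W.valuation (g - 1) < 1 → ∀ c₁ : K,
      W.valuation (Nm σ p g - algebraMap K F c₁) < W.valuation (algebraMap K F (1 - ζ)) →
      ∃ c₂ : K, W.valuation (g - algebraMap K F c₂) < W.valuation (algebraMap K F (piK ζ g₁))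

/-- `p`-th powers of one-units. -/
def Stmt_PowP : Prop :=
  ∀ (K F : Type) [Field K] [Field F] [Algebra K F] (p : ℕ) (A : ValuationSubring K)
    (W : ValuationSubring F) (ζ g₁ : K), p.Prime → p ≠ 2 → Gauss A W → FBFacts p A ζ g₁ →
    ∀ x : F, W.valuation x ≤ 1 →
      (W.valuation ((1 + x) ^ p - 1) < W.valuation (algebraMap K F (1 - ζ)) ↔
        W.valuation x < W.valuation (algebraMap K F (piK ζ g₁)))

/-- (YC) `Y = σ u / u` is a constant modulo `< |w|`. -/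
def Stmt_YC : Prop :=
  ∀ (K F : Type) [Field K] [IsAlgClosed K] [Field F] [Algebra K F] (p : ℕ)
    (A : ValuationSubring K)
    (W : ValuationSubring F) (σ : SemilinearAut K F) (F₁ : Subfield F) (ζ g₁ a₀ : K),
    FieldData p A W σ F₁ ζ g₁ a₀ → ∀ (u y g : F) (j : ℤ), u ∈ F₁ → y ∈ F₁ → g ∈ F₁ → u ≠ 0 →
      σ • y = y → W.valuation (y - 1) < W.valuation (algebraMap K F (1 - ζ)) →
      σ • u / u = y ^ j * g ^ p →
      ∃ C : K, A.valuation C = 1 ∧
        W.valuation (σ • u / u - algebraMap K F C) < W.valuation (algebraMap K F (1 - ζ))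

/-! ## Block G -/

/-- (XI) `ξ_s ^ p ≡ C₁ / C₂` modulo `< |w|`, `ξ_s = σ Z_s / Z_s`. -/
def Stmt_Xi : Prop :=
  ∀ (K F : Type) [Field K] [Field F] [Algebra K F] (p : ℕ) (A : ValuationSubring K)
    (W₁ W₂ : ValuationSubring F) (a b : F) (R : Subring F) (n : Set F)
    (σ : SemilinearAut K F) (F₁ : Subfield F) (ζ g₁ a₀ : K),
    Setting p A W₁ W₂ a b → LocData A W₁ W₂ a b R n →
    FieldData p A W₁ σ F₁ ζ g₁ a₀ → FieldData p A W₂ σ F₁ ζ g₁ a₀ →
    σ • a = a → a ∈ F₁ → PresR σ R →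
    ∀ (u M r : F) (c₀ Z C₁ C₂ : K) (k d : ℤ), c₀ ≠ 0 → M ∈ F₁ → Z ≠ 0 → algebraMap K F Z ∈ F₁ →
      r ∈ R → r ∉ n → u = algebraMap K F c₀ * a ^ k * M ^ p * r →
      W₂.valuation (M / a ^ d - 1) < 1 → W₁.valuation (M / algebraMap K F Z - 1) < 1 →
      A.valuation C₁ = 1 → A.valuation C₂ = 1 →
      W₁.valuation (σ • u / u - algebraMap K F C₁) < W₁.valuation (algebraMap K F (1 - ζ)) →
      W₂.valuation (σ • u / u - algebraMap K F C₂) < W₂.valuation (algebraMap K F (1 - ζ)) →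
      A.valuation ((SemilinearAut.baseAut σ Z / Z) ^ p - C₁ / C₂) < A.valuation (1 - ζ)

/-- (ZV) -/
def Stmt_ZV : Prop :=
  ∀ (K F : Type) [Field K] [Field F] [Algebra K F] (p : ℕ) (A : ValuationSubring K)
    (W : ValuationSubring F) (σ : SemilinearAut K F) (F₁ : Subfield F) (ζ g₁ a₀ : K),
    FieldData p A W σ F₁ ζ g₁ a₀ → ∀ Z Z' C : K, Z ≠ 0 → Z' ≠ 0 →
      algebraMap K F Z ∈ F₁ → algebraMap K F Z' ∈ F₁ → A.valuation C = 1 →
      A.valuation ((SemilinearAut.baseAut σ Z / Z) ^ p - C) < A.valuation (1 - ζ) →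
      A.valuation ((SemilinearAut.baseAut σ Z' / Z') ^ p - C) < A.valuation (1 - ζ) →
      ∃ m : ℤ, A.valuation (Z / Z') = A.valuation (1 - ζ) ^ m

/-- (FIN) -/
def Stmt_Fin : Prop :=
  ∀ (K F : Type) [Field K] [Field F] [Algebra K F] (p : ℕ) (A : ValuationSubring K)
    (W₁ W₂ : ValuationSubring F) (w : K) (u : F) (ι : Type) (c₀ Z : ι → K) (k : ι → ℤ),
    p.Prime → Gauss A W₁ → Gauss A W₂ → w ≠ 0 → A.valuation w < 1 →
    A.valuation (p : K) = A.valuation w ^ (p - 1) →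
    (∀ s, c₀ s ≠ 0 ∧ Z s ≠ 0) →
    (∀ s, W₂.valuation u = W₂.valuation (algebraMap K F (c₀ s))) →
    (∀ s, W₁.valuation u = W₁.valuation (algebraMap K F (c₀ s * (p : K) ^ k s * Z s ^ p))) →
    (∀ s s', ∃ m : ℤ, A.valuation (Z s / Z s') = A.valuation w ^ m) →
    ∀ s s', (p : ℤ) ∣ k s - k s'

/-! ## Outputs -/

/-- OUTPUT 1 (smooth points, cusps). -/
def Stmt_Smooth : Prop :=
  ∀ (K F : Type) [Field K] [Field F] [Algebra K F] (p : ℕ) (A : ValuationSubring K)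
    (W : ValuationSubring F) (τ : F) (R : Subring F) (n : Set F),
    Gauss A W → ResK K F → LocData A W W τ τ R n → W.valuation τ = 1 →
    ∀ (u : F) (D : Divisor K F), u ≠ 0 → (∀ P, P.ord u = p * D P) →
      ∃ m : ℤ, Shape K W τ R n u (p * m)

/-- OUTPUT 2 (nodes, `u` defined over a field with value group `|w|^ℤ`). -/
def Stmt_PLA : Prop :=
  ∀ (K F : Type) [Field K] [Field F] [Algebra K F] (p : ℕ) (A : ValuationSubring K)
    (W₁ W₂ : ValuationSubring F) (a b : F) (ι : Type) (R : ι → Subring F) (n : ι → Set F)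
    (H : Set (SemilinearAut K F)) (w : K),
    p.Prime → Setting p A W₁ W₂ a b → ResK K F →
    (∀ s, LocData A W₁ W₂ a b (R s) (n s)) → (∀ s, N3 W₂ a (R s) (n s)) →
    w ≠ 0 → A.valuation w < 1 → A.valuation (p : K) = A.valuation w ^ (p - 1) →
    (∀ h ∈ H, Pres h W₁ W₂ a b ∧ ∀ s, PresR h (R s)) →
    (∀ c : K, c ≠ 0 → (∀ h ∈ H, SemilinearAut.baseAut h c = c) →
      ∃ m : ℤ, A.valuation c = A.valuation w ^ m) →
    ∀ (u : F) (D : Divisor K F), u ≠ 0 → (∀ P, P.ord u = p * D P) → (∀ h ∈ H, h • u = u) →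
      ∃ δ : ℤ, ∀ s, ∃ m : ℤ, Shape K W₁ b (R s) (n s) u (δ + p * m)

/-- OUTPUT 3 (nodes, Theorem PL). -/
def Stmt_PLB : Prop :=
  ∀ (K F : Type) [Field K] [IsAlgClosed K] [Field F] [Algebra K F] (p : ℕ)
    (A : ValuationSubring K)
    (W₁ W₂ : ValuationSubring F) (a b : F) (ι : Type) (R : ι → Subring F) (n : ι → Set F)
    (H : Set (SemilinearAut K F)) (σ : SemilinearAut K F) (F₁ : Subfield F) (ζ g₁ a₀ : K),
    Setting p A W₁ W₂ a b → ResK K F →
    (∀ s, LocData A W₁ W₂ a b (R s) (n s)) → (∀ s, N3 W₂ a (R s) (n s)) →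
    FieldData p A W₁ σ F₁ ζ g₁ a₀ → FieldData p A W₂ σ F₁ ζ g₁ a₀ →
    σ • a = a → (∀ s, PresR σ (R s)) →
    (∀ h ∈ H, Pres h W₁ W₂ a b ∧ ∀ s, PresR h (R s)) →
    (∀ x : F, (∀ h ∈ H, h • x = x) → x ∈ F₁) →
    ∀ (u y g : F) (D : Divisor K F) (j : ℤ), u ≠ 0 → (∀ P, P.ord u = p * D P) →
      (∀ h ∈ H, h • u = u) → y ∈ F₁ → σ • y = y → g ∈ F₁ →
      W₁.valuation (y - 1) < W₁.valuation (algebraMap K F (1 - ζ)) →
      W₂.valuation (y - 1) < W₂.valuation (algebraMap K F (1 - ζ)) →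
      σ • u / u = y ^ j * g ^ p →
      ∃ δ : ℤ, ∀ s, ∃ m : ℤ, Shape K W₁ b (R s) (n s) u (δ + p * m)

end Fermat.Agent.MR.PL
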