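/-
TEAM MR -> S44, block PL, package PL-ZV (helper2): `|Z / Z'| ∈ |w|^ℤ` from `ξ^p ≡ ξ'^p`.
-/
import Fermat.Agent.MR.PL.Interface

set_option autoImplicit false

namespace Fermat.Agent.MR.PL

open AlgebraicCurve

/-- (ZV) -/
theorem zv (hfb : Stmt_FB) (hpp : Stmt_PowP) (hx : Stmt_PRX) : Stmt_ZV := by
  intro K F _ _ _ p A W σ F₁ ζ g₁ a₀ D Z Z' C hZ hZ' hZm hZm' _ h1 h2
  have FB := hfb K F p A W σ F₁ ζ g₁ a₀ D
  have hiso : ∀ c, A.valuation (SemilinearAut.baseAut σ c) = A.valuation c :=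
    D.gauss.baseAut_iso D.sig_W
  obtain ⟨ξ, hξd⟩ : ∃ ξ, ξ = SemilinearAut.baseAut σ Z / Z := ⟨_, rfl⟩
  obtain ⟨ξ', hξd'⟩ : ∃ ξ', ξ' = SemilinearAut.baseAut σ Z' / Z' := ⟨_, rfl⟩
  rw [← hξd] at h1
  rw [← hξd'] at h2
  have hξ : A.valuation ξ = 1 := by
    rw [hξd, map_div₀, hiso, div_self ((Valuation.ne_zero_iff _).2 hZ)]
  have hξ' : A.valuation ξ' = 1 := by
    rw [hξd', map_div₀, hiso, div_self ((Valuation.ne_zero_iff _).2 hZ')]
  have hξ'0 : ξ' ≠ 0 := (Valuation.ne_zero_iff A.valuation).1 (by rw [hξ']; exact one_ne_zero)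
  have hη : A.valuation (ξ / ξ') = 1 := by rw [map_div₀, hξ, hξ', div_one]
  have h3 : A.valuation ((ξ / ξ') ^ p - 1) < A.valuation (1 - ζ) := by
    have e : (ξ / ξ') ^ p - 1 = ((ξ ^ p - C) - (ξ' ^ p - C)) / ξ' ^ p := by
      rw [div_pow, eq_div_iff (pow_ne_zero p hξ'0), sub_mul, div_mul_cancel₀ _ (pow_ne_zero p hξ'0)]
      ring
    rw [e, map_div₀, map_pow, hξ', one_pow, div_one]
    exact lt_of_le_of_lt (Valuation.map_sub _ _ _) (max_lt h1 h2)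
  have h4 : W.valuation ((1 + algebraMap K F (ξ / ξ' - 1)) ^ p - 1)
      < W.valuation (algebraMap K F (1 - ζ)) := by
    have e : (1 + algebraMap K F (ξ / ξ' - 1)) ^ p - 1 = algebraMap K F ((ξ / ξ') ^ p - 1) := by
      rw [map_sub, map_sub, map_pow, map_one, add_sub_cancel]
    rw [e]
    exact (D.gauss.val_lt_iff _ _).2 h3
  have h5 : W.valuation (algebraMap K F (ξ / ξ' - 1)) ≤ 1 := by
    rw [D.gauss.val_le_one_iff]
    exact le_trans (Valuation.map_sub _ _ _) (by rw [hη, map_one, max_self])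
  have h6 := (hpp K F p A W ζ g₁ D.prime D.odd D.gauss FB _ h5).1 h4
  have hf : algebraMap K F (Z / Z') ∈ F₁ := by
    rw [map_div₀]
    exact F₁.div_mem hZm hZm'
  have hf0 : algebraMap K F (Z / Z') ≠ 0 := by
    rw [Ne, map_eq_zero]
    exact div_ne_zero hZ hZ'
  have hσf : σ • algebraMap K F (Z / Z') / algebraMap K F (Z / Z') - 1
      = algebraMap K F (ξ / ξ' - 1) := by
    have e : SemilinearAut.baseAut σ (Z / Z') / (Z / Z') = ξ / ξ' := by
      have hs : SemilinearAut.baseAut σ Z' ≠ 0 := by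
        rw [Ne, map_eq_zero]
        exact hZ'
      rw [map_div₀, hξd, hξd']
      field_simp
    rw [SemilinearAut.smul_algebraMap, ← map_div₀, e, map_sub, map_one]
  obtain ⟨m, hm⟩ := hx K F p A W σ F₁ ζ g₁ a₀ D _ hf hf0 (by rw [hσf]; exact h6)
  refine ⟨m, ?_⟩
  rw [← map_zpow₀, ← map_zpow₀] at hm
  rw [← map_zpow₀]
  exact (D.gauss.val_eq_iff _ _).1 hm

end Fermat.Agent.MR.PL
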