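import Fermat.Agent.MR.PL.Contr
import Fermat.Agent.MR.PL.W2a
import Fermat.Agent.MR.PL.W2b
import Fermat.Agent.MR.PL.W12
import Fermat.Agent.MR.PL.OrdM
import Fermat.Agent.MR.PL.W3
import Fermat.Agent.MR.PL.WDec
import Fermat.Agent.MR.PL.MM
import Fermat.Agent.MR.PL.SL
import Fermat.Agent.MR.PL.ULemma
import Fermat.Agent.MR.PL.HFix
import Fermat.Agent.MR.PL.SDec
import Fermat.Agent.MR.PL.FB
import Fermat.Agent.MR.PL.DecG
import Fermat.Agent.MR.PL.Dec
import Fermat.Agent.MR.PL.Orth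
import Fermat.Agent.MR.PL.VG1
import Fermat.Agent.MR.PL.PRF
import Fermat.Agent.MR.PL.PRX
import Fermat.Agent.MR.PL.Tr
import Fermat.Agent.MR.PL.NewtAbs
import Fermat.Agent.MR.PL.Newt
import Fermat.Agent.MR.PL.Lead
import Fermat.Agent.MR.PL.NL1
import Fermat.Agent.MR.PL.NL
import Fermat.Agent.MR.PL.PowP
import Fermat.Agent.MR.PL.YC
import Fermat.Agent.MR.PL.YC2
import Fermat.Agent.MR.PL.Xi
import Fermat.Agent.MR.PL.ZV
import Fermat.Agent.MR.PL.Fin
import Fermat.Agent.MR.PL.Core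
import Fermat.Agent.MR.PL.Smooth
import Fermat.Agent.MR.PL.PLA
import Fermat.Agent.MR.PL.PLB
import Fermat.Agent.MR.PL.PLC
import Fermat.Agent.MR.PL.Iso

/-!
# MR / PL : all statements of the abstract Picard-Lefschetz block, UNCONDITIONALLY.

Outputs: `all_Smooth`, `all_PLA`, `all_PLB`, `all_PLC`, `all_YC2`, `all_Iso` (+ every intermediate
statement as `all_*`).  (Layer 2 is in `FinalL2.lean`.)
-/

set_option autoImplicit false

namespace Fermat.Agent.MR.PL

theorem all_Contr : Stmt_Contr := contr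
theorem all_W2a : Stmt_W2a := w2a all_Contr
theorem all_W2b : Stmt_W2b := w2b all_Contr
theorem all_W1 : Stmt_W1 := w1
theorem all_W2n : Stmt_W2n := w2n all_W1 all_W2a all_W2b
theorem all_W2s : Stmt_W2s := w2s all_W2a all_W2b
theorem all_OrdM : Stmt_OrdM := ordM
theorem all_MSmul : Stmt_MSmul := mSmul
theorem all_W3 : Stmt_W3 := w3 all_W1
theorem all_WDec : Stmt_WDec := wDec all_W2n all_OrdM all_W3
theorem all_M2 : Stmt_M2 := m2
theorem all_M1 : Stmt_M1 := m1 all_W1
theorem all_SL : Stmt_SL := sl all_M1 all_M2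
theorem all_U : Stmt_U := uLemma
theorem all_HFix : Stmt_HFix := hFix
theorem all_SDec : Stmt_SDec := sDec all_W2s all_OrdM all_M2
theorem all_FB : Stmt_FB := fb
theorem all_DecG : Stmt_DecG := decG all_FB
theorem all_Dec : Stmt_Dec := dec all_DecG
theorem all_Orth : Stmt_Orth := orth all_FB
theorem all_VG1 : Stmt_VG1 := vg1 all_FB all_Dec all_Orth
theorem all_PRF : Stmt_PRF := prf all_FB all_Dec all_Orth
theorem all_PR1 : Stmt_PR1 := pr1 all_FB all_PRF
theorem all_PRX : Stmt_PRX := prx all_FB all_Dec all_Orth all_PR1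
theorem all_Tr : Stmt_Tr := tr all_FB all_Dec all_Orth
theorem all_NewtAbs : Stmt_NewtAbs := newtAbs
theorem all_Newt : Stmt_Newt := newt all_FB all_Tr all_NewtAbs
theorem all_Lead : Stmt_Lead := lead all_FB all_Dec all_Orth
theorem all_NL1 : Stmt_NL1 := nl1 all_FB all_Tr all_Newt
theorem all_NL : Stmt_NL := nl all_FB all_VG1 all_Lead all_NL1
theorem all_PowP : Stmt_PowP := powP
theorem all_YC : Stmt_YC := yc all_FB all_PRF all_NL all_PowP
theorem all_YC2 : Stmt_YC2 := yc2 all_FB all_VG1 all_PRF all_NL all_PowP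
theorem all_Xi : Stmt_Xi := xi all_FB all_U all_PR1 all_PowP
theorem all_ZV : Stmt_ZV := zv all_FB all_PowP all_PRX
theorem all_Fin : Stmt_Fin := fin
theorem all_Core : Stmt_Core := core all_WDec all_MSmul all_SL all_M1 all_M2 all_HFix

/-- OUTPUT 1 : smooth points and cusps. -/
theorem all_Smooth : Stmt_Smooth := smooth all_SDec all_MSmul

/-- OUTPUT 2 : nodes, `u` over a field with value group `|w|^ℤ`. -/
theorem all_PLA : Stmt_PLA := plA all_Core all_Fin

/-- OUTPUT 3 : Theorem PL. -/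
theorem all_PLB : Stmt_PLB := plB all_Core all_FB all_YC all_Xi all_ZV all_Fin

/-- OUTPUT 3' : Theorem PL, with the conclusions of (YC) as hypotheses. -/
theorem all_PLC : Stmt_PLC := plC all_Core all_FB all_Xi all_ZV all_Fin

theorem all_Iso : Stmt_Iso := iso

end Fermat.Agent.MR.PL
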