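import Fermat.Agent.MR.PL.Interface
import Fermat.Agent.RED.Ev
import Fermat.Agent.S24.FundId

/-!
# MR / PL : interface, part 2

* `Stmt_Core` : everything the local block says about `u` at ONE node (used by `PLA`, `PLB`).
* Layer 2 : `LocData` for the localisation of a chart ring `BB = B ∩ V₁ ∩ V₂`
  (`B` = integral closure of `K[t]` in `F`) at a closed point `n₀` with residue field `A / 𝔪_A`.
-/

set_option autoImplicit false

namespace Fermat.Agent.MR.PL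

open AlgebraicCurve IntermediateField
open Fermat.Agent.RED (Ev)

/-- the local block at one node. -/
def Stmt_Core : Prop :=
  ∀ (K F : Type) [Field K] [Field F] [Algebra K F] (p : ℕ) (A : ValuationSubring K)
    (W₁ W₂ : ValuationSubring F) (a b : F) (R : Subring F) (n : Set F)
    (H : Set (SemilinearAut K F)),
    Setting p A W₁ W₂ a b → ResK K F → LocData A W₁ W₂ a b R n → N3 W₂ a R n →
    (∀ h ∈ H, Pres h W₁ W₂ a b ∧ PresR h R) →
    ∀ (u : F) (D : Divisor K F), u ≠ 0 → (∀ P, P.ord u = p * D P) → (∀ h ∈ H, h • u = u) →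
      ∃ (c₀ : K) (k : ℤ) (r : F), c₀ ≠ 0 ∧ r ∈ R ∧ r ∉ n ∧
        u = algebraMap K F c₀ * a ^ k * Mf a (cpart A R n D) ^ p * r ∧
        W₂.valuation u = W₂.valuation (algebraMap K F c₀) ∧
        W₁.valuation u =
          W₁.valuation (algebraMap K F (c₀ * (p : K) ^ k * Zc a (cpart A R n D) ^ p)) ∧
        Shape K W₁ b R n u (-k) ∧ Zc a (cpart A R n D) ≠ 0 ∧
        W₂.valuation (Mf a (cpart A R n D) / a ^ dg (cpart A R n D) - 1) < 1 ∧
        W₁.valuation (Mf a (cpart A R n D) / algebraMap K F (Zc a (cpart A R n D)) - 1) < 1 ∧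
        ∀ h ∈ H, h • Mf a (cpart A R n D) = Mf a (cpart A R n D) ∧
          SemilinearAut.baseAut h (Zc a (cpart A R n D)) = Zc a (cpart A R n D)

/-! ## Layer 2 -/

section Defs

variable {K F : Type*} [Field K] [Field F] [Algebra K F]

/-- the chart ring `BB = B ∩ V₁ ∩ V₂`. -/
def BB (K : Type*) {F : Type*} [Field K] [Field F] [Algebra K F] (V₁ V₂ : ValuationSubring F)
    (t : F) : Subring F :=
  (integralClosure (Algebra.adjoin K {t}) F).toSubring ⊓ V₁.toSubring ⊓ V₂.toSubring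

theorem mem_BB {V₁ V₂ : ValuationSubring F} {t x : F} :
    x ∈ BB K V₁ V₂ t ↔ IsIntegral (Algebra.adjoin K {t}) x ∧ x ∈ V₁ ∧ x ∈ V₂ := by
  unfold BB
  rw [Subring.mem_inf, Subring.mem_inf, and_assoc]
  rfl

/-- the localisation of `B` at the prime `n₀`, as a subring of `F`. -/
def locR (B : Subring F) (n₀ : Set F) : Subring F :=
  Subring.closure ((B : Set F) ∪ {x | ∃ z ∈ B, z ∉ n₀ ∧ x = z⁻¹})

/-- its maximal ideal. -/
def locN (B : Subring F) (n₀ : Set F) : Set F :=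
  {x | ∃ y ∈ n₀, ∃ z ∈ B, z ∉ n₀ ∧ x = y / z}

/-- chart data. -/
structure ChartData (A : ValuationSubring K) (V₁ V₂ : ValuationSubring F) (t : F) : Prop where
  g₁ : Gauss A V₁
  g₂ : Gauss A V₂
  trans : Transcendental K t
  fin : FiniteDimensional K⟮t⟯ F
  t_mem₁ : t ∈ V₁
  t_mem₂ : t ∈ V₂
  /-- `BB` is integral over `A[t]`. -/
  int : ∀ x ∈ BB K V₁ V₂ t, Fermat.Agent.RED.IntOver A t x
  /-- `BB` is a finitely generated `A`-algebra. -/
  fg : ∃ S : Finset F, (∀ s ∈ S, s ∈ BB K V₁ V₂ t) ∧ ∀ x ∈ BB K V₁ V₂ t, x ∈ adj A (S : Set F)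

/-- a closed point of `Spec B` with residue field `A / 𝔪_A`. -/
structure PointData (A : ValuationSubring K) (B : Subring F) (n₀ : Set F) : Prop where
  sub : ∀ x ∈ n₀, x ∈ B
  add : ∀ x ∈ n₀, ∀ y ∈ n₀, x + y ∈ n₀
  mul : ∀ x ∈ B, ∀ y ∈ n₀, x * y ∈ n₀
  one_not_mem : (1 : F) ∉ n₀
  const_mem : ∀ c ∈ A, algebraMap K F c ∈ B
  small : ∀ c ∈ A.nonunits, algebraMap K F c ∈ n₀
  res : ∀ x ∈ B, ∃ c ∈ A, x - algebraMap K F c ∈ n₀

/-- divisors of functions have finite support. -/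
def FinSupp (K F : Type*) [Field K] [Field F] [Algebra K F] : Prop :=
  ∀ f : F, f ≠ 0 → ∃ D : Divisor K F, ∀ P, D P = P.ord f

/-- `A` has rank one. -/
def Arch (A : ValuationSubring K) : Prop :=
  ∀ π ∈ A.nonunits, ∀ c : K, ∃ m : ℕ, π ^ m * c ∈ A

/-- `P` is centred at the closed point `n₀` of `Spec B`. -/
def Centred₀ (A : ValuationSubring K) (B : Subring F) (n₀ : Set F) (P : Place K F) : Prop :=
  ∀ x ∈ B, ∃ c ∈ A, Ev P x c ∧ (x ∈ n₀ → c ∈ A.nonunits)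

end Defs

/-- (L2-RING) fractions, primality. -/
def Stmt_L2Ring : Prop :=
  ∀ (K F : Type) [Field K] [Field F] [Algebra K F] (A : ValuationSubring K) (B : Subring F)
    (n₀ : Set F), PointData A B n₀ →
    (∀ y ∈ B, ∀ z ∈ B, y * z ∈ n₀ → y ∈ n₀ ∨ z ∈ n₀) ∧
    (∀ x : F, x ∈ locR B n₀ ↔ ∃ y ∈ B, ∃ z ∈ B, z ∉ n₀ ∧ x = y / z) ∧
    (∀ y ∈ B, ∀ z ∈ B, z ∉ n₀ → (y / z ∈ locN B n₀ ↔ y ∈ n₀))

/-- (L2-LOC) the ring axioms of `LocData` for `(locR, locN)`. -/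
def Stmt_L2Loc : Prop :=
  ∀ (K F : Type) [Field K] [Field F] [Algebra K F] (A : ValuationSubring K) (B : Subring F)
    (n₀ : Set F), PointData A B n₀ →
    (∀ x ∈ locN B n₀, x ∈ locR B n₀) ∧
    (∀ x ∈ locN B n₀, ∀ y ∈ locN B n₀, x + y ∈ locN B n₀) ∧
    (∀ x ∈ locR B n₀, ∀ y ∈ locN B n₀, x * y ∈ locN B n₀) ∧
    (1 : F) ∉ locN B n₀ ∧
    (∀ x ∈ locR B n₀, x ∉ locN B n₀ → x⁻¹ ∈ locR B n₀) ∧
    (∀ c ∈ A, algebraMap K F c ∈ locR B n₀) ∧
    (∀ x ∈ locR B n₀, ∃ c ∈ A, x - algebraMap K F c ∈ locN B n₀) ∧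
    (∀ W : ValuationSubring F, (∀ x ∈ B, x ∈ W) → (∀ x ∈ B, x ∈ W.nonunits → x ∈ n₀) →
      (∀ x ∈ locR B n₀, x ∈ W) ∧ (∀ x ∈ locR B n₀, x ∈ W.nonunits → x ∈ locN B n₀))

/-- (L2-CEN) centred places. -/
def Stmt_L2Cen : Prop :=
  ∀ (K F : Type) [Field K] [Field F] [Algebra K F] (A : ValuationSubring K) (B : Subring F)
    (n₀ : Set F), PointData A B n₀ →
    ∀ P : Place K F, Centred A (locR B n₀) (locN B n₀) P ↔ Centred₀ A B n₀ P

/-- (L2-INT) a function which is regular at all places where `t` is regular is integral over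
`K[t]`. -/
def Stmt_L2Int : Prop :=
  ∀ (K F : Type) [Field K] [IsAlgClosed K] [CharZero K] [Field F] [Algebra K F] (t : F),
    Transcendental K t → FiniteDimensional K⟮t⟯ F →
    ∀ x : F, (∀ P : Place K F, t ∈ P.toValuationSubring → x ∈ P.toValuationSubring) →
      IsIntegral (Algebra.adjoin K {t}) x

/-- (L2-KILL) a place where `t` is regular and which is not centred at `n₀` is a zero of some
`d ∈ BB \ n₀`. -/
def Stmt_L2Kill : Prop :=
  ∀ (K F : Type) [Field K] [IsAlgClosed K] [CharZero K] [Field F] [Algebra K F]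
    (A : ValuationSubring K) (V₁ V₂ : ValuationSubring F) (t : F) (n₀ : Set F),
    ChartData A V₁ V₂ t → PointData A (BB K V₁ V₂ t) n₀ →
    ∀ P : Place K F, t ∈ P.toValuationSubring → ¬ Centred₀ A (BB K V₁ V₂ t) n₀ P →
      ∃ d ∈ BB K V₁ V₂ t, d ∉ n₀ ∧ Ev P d 0

/-- (L2-REG) -/
def Stmt_L2Reg : Prop :=
  ∀ (K F : Type) [Field K] [IsAlgClosed K] [CharZero K] [Field F] [Algebra K F]
    (A : ValuationSubring K) (V₁ V₂ : ValuationSubring F) (t : F) (n₀ : Set F),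
    FinSupp K F → ChartData A V₁ V₂ t → PointData A (BB K V₁ V₂ t) n₀ →
    ∀ x ∈ V₁, x ∈ V₂ →
      (∀ P : Place K F, Centred₀ A (BB K V₁ V₂ t) n₀ P → x ∈ P.toValuationSubring) →
      x ∈ locR (BB K V₁ V₂ t) n₀

/-- (L2-SEP), (L2-UNIF) -/
def Stmt_L2Sep : Prop :=
  ∀ (K F : Type) [Field K] [IsAlgClosed K] [CharZero K] [Field F] [Algebra K F]
    (A : ValuationSubring K) (V₁ V₂ : ValuationSubring F) (t : F) (n₀ : Set F),
    ChartData A V₁ V₂ t → PointData A (BB K V₁ V₂ t) n₀ →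
    (∀ P P' : Place K F, Centred₀ A (BB K V₁ V₂ t) n₀ P → Centred₀ A (BB K V₁ V₂ t) n₀ P' →
      (∀ x ∈ BB K V₁ V₂ t, val P x = val P' x) → P = P') ∧
    (∀ P : Place K F, Centred₀ A (BB K V₁ V₂ t) n₀ P →
      ∃ x ∈ BB K V₁ V₂ t, P.ord (x - algebraMap K F (val P x)) = 1)

/-- OUTPUT (node): `LocData` from chart data.  Remaining obligations: `a b ∈ n₀` and (N1). -/
def Stmt_L2Node : Prop :=
  ∀ (K F : Type) [Field K] [IsAlgClosed K] [CharZero K] [Field F] [Algebra K F]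
    (A : ValuationSubring K) (V₁ V₂ : ValuationSubring F) (t : F) (n₀ : Set F) (a b : F),
    FinSupp K F → ChartData A V₁ V₂ t → PointData A (BB K V₁ V₂ t) n₀ →
    (∀ x ∈ BB K V₁ V₂ t, x ∈ V₁.nonunits → x ∈ n₀) →
    (∀ x ∈ BB K V₁ V₂ t, x ∈ V₂.nonunits → x ∈ n₀) →
    a ∈ n₀ → b ∈ n₀ →
    (∀ x ∈ n₀, ∃ x₁ ∈ locR (BB K V₁ V₂ t) n₀, ∃ x₂ ∈ locR (BB K V₁ V₂ t) n₀,
      ∃ x₃ ∈ locR (BB K V₁ V₂ t) n₀, ∃ μ ∈ A.nonunits,
        x = a * x₁ + b * x₂ + algebraMap K F μ * x₃) →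
    LocData A V₁ V₂ a b (locR (BB K V₁ V₂ t) n₀) (locN (BB K V₁ V₂ t) n₀)

/-- OUTPUT (smooth point of the component `V₁`): there is `z₀ ∈ BB \ n₀` with `|z₀|₂ < 1`. -/
def Stmt_L2Smooth : Prop :=
  ∀ (K F : Type) [Field K] [IsAlgClosed K] [CharZero K] [Field F] [Algebra K F]
    (A : ValuationSubring K) (V₁ V₂ : ValuationSubring F) (t : F) (n₀ : Set F) (τ z₀ : F),
    FinSupp K F → Arch A → ChartData A V₁ V₂ t → PointData A (BB K V₁ V₂ t) n₀ →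
    (∀ x ∈ BB K V₁ V₂ t, x ∈ V₁.nonunits → x ∈ n₀) →
    z₀ ∈ BB K V₁ V₂ t → z₀ ∉ n₀ → z₀ ∈ V₂.nonunits →
    τ ∈ n₀ →
    (∀ x ∈ n₀, ∃ x₁ ∈ locR (BB K V₁ V₂ t) n₀, ∃ x₃ ∈ locR (BB K V₁ V₂ t) n₀, ∃ μ ∈ A.nonunits,
        x = τ * x₁ + algebraMap K F μ * x₃) →
    LocData A V₁ V₁ τ τ (locR (BB K V₁ V₂ t) n₀) (locN (BB K V₁ V₂ t) n₀)

/-- (ISO) an automorphism preserving `W` all of whose orbits on `K` are finite is an isometry. -/
def Stmt_Iso : Prop :=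
  ∀ (K F : Type) [Field K] [Field F] [Algebra K F] (A : ValuationSubring K)
    (W : ValuationSubring F) (g : SemilinearAut K F), Gauss A W →
    (∀ x : F, g • x ∈ W ↔ x ∈ W) →
    (∀ c : K, ∃ m : ℕ, 0 < m ∧ (SemilinearAut.baseAut g ^ m) c = c) →
    ∀ x : F, W.valuation (g • x) = W.valuation x

end Fermat.Agent.MR.PL
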