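import Fermat.Agent.MR.PL.Interface2

/-!
# MR / PL, PL-L2INT : regular at all finite places `⟹` integral over `K[t]`
-/

set_option autoImplicit false

namespace Fermat.Agent.MR.PL

open AlgebraicCurve IntermediateField IsDedekindDomain
open Fermat.Agent.S24 (intRing xPoly)

theorem l2Int : Stmt_L2Int := by
  intro K F _ _ _ _ _ t ht hfin x hx
  have := S24.intRing_isDedekindDomain ht
  have := S24.intRing_isFractionRing (K := K) t
  have h : ∀ q : HeightOneSpectrum (intRing K t), q.valuation F x ≤ 1 := by
    intro q
    have hP := Place.ofHeightOneSpectrum_toValuationSubring (K := K) (F := F) q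
    have ht' : t ∈ (Place.ofHeightOneSpectrum (K := K) (F := F) q).toValuationSubring := by
      rw [hP, Valuation.mem_valuationSubring_iff]
      exact q.valuation_le_one
        (⟨t, isIntegral_algebraMap (x := xPoly K t)⟩ : intRing K t)
    have h2 := hx _ ht'
    rwa [hP, Valuation.mem_valuationSubring_iff] at h2
  obtain ⟨b, hb⟩ := HeightOneSpectrum.mem_integers_of_valuation_le_one F x h
  rw [← hb]
  exact b.2

end Fermat.Agent.MR.PL
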