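import Fermat.Agent.MR.PL.Interface2

/-!
# MR / PL : interface, part 3 (helper66): the form of Theorem PL which can be fed from `Skel.ResHyp`

`Stmt_PLB` wants ONE triple `(y, g, j)` with `σ u / u = y ^ j * g ^ p` exactly and `y` deep for both
norms.  The toolbox `ORD/Dep` (H90, KD, RepFix, Deepen) produces, for EACH norm separately,
`σ u / u = const * y * g ^ p`.  So:

* `Stmt_YC2` : (YC) with a constant, at one norm;
* `Stmt_PLC` : Theorem PL with the CONCLUSIONS of (YC) at the two norms as hypotheses.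
-/

set_option autoImplicit false

namespace Fermat.Agent.MR.PL

open AlgebraicCurve
open Fermat.Agent.RED (Ev)

/-- the residue field of the constants of `F₁` is closed under `p`-th roots. -/
def RootsMod {K F : Type} [Field K] [Field F] [Algebra K F] (p : ℕ) (A : ValuationSubring K)
    (F₁ : Subfield F) : Prop :=
  ∀ c : K, A.valuation c = 1 → ∃ b : K, algebraMap K F b ∈ F₁ ∧ A.valuation (b ^ p - c) < 1

/-- (YC2) `Y = σ u / u = const * y * g ^ p` is a constant modulo `< |w|`. -/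
def Stmt_YC2 : Prop :=
  ∀ (K F : Type) [Field K] [IsAlgClosed K] [Field F] [Algebra K F] (p : ℕ)
    (A : ValuationSubring K)
    (W : ValuationSubring F) (σ : SemilinearAut K F) (F₁ : Subfield F) (ζ g₁ a₀ : K),
    FieldData p A W σ F₁ ζ g₁ a₀ → RootsMod p A F₁ →
    ∀ (u y g : F) (c : K), u ∈ F₁ → y ∈ F₁ → g ∈ F₁ → u ≠ 0 → c ≠ 0 →
      σ • y = y → W.valuation (y - 1) < W.valuation (algebraMap K F (1 - ζ)) →
      σ • u / u = algebraMap K F c * y * g ^ p →
      ∃ C : K, A.valuation C = 1 ∧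
        W.valuation (σ • u / u - algebraMap K F C) < W.valuation (algebraMap K F (1 - ζ))

/-- (PLC) Theorem PL; `σ u / u` is a constant modulo `< |w|` for both norms. -/
def Stmt_PLC : Prop :=
  ∀ (K F : Type) [Field K] [Field F] [Algebra K F] (p : ℕ)
    (A : ValuationSubring K)
    (W₁ W₂ : ValuationSubring F) (a b : F) (ι : Type) (R : ι → Subring F) (n : ι → Set F)
    (H : Set (SemilinearAut K F)) (σ : SemilinearAut K F) (F₁ : Subfield F) (ζ g₁ a₀ : K),
    Setting p A W₁ W₂ a b → ResK K F →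
    (∀ s, LocData A W₁ W₂ a b (R s) (n s)) → (∀ s, N3 W₂ a (R s) (n s)) →
    FieldData p A W₁ σ F₁ ζ g₁ a₀ → FieldData p A W₂ σ F₁ ζ g₁ a₀ →
    σ • a = a → (∀ s, PresR σ (R s)) →
    (∀ h ∈ H, Pres h W₁ W₂ a b ∧ ∀ s, PresR h (R s)) →
    (∀ x : F, (∀ h ∈ H, h • x = x) → x ∈ F₁) →
    ∀ (u : F) (D : Divisor K F) (C₁ C₂ : K), u ≠ 0 → (∀ P, P.ord u = p * D P) →
      (∀ h ∈ H, h • u = u) → A.valuation C₁ = 1 → A.valuation C₂ = 1 →
      W₁.valuation (σ • u / u - algebraMap K F C₁) < W₁.valuation (algebraMap K F (1 - ζ)) →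
      W₂.valuation (σ • u / u - algebraMap K F C₂) < W₂.valuation (algebraMap K F (1 - ζ)) →
      ∃ δ : ℤ, ∀ s, ∃ m : ℤ, Shape K W₁ b (R s) (n s) u (δ + p * m)

end Fermat.Agent.MR.PL
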