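import Fermat.Agent.MR.PL.Interface

/-!
# MR / PL : PL-CONTR, the contraction lemma (helper93)

A twisted derivation `δ : R → K` killing `A`, `a`, `b` vanishes.
-/

set_option autoImplicit false

namespace Fermat.Agent.MR.PL

theorem CONTR_mul_lt {Γ : Type*} [LinearOrderedCommGroupWithZero Γ] {x w d : Γ} (hx : x < 1)
    (hw : w ≤ d) (hd : d ≠ 0) : x * w < d := by
  rcases eq_or_ne w 0 with rfl | hw0
  · rw [mul_zero]; exact zero_lt_iff.2 hd
  · calc x * w < 1 * w := mul_lt_mul_of_pos_right hx (zero_lt_iff.2 hw0)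
      _ = w := one_mul w
      _ ≤ d := hw

theorem CONTR_mul_le {Γ : Type*} [LinearOrderedCommGroupWithZero Γ] {x w d : Γ} (hx : x ≤ 1)
    (hw : w ≤ d) : x * w ≤ d := by
  calc x * w ≤ 1 * d := mul_le_mul' hx hw
    _ = d := one_mul d

theorem contr : Stmt_Contr := by
  intro K F _ _ _ A W₁ W₂ a b R n L φ φ' δ hφ hφ' hadd hmul hconst ha hb
  obtain ⟨S, hSR, hfg⟩ := L.fg
  have hle1 : ∀ c ∈ A, A.valuation c ≤ 1 := fun c hc => (A.valuation_le_one_iff c).2 hc
  have hlt1 : ∀ c ∈ A.nonunits, A.valuation c < 1 := fun c hc =>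
    (ValuationSubring.mem_nonunits_iff A).1 hc
  have hadjR : adj A (S : Set F) ≤ R := by
    unfold adj
    rw [Subring.closure_le]
    rintro x (⟨c, hc, rfl⟩ | hx)
    · exact L.const_mem c hc
    · exact hSR x hx
  have h0n : (0 : F) ∈ n := by
    have := L.n_mul 0 R.zero_mem a L.a_mem
    rwa [zero_mul] at this
  have hδ0 : δ 0 = 0 := by
    have := hconst 0 A.zero_mem
    rwa [map_zero] at this
  have hδ1 : δ 1 = 0 := by
    have := hconst 1 A.one_mem
    rwa [map_one] at this
  have hδneg : ∀ x ∈ R, δ (-x) = - δ x := by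
    intro x hx
    have := hadd x hx (-x) (R.neg_mem hx)
    rw [add_neg_cancel, hδ0] at this
    exact eq_neg_of_add_eq_zero_right this.symm
  have hunit : ∀ z ∈ R, z ∉ n → A.valuation (φ' z) = 1 := by
    intro z hz hzn
    have hz0 : z ≠ 0 := by
      rintro rfl
      exact hzn h0n
    have hzi : z⁻¹ ∈ R := L.inv_mem z hz hzn
    have h1 : φ' z * φ' z⁻¹ = 1 := by
      rw [← hφ'.mul z hz _ hzi, mul_inv_cancel₀ hz0]
      have := hφ'.const 1 A.one_mem
      rwa [map_one] at this
    have h2 := hle1 _ (hφ'.mem z hz)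
    have h3 := hle1 _ (hφ'.mem _ hzi)
    have h4 : A.valuation (φ' z) * A.valuation (φ' z⁻¹) = 1 := by rw [← map_mul, h1, map_one]
    refine le_antisymm h2 ?_
    calc (1 : A.ValueGroup) = A.valuation (φ' z) * A.valuation (φ' z⁻¹) := h4.symm
      _ ≤ A.valuation (φ' z) * 1 := mul_le_mul' le_rfl h3
      _ = A.valuation (φ' z) := mul_one _
  -- the bound propagates from `S` to `R`
  have key : ∀ d : A.ValueGroup, (∀ s ∈ S, A.valuation (δ s) ≤ d) →
      ∀ x ∈ R, A.valuation (δ x) ≤ d := by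
    intro d hd
    have claimA : ∀ y ∈ adj A (S : Set F), A.valuation (δ y) ≤ d := by
      intro y hy
      unfold adj at hy
      induction hy using Subring.closure_induction with
      | mem x hx =>
        rcases hx with ⟨c, hc, rfl⟩ | hx
        · rw [hconst c hc, map_zero]; exact zero_le
        · exact hd x hx
      | zero => rw [hδ0, map_zero]; exact zero_le
      | one => rw [hδ1, map_zero]; exact zero_le
      | add x y hx hy ihx ihy =>
        rw [hadd x (hadjR hx) y (hadjR hy)]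
        exact Valuation.map_add_le _ ihx ihy
      | neg x hx ihx =>
        rw [hδneg x (hadjR hx), Valuation.map_neg]
        exact ihx
      | mul x y hx hy ihx ihy =>
        rw [hmul x (hadjR hx) y (hadjR hy)]
        refine Valuation.map_add_le _ ?_ ?_
        · rw [map_mul]
          exact CONTR_mul_le (hle1 _ (hφ.mem x (hadjR hx))) ihy
        · rw [map_mul]
          exact CONTR_mul_le (hle1 _ (hφ'.mem y (hadjR hy))) ihx
    intro x hx
    obtain ⟨y, hy, z, hz, hzn, hxz⟩ := hfg x hx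
    have h1 : δ y = φ x * δ z + φ' z * δ x := by rw [← hxz, hmul x hx z (hadjR hz)]
    have h2 : φ' z * δ x = δ y - φ x * δ z := by rw [h1]; ring
    have h3 : A.valuation (δ x) = A.valuation (δ y - φ x * δ z) := by
      rw [← h2, map_mul, hunit z (hadjR hz) hzn, one_mul]
    rw [h3]
    refine Valuation.map_sub_le _ (claimA y hy) ?_
    rw [map_mul]
    exact CONTR_mul_le (hle1 _ (hφ.mem x hx)) (claimA z hz)
  -- contraction
  have step : ∀ d : A.ValueGroup, d ≠ 0 → (∀ s ∈ S, A.valuation (δ s) ≤ d) →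
      ∀ s ∈ S, A.valuation (δ s) < d := by
    intro d hd0 hd s hs
    have hB := key d hd
    have hsR := hSR s hs
    obtain ⟨c, hc, hsc⟩ := L.res s hsR
    obtain ⟨x₁, hx₁, x₂, hx₂, x₃, hx₃, μ, hμ, e⟩ := L.gen _ hsc
    have hμA : μ ∈ A := (A.valuation_le_one_iff μ).1 (hlt1 μ hμ).le
    have haR := L.n_sub a L.a_mem
    have hbR := L.n_sub b L.b_mem
    have hcR := L.const_mem c hc
    have hμR := L.const_mem μ hμA
    have h1 : δ s = δ (s - algebraMap K F c) := by
      have := hadd _ (L.n_sub _ hsc) _ hcR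
      rw [sub_add_cancel, hconst c hc, add_zero] at this
      exact this
    have h2 : δ s = φ a * δ x₁ + φ b * δ x₂ + μ * δ x₃ := by
      rw [h1, e, hadd _ (R.add_mem (R.mul_mem haR hx₁) (R.mul_mem hbR hx₂)) _ (R.mul_mem hμR hx₃),
        hadd _ (R.mul_mem haR hx₁) _ (R.mul_mem hbR hx₂), hmul a haR x₁ hx₁, hmul b hbR x₂ hx₂,
        hmul _ hμR x₃ hx₃, ha, hb, hconst μ hμA, hφ.const μ hμA]
      ring
    rw [h2]
    refine Valuation.map_add_lt _ (Valuation.map_add_lt _ ?_ ?_) ?_
    · rw [map_mul]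
      exact CONTR_mul_lt (hlt1 _ (hφ.small a L.a_mem)) (hB x₁ hx₁) hd0
    · rw [map_mul]
      exact CONTR_mul_lt (hlt1 _ (hφ.small b L.b_mem)) (hB x₂ hx₂) hd0
    · rw [map_mul]
      exact CONTR_mul_lt (hlt1 _ hμ) (hB x₃ hx₃) hd0
  -- conclusion
  have hzero : ∀ s ∈ S, A.valuation (δ s) ≤ 0 := by
    rcases S.eq_empty_or_nonempty with rfl | hne
    · intro s hs
      exact absurd hs (Finset.notMem_empty s)
    · obtain ⟨s₀, hs₀, hmax⟩ := Finset.exists_max_image S (fun s => A.valuation (δ s)) hne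
      by_cases hd0 : A.valuation (δ s₀) = 0
      · intro s hs
        rw [← hd0]
        exact hmax s hs
      · exact absurd (step _ hd0 hmax s₀ hs₀) (lt_irrefl _)
  intro x hx
  have := key 0 hzero x hx
  exact (Valuation.zero_iff _).1 (le_zero_iff.1 this)

end Fermat.Agent.MR.PL
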