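import Fermat.Agent.MR.PL.Interface2

/-!
# MR / PL : the local block at one node (`Stmt_Core`)
-/

set_option autoImplicit false

namespace Fermat.Agent.MR.PL

open AlgebraicCurve
open Fermat.Agent.RED (Ev)

theorem CORE_cpart_apply {K F : Type} [Field K] [Field F] [Algebra K F]
    (A : ValuationSubring K) (R : Subring F) (n : Set F) (D : Divisor K F) (P : Place K F)
    (h : Centred A R n P) : cpart A R n D P = D P := by
  classical
  unfold cpart
  rw [Finsupp.filter_apply, if_pos h]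

theorem CORE_cpart_apply_not {K F : Type} [Field K] [Field F] [Algebra K F]
    (A : ValuationSubring K) (R : Subring F) (n : Set F) (D : Divisor K F) (P : Place K F)
    (h : ¬ Centred A R n P) : cpart A R n D P = 0 := by
  classical
  unfold cpart
  rw [Finsupp.filter_apply, if_neg h]

theorem core (hw : Stmt_WDec) (hs : Stmt_MSmul) (hsl : Stmt_SL) (hm1 : Stmt_M1) (hm2 : Stmt_M2)
    (hf : Stmt_HFix) : Stmt_Core := by
  intro K F _ _ _ p A W₁ W₂ a b R n H S hR L hN hH u D hu hD hHu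
  have hE1 : ∀ P, Centred A R n P → ((p : ℤ) • cpart A R n D) P = P.ord u := by
    intro P hP
    rw [Finsupp.smul_apply, CORE_cpart_apply A R n D P hP, hD P, smul_eq_mul]
  have hE2 : ∀ P, ¬ Centred A R n P → ((p : ℤ) • cpart A R n D) P = 0 := by
    intro P hP
    rw [Finsupp.smul_apply, CORE_cpart_apply_not A R n D P hP, smul_zero]
  have hE0 : ∀ P, ¬ Centred A R n P → (cpart A R n D) P = 0 :=
    fun P hP => CORE_cpart_apply_not A R n D P hP
  obtain ⟨c₀, k, r, hc₀, hr, hrn, hdec⟩ := hw K F p A W₁ W₂ a b R n S hR L hN u _ hu hE1 hE2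
  obtain ⟨hv2, hv1, hsh⟩ := hsl K F p A W₁ W₂ a b R n S L _ u r c₀ k hE2 hc₀ hr hrn hdec
  obtain ⟨hM, hZ, -⟩ := hs K F a (cpart A R n D) p
  rw [hM] at hdec
  rw [hZ] at hv1
  obtain ⟨hZne, hM1⟩ := hm1 K F p A W₁ W₂ a b R n S L _ hE0
  have hM2 := hm2 K F A W₁ W₂ a b R n S.g₂ L S.a_unit _ hE0
  refine ⟨c₀, k, r, hc₀, hr, hrn, hdec, hv2, hv1, hsh, hZne, hM2, hM1, ?_⟩
  intro h hh
  have hp : (p : ℤ) ≠ 0 := by
    intro h0
    apply S.p_ne
    have : p = 0 := by exact_mod_cast h0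
    rw [this]; simp
  refine hf K F A W₁ W₂ a b R n h S.g₁ L (hH h hh).1 (hH h hh).2 D ?_
  intro P
  apply mul_left_cancel₀ hp
  rw [← hD, ← hD]
  conv_lhs => rw [← hHu h hh]
  exact SemilinearAut.ord_smul h P u

end Fermat.Agent.MR.PL
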