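import Fermat.Agent.MR.PL.Interface2

/-!
# MR / PL : (L2-CEN) centred places of the localisation
-/

set_option autoImplicit false

namespace Fermat.Agent.MR.PL

open AlgebraicCurve IntermediateField
open Fermat.Agent.RED (Ev)

theorem l2Cen (h : Stmt_L2Ring) : Stmt_L2Cen := by
  intro K F _ _ _ A B n₀ hP P
  obtain ⟨-, hfrac, hN⟩ := h K F A B n₀ hP
  constructor
  · intro hc x hx
    obtain ⟨c, hcA, hev, hsm⟩ := hc x (Subring.subset_closure (Or.inl hx))
    exact ⟨c, hcA, hev, fun hxn => hsm ⟨x, hxn, 1, B.one_mem, hP.one_not_mem, by rw [div_one]⟩⟩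
  · intro hc x hx
    obtain ⟨y, hy, z, hz, hzn, rfl⟩ := (hfrac x).1 hx
    obtain ⟨cy, hcyA, hevy, hsmy⟩ := hc y hy
    obtain ⟨cz, -, hevz, -⟩ := hc z hz
    -- `cz` is a unit of `A`
    have hczu : A.valuation cz = 1 := by
      obtain ⟨c', hc'A, hc'n⟩ := hP.res z hz
      have hc'u : c' ∉ A.nonunits := by
        intro hc'
        apply hzn
        have := hP.add _ hc'n _ (hP.small c' hc')
        rwa [sub_add_cancel] at this
      obtain ⟨d, -, hevd, hsmd⟩ := hc (z - algebraMap K F c') (hP.sub _ hc'n)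
      have hd : d = cz - c' :=
        Fermat.Agent.RED.ev_unique hevd
          (Fermat.Agent.RED.ev_sub hevz (Fermat.Agent.RED.ev_const P c'))
      have hdn := hsmd hc'n
      rw [hd] at hdn
      have h1 : A.valuation c' = 1 := val_eq_one_iff_mem.2 ⟨hc'A, hc'u⟩
      have h2 : A.valuation (cz - c') < 1 := (ValuationSubring.mem_nonunits_iff A).1 hdn
      have h3 : cz = (cz - c') + c' := by ring
      rw [h3, Valuation.map_add_eq_of_lt_right _ (by rw [h1]; exact h2), h1]
    have hcz0 : cz ≠ 0 := by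
      rintro rfl
      simp at hczu
    refine ⟨cy / cz, ?_, Fermat.Agent.RED.ev_div hevy hevz hcz0, ?_⟩
    · rw [← ValuationSubring.valuation_le_one_iff, map_div₀, hczu, div_one]
      exact (ValuationSubring.valuation_le_one_iff _ _).2 hcyA
    · intro hxn
      have := hsmy ((hN y hy z hz hzn).1 hxn)
      rw [ValuationSubring.mem_nonunits_iff] at this ⊢
      rw [map_div₀, hczu, div_one]
      exact this

end Fermat.Agent.MR.PL
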