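import Fermat.Agent.MR.PL.Interface2

/-!
# MR / PL, layer 2 : (L2-KILL)

A place where `t` is regular and which is not centred at `n₀` is a zero of some `d ∈ BB \ n₀`.
-/

set_option autoImplicit false

namespace Fermat.Agent.MR.PL

open AlgebraicCurve IntermediateField
open Fermat.Agent.RED (Ev)

theorem l2Kill : Stmt_L2Kill := by
  intro K F _ _ _ _ _ A V₁ V₂ t n₀ C Pt P ht hnc
  have hfin := C.fin
  obtain ⟨ct, hct⟩ := RED.ev_exists t C.trans ht
  have htB : t ∈ BB K V₁ V₂ t :=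
    mem_BB.2 ⟨isIntegral_algebraMap (R := Algebra.adjoin K {t})
      (x := ⟨t, Algebra.subset_adjoin (Set.mem_singleton t)⟩), C.t_mem₁, C.t_mem₂⟩
  have hneg : ∀ x ∈ n₀, -x ∈ n₀ := fun x hx => by
    have := Pt.mul (-1) (neg_mem (one_mem _)) x hx
    rwa [neg_one_mul] at this
  have hsub : ∀ x ∈ n₀, ∀ y ∈ n₀, x - y ∈ n₀ := fun x hx y hy => by
    rw [sub_eq_add_neg]
    exact Pt.add x hx _ (hneg y hy)
  by_cases hA : ct ∈ A
  · have hev := (RED.stmt_EVINT K F A t C.trans C.fin P ct hct).1 hA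
    unfold Centred₀ at hnc
    push Not at hnc
    obtain ⟨y, hyB, hy⟩ := hnc
    obtain ⟨c', hc'A, hc'⟩ := hev y (C.int y hyB)
    obtain ⟨hyn, hc'u⟩ := hy c' hc'A hc'
    rw [RED.EV_mem_nonunits_iff, not_or, not_not] at hc'u
    obtain ⟨hc'0, hinv⟩ := hc'u
    refine ⟨y - algebraMap K F c', sub_mem hyB (Pt.const_mem c' hc'A), ?_, ?_⟩
    · intro hd
      have h1 : algebraMap K F c' ∈ n₀ := by
        have := hsub y hyn _ hd
        rwa [sub_sub_cancel] at this
      have h2 := Pt.mul (algebraMap K F c'⁻¹) (Pt.const_mem _ hinv) _ h1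
      rw [← map_mul, inv_mul_cancel₀ hc'0, map_one] at h2
      exact Pt.one_not_mem h2
    · have := RED.ev_sub hc' (RED.ev_const P c')
      rwa [sub_self] at this
  · have hct0 : ct ≠ 0 := by
      rintro rfl
      exact hA A.zero_mem
    have hsmall : ct⁻¹ ∈ A.nonunits := by
      rw [RED.EV_mem_nonunits_iff, inv_inv]
      exact Or.inr hA
    have h1 : algebraMap K F ct⁻¹ * t ∈ n₀ := by
      rw [mul_comm]
      exact Pt.mul t htB _ (Pt.small _ hsmall)
    refine ⟨1 - algebraMap K F ct⁻¹ * t, sub_mem (one_mem _) (Pt.sub _ h1), ?_, ?_⟩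
    · intro hd
      have := Pt.add _ hd _ h1
      rw [sub_add_cancel] at this
      exact Pt.one_not_mem this
    · have := RED.ev_sub (RED.ev_one P) (RED.ev_mul (RED.ev_const P ct⁻¹) hct)
      rwa [inv_mul_cancel₀ hct0, sub_self] at this

end Fermat.Agent.MR.PL
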