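import Fermat.Agent.MR.PL.Interface2

/-!
# MR / PL : the ring axioms of `LocData` for `(locR, locN)`
-/

set_option autoImplicit false

namespace Fermat.Agent.MR.PL

open AlgebraicCurve IntermediateField
open Fermat.Agent.RED (Ev)

section

variable {K F : Type} [Field K] [Field F] [Algebra K F] {A : ValuationSubring K} {B : Subring F}
  {n₀ : Set F}

theorem L2LOC_zero_mem (PD : PointData A B n₀) : (0 : F) ∈ n₀ := by
  have := PD.small 0 (Fermat.Agent.RED.EV_zero_mem_nonunits A)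
  rwa [map_zero] at this

theorem L2LOC_ne_zero (PD : PointData A B n₀) {z : F} (hz : z ∉ n₀) : z ≠ 0 := by
  rintro rfl
  exact hz (L2LOC_zero_mem PD)

theorem L2LOC_neg_mem (PD : PointData A B n₀) {x : F} (hx : x ∈ n₀) : -x ∈ n₀ := by
  have := PD.mul (-1) (B.neg_mem B.one_mem) x hx
  rwa [neg_one_mul] at this

theorem L2LOC_sub_mem (PD : PointData A B n₀) {x y : F} (hx : x ∈ n₀) (hy : y ∈ n₀) :
    x - y ∈ n₀ := by
  rw [sub_eq_add_neg]
  exact PD.add x hx _ (L2LOC_neg_mem PD hy)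

/-- a unit of `A`. -/
theorem L2LOC_inv_mem {c : K} (hc : c ∈ A) (hc' : c ∉ A.nonunits) : c⁻¹ ∈ A := by
  have h1 : A.valuation c = 1 := val_eq_one_iff_mem.2 ⟨hc, hc'⟩
  rw [← ValuationSubring.valuation_le_one_iff, map_inv₀, h1, inv_one]

end

theorem l2Loc (h : Stmt_L2Ring) : Stmt_L2Loc := by
  intro K F _ _ _ A B n₀ PD
  obtain ⟨hprime, hfrac, hN⟩ := h K F A B n₀ PD
  have hmul : ∀ z ∈ B, ∀ z' ∈ B, z ∉ n₀ → z' ∉ n₀ → z * z' ∉ n₀ := by
    intro z hz z' hz' hzn hzn' hc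
    rcases hprime z hz z' hz' hc with h1 | h1
    · exact hzn h1
    · exact hzn' h1
  refine ⟨?_, ?_, ?_, ?_, ?_, ?_, ?_, ?_⟩
  · rintro x ⟨y, hy, z, hz, hzn, rfl⟩
    exact (hfrac _).2 ⟨y, PD.sub y hy, z, hz, hzn, rfl⟩
  · rintro _ ⟨y, hy, z, hz, hzn, rfl⟩ _ ⟨y', hy', z', hz', hzn', rfl⟩
    refine ⟨z' * y + z * y', PD.add _ (PD.mul z' hz' y hy) _ (PD.mul z hz y' hy'), z * z',
      B.mul_mem hz hz', hmul z hz z' hz' hzn hzn', ?_⟩
    have := L2LOC_ne_zero PD hzn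
    have := L2LOC_ne_zero PD hzn'
    field_simp
  · rintro x hx _ ⟨y', hy', z', hz', hzn', rfl⟩
    obtain ⟨y, hy, z, hz, hzn, rfl⟩ := (hfrac x).1 hx
    refine ⟨y * y', PD.mul y hy y' hy', z * z', B.mul_mem hz hz', hmul z hz z' hz' hzn hzn', ?_⟩
    rw [div_mul_div_comm]
  · rintro ⟨y, hy, z, hz, hzn, h1⟩
    have hz0 := L2LOC_ne_zero PD hzn
    have : y = z := by
      field_simp at h1
      exact h1.symm
    exact hzn (this ▸ hy)
  · intro x hx hxn
    obtain ⟨y, hy, z, hz, hzn, rfl⟩ := (hfrac x).1 hx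
    have hyn : y ∉ n₀ := fun hc => hxn ((hN y hy z hz hzn).2 hc)
    exact (hfrac _).2 ⟨z, hz, y, hy, hyn, by rw [inv_div]⟩
  · intro c hc
    exact (hfrac _).2 ⟨_, PD.const_mem c hc, 1, B.one_mem, PD.one_not_mem, by rw [div_one]⟩
  · intro x hx
    obtain ⟨y, hy, z, hz, hzn, rfl⟩ := (hfrac x).1 hx
    obtain ⟨c, hc, hyc⟩ := PD.res y hy
    obtain ⟨c', hc', hzc⟩ := PD.res z hz
    have hc'n : algebraMap K F c' ∉ n₀ := by
      intro hcon
      have := PD.add _ hzc _ hcon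
      rw [sub_add_cancel] at this
      exact hzn this
    have hc'u : c' ∉ A.nonunits := fun hcon => hc'n (PD.small c' hcon)
    have hc'0 : algebraMap K F c' ≠ 0 := L2LOC_ne_zero PD hc'n
    have hz0 := L2LOC_ne_zero PD hzn
    refine ⟨c * c'⁻¹, mul_mem hc (L2LOC_inv_mem hc' hc'u), ?_⟩
    refine ⟨algebraMap K F c' * (y - algebraMap K F c) - algebraMap K F c * (z - algebraMap K F c'),
      L2LOC_sub_mem PD (PD.mul _ (PD.const_mem c' hc') _ hyc) (PD.mul _ (PD.const_mem c hc) _ hzc),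
      z * algebraMap K F c', B.mul_mem hz (PD.const_mem c' hc'),
      hmul z hz _ (PD.const_mem c' hc') hzn hc'n, ?_⟩
    rw [map_mul, map_inv₀]
    field_simp
    ring
  · intro W hBW hBn
    have hunit : ∀ z ∈ B, z ∉ n₀ → W.valuation z = 1 := fun z hz hzn =>
      val_eq_one_iff_mem.2 ⟨hBW z hz, fun hc => hzn (hBn z hz hc)⟩
    refine ⟨fun x hx => ?_, fun x hx hxW => ?_⟩
    · obtain ⟨y, hy, z, hz, hzn, rfl⟩ := (hfrac x).1 hx
      rw [← ValuationSubring.valuation_le_one_iff, map_div₀, hunit z hz hzn, div_one,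
        ValuationSubring.valuation_le_one_iff]
      exact hBW y hy
    · obtain ⟨y, hy, z, hz, hzn, rfl⟩ := (hfrac x).1 hx
      rw [ValuationSubring.mem_nonunits_iff, map_div₀, hunit z hz hzn, div_one,
        ← ValuationSubring.mem_nonunits_iff] at hxW
      exact ⟨y, hBn y hy hxW, z, hz, hzn, rfl⟩

end Fermat.Agent.MR.PL
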