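import Fermat.Agent.MR.PL.Interface2

/-!
# MR / PL : `LocData` from chart data (PL-L2NODE, PL-L2SMOOTH; assembly)
-/

set_option autoImplicit false

namespace Fermat.Agent.MR.PL

open AlgebraicCurve IntermediateField
open Fermat.Agent.RED (Ev)

section

variable {K F : Type} [Field K] [Field F] [Algebra K F]

theorem L2Out_zero_mem {A : ValuationSubring K} {B : Subring F} {n₀ : Set F}
    (hP : PointData A B n₀) : (0 : F) ∈ n₀ := by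
  have h0 : (0 : K) ∈ A.nonunits := by
    rw [ValuationSubring.mem_nonunits_iff, map_zero]
    exact zero_lt_one
  have := hP.small 0 h0
  rwa [map_zero] at this

theorem L2Out_le {B : Subring F} {n₀ : Set F} {x : F} (hx : x ∈ B) : x ∈ locR B n₀ :=
  Subring.subset_closure (Or.inl hx)

theorem L2Out_inv_mem {B : Subring F} {n₀ : Set F} {z : F} (hz : z ∈ B) (hzn : z ∉ n₀) :
    z⁻¹ ∈ locR B n₀ :=
  Subring.subset_closure (Or.inr ⟨z, hz, hzn, rfl⟩)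

/-- the common part of the two assemblies. -/
theorem L2Out_mk [IsAlgClosed K] [CharZero K] (hr : Stmt_L2Ring) (hl : Stmt_L2Loc)
    (hc : Stmt_L2Cen) (hs : Stmt_L2Sep)
    (A : ValuationSubring K) (V₁ V₂ W₁ W₂ : ValuationSubring F) (t : F) (n₀ : Set F) (a b : F)
    (hC : ChartData A V₁ V₂ t) (hP : PointData A (BB K V₁ V₂ t) n₀)
    (hW₁ : ∀ x ∈ BB K V₁ V₂ t, x ∈ W₁) (hW₂ : ∀ x ∈ BB K V₁ V₂ t, x ∈ W₂)
    (hs₁ : ∀ x ∈ BB K V₁ V₂ t, x ∈ W₁.nonunits → x ∈ n₀)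
    (hs₂ : ∀ x ∈ BB K V₁ V₂ t, x ∈ W₂.nonunits → x ∈ n₀)
    (ha : a ∈ n₀) (hb : b ∈ n₀)
    (hgen : ∀ x ∈ n₀, ∃ x₁ ∈ locR (BB K V₁ V₂ t) n₀, ∃ x₂ ∈ locR (BB K V₁ V₂ t) n₀,
      ∃ x₃ ∈ locR (BB K V₁ V₂ t) n₀, ∃ μ ∈ A.nonunits,
        x = a * x₁ + b * x₂ + algebraMap K F μ * x₃)
    (hreg : ∀ x ∈ W₁, x ∈ W₂ →
      (∀ P : Place K F, Centred₀ A (BB K V₁ V₂ t) n₀ P → x ∈ P.toValuationSubring) →
      x ∈ locR (BB K V₁ V₂ t) n₀) :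
    LocData A W₁ W₂ a b (locR (BB K V₁ V₂ t) n₀) (locN (BB K V₁ V₂ t) n₀) := by
  obtain ⟨-, hfrac, hN⟩ := hr K F A _ n₀ hP
  obtain ⟨l1, l2, l3, l4, l5, l6, l7, l8⟩ := hl K F A _ n₀ hP
  have hcen := hc K F A _ n₀ hP
  obtain ⟨hsep, hunif⟩ := hs K F A V₁ V₂ t n₀ hC hP
  have h0 := L2Out_zero_mem hP
  have hmemN : ∀ y ∈ n₀, y ∈ locN (BB K V₁ V₂ t) n₀ := fun y hy =>
    ⟨y, hy, 1, Subring.one_mem _, hP.one_not_mem, by rw [div_one]⟩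
  refine
    { n_sub := l1, n_add := l2, n_mul := l3, one_not_mem := l4, inv_mem := l5, const_mem := l6
      le₁ := (l8 W₁ hW₁ hs₁).1, le₂ := (l8 W₂ hW₂ hs₂).1
      small₁ := (l8 W₁ hW₁ hs₁).2, small₂ := (l8 W₂ hW₂ hs₂).2
      res := l7, a_mem := hmemN a ha, b_mem := hmemN b hb
      gen := ?_, fg := ?_, reg := ?_, sep := ?_, unif := ?_ }
  · rintro x ⟨y, hy, z, hz, hzn, rfl⟩
    obtain ⟨x₁, h1, x₂, h2, x₃, h3, μ, hμ, rfl⟩ := hgen y hy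
    have hzi := L2Out_inv_mem hz hzn
    refine ⟨x₁ * z⁻¹, Subring.mul_mem _ h1 hzi, x₂ * z⁻¹, Subring.mul_mem _ h2 hzi, x₃ * z⁻¹,
      Subring.mul_mem _ h3 hzi, μ, hμ, ?_⟩
    rw [div_eq_mul_inv]
    ring
  · obtain ⟨S, hS, hSgen⟩ := hC.fg
    refine ⟨S, fun s hs => L2Out_le (hS s hs), fun x hx => ?_⟩
    obtain ⟨y, hy, z, hz, hzn, rfl⟩ := (hfrac x).1 hx
    refine ⟨y, hSgen y hy, z, hSgen z hz, ?_, ?_⟩
    · intro hzN
      have := (hN z hz 1 (Subring.one_mem _) hP.one_not_mem).1 (by rwa [div_one])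
      exact hzn this
    · have hz0 : z ≠ 0 := by
        rintro rfl
        exact hzn h0
      rw [div_mul_cancel₀ _ hz0]
  · intro x hx1 hx2 hx
    exact hreg x hx1 hx2 fun P hP' => hx P ((hcen P).2 hP')
  · intro P P' h h' hval
    exact hsep P P' ((hcen P).1 h) ((hcen P').1 h') fun x hx => hval x (L2Out_le hx)
  · intro P h
    obtain ⟨x, hx, hord⟩ := hunif P ((hcen P).1 h)
    exact ⟨x, L2Out_le hx, hord⟩

end

theorem l2Node (hr : Stmt_L2Ring) (hl : Stmt_L2Loc) (hc : Stmt_L2Cen) (hg : Stmt_L2Reg)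
    (hs : Stmt_L2Sep) : Stmt_L2Node := by
  intro K F _ _ _ _ _ A V₁ V₂ t n₀ a b hF hC hP hs₁ hs₂ ha hb hgen
  exact L2Out_mk hr hl hc hs A V₁ V₂ V₁ V₂ t n₀ a b hC hP (fun x hx => (mem_BB.1 hx).2.1)
    (fun x hx => (mem_BB.1 hx).2.2) hs₁ hs₂ ha hb hgen (hg K F A V₁ V₂ t n₀ hF hC hP)

theorem l2Smooth (hr : Stmt_L2Ring) (hl : Stmt_L2Loc) (hc : Stmt_L2Cen) (hg : Stmt_L2Reg)
    (hs : Stmt_L2Sep) : Stmt_L2Smooth := by
  intro K F _ _ _ _ _ A V₁ V₂ t n₀ τ z₀ hF hA hC hP hs₁ hz₀ hz₀n hz₀2 hτ hgen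
  have hB₁ : ∀ x ∈ BB K V₁ V₂ t, x ∈ V₁ := fun x hx => (mem_BB.1 hx).2.1
  refine L2Out_mk hr hl hc hs A V₁ V₂ V₁ V₁ t n₀ τ τ hC hP hB₁ hB₁ hs₁ hs₁ hτ hτ ?_ ?_
  · intro x hx
    obtain ⟨x₁, h1, x₃, h3, μ, hμ, rfl⟩ := hgen x hx
    exact ⟨x₁, h1, 0, Subring.zero_mem _, x₃, h3, μ, hμ, by ring⟩
  · intro x hx1 _ hx
    obtain ⟨hprime, -, -⟩ := hr K F A _ n₀ hP
    by_cases hx0 : x = 0
    · rw [hx0]; exact Subring.zero_mem _
    have hz0 : z₀ ≠ 0 := by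
      rintro rfl
      exact hz₀n (L2Out_zero_mem hP)
    obtain ⟨c, -, hcv⟩ := hC.g₂.exists_const hz0
    obtain ⟨e, -, hev⟩ := hC.g₂.exists_const hx0
    have hcA : c ∈ A.nonunits := by
      rw [← hC.g₂.const_mem_nonunits_iff, ValuationSubring.mem_nonunits_iff, ← hcv,
        ← ValuationSubring.mem_nonunits_iff]
      exact hz₀2
    obtain ⟨m, hm⟩ := hA c hcA e
    have hpow : z₀ ^ m ∈ BB K V₁ V₂ t ∧ z₀ ^ m ∉ n₀ := by
      clear hm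
      induction m with
      | zero => rw [pow_zero]; exact ⟨Subring.one_mem _, hP.one_not_mem⟩
      | succ m ih =>
        rw [pow_succ]
        refine ⟨Subring.mul_mem _ ih.1 hz₀, fun h => ?_⟩
        rcases hprime _ ih.1 _ hz₀ h with h | h
        · exact ih.2 h
        · exact hz₀n h
    have h2 : z₀ ^ m * x ∈ V₂ := by
      rw [← ValuationSubring.valuation_le_one_iff, map_mul, map_pow, hcv, hev, ← map_pow, ← map_mul,
        ← map_pow, ← map_mul, ValuationSubring.valuation_le_one_iff, hC.g₂.const_mem]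
      exact hm
    have h1 : z₀ ^ m * x ∈ V₁ := V₁.mul_mem _ _ (hB₁ _ hpow.1) hx1
    have h3 := hg K F A V₁ V₂ t n₀ hF hC hP _ h1 h2 (fun P hPc => by
      obtain ⟨c', -, hc', -⟩ := hPc _ hpow.1
      exact P.toValuationSubring.mul_mem _ _ (Fermat.Agent.RED.ev_mem hc') (hx P hPc))
    have h4 := Subring.mul_mem _ (L2Out_inv_mem hpow.1 hpow.2) h3
    rwa [inv_mul_cancel_left₀ (pow_ne_zero m hz0)] at h4

end Fermat.Agent.MR.PL
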