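import Fermat.Agent.MR.PL.Interface2

/-!
# MR / PL : PL-L2REG.  Bounded + regular at the centred places ⟹ in the local ring
-/

set_option autoImplicit false

namespace Fermat.Agent.MR.PL

open AlgebraicCurve IntermediateField
open Fermat.Agent.RED (Ev)

section

variable {K F : Type} [Field K] [Field F] [Algebra K F]

theorem L2REG_zero_mem {A : ValuationSubring K} {B : Subring F} {n₀ : Set F}
    (hP : PointData A B n₀) : (0 : F) ∈ n₀ := by
  have := hP.small 0 (Fermat.Agent.RED.EV_zero_mem_nonunits A)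
  rwa [map_zero] at this

theorem L2REG_pow_not_mem {A : ValuationSubring K} {B : Subring F} {n₀ : Set F}
    (hP : PointData A B n₀) (hprime : ∀ y ∈ B, ∀ z ∈ B, y * z ∈ n₀ → y ∈ n₀ ∨ z ∈ n₀) {y : F}
    (hy : y ∈ B) (hyn : y ∉ n₀) (k : ℕ) : y ^ k ∉ n₀ := by
  induction k with
  | zero => rw [pow_zero]; exact hP.one_not_mem
  | succ k ih =>
    rw [pow_succ]
    intro h
    rcases hprime _ (pow_mem hy k) _ hy h with h | h
    · exact ih h
    · exact hyn h

theorem L2REG_prod_not_mem {A : ValuationSubring K} {B : Subring F} {n₀ : Set F}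
    (hP : PointData A B n₀) (hprime : ∀ y ∈ B, ∀ z ∈ B, y * z ∈ n₀ → y ∈ n₀ ∨ z ∈ n₀)
    {ι : Type*} (s : Finset ι) (f : ι → F) (hf : ∀ i ∈ s, f i ∈ B) (hfn : ∀ i ∈ s, f i ∉ n₀) :
    ∏ i ∈ s, f i ∉ n₀ := by
  classical
  induction s using Finset.induction_on with
  | empty => rw [Finset.prod_empty]; exact hP.one_not_mem
  | insert a s ha ih =>
    rw [Finset.prod_insert ha]
    intro h
    rcases hprime _ (hf a (Finset.mem_insert_self a s)) _
      (Subring.prod_mem _ fun i hi => hf i (Finset.mem_insert_of_mem hi)) h with h | h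
    · exact hfn a (Finset.mem_insert_self a s) h
    · exact ih (fun i hi => hf i (Finset.mem_insert_of_mem hi))
        (fun i hi => hfn i (Finset.mem_insert_of_mem hi)) h

theorem L2REG_ord_pow (P : Place K F) (f : F) (k : ℕ) : P.ord (f ^ k) = k * P.ord f := by
  rw [← zpow_natCast, P.ord_zpow]

/-- the elements of `BB` are regular where `t` is regular. -/
theorem L2REG_BB_mem {V₁ V₂ : ValuationSubring F} {t b : F} (hb : b ∈ BB K V₁ V₂ t)
    (Q : Place K F) (ht : t ∈ Q.toValuationSubring) : b ∈ Q.toValuationSubring :=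
  Fermat.Agent.S24.intRing_le_valuationSubring Q ht ⟨b, (mem_BB.1 hb).1⟩

end

theorem l2Reg (hr : Stmt_L2Ring) (hk : Stmt_L2Kill) (hi : Stmt_L2Int) : Stmt_L2Reg := by
  classical
  intro K F _ _ _ _ _ A V₁ V₂ t n₀ hFS hC hP x hx1 hx2 hreg
  obtain ⟨hprime, hloc, -⟩ := hr K F A (BB K V₁ V₂ t) n₀ hP
  rcases eq_or_ne x 0 with rfl | hx0
  · exact Subring.zero_mem _
  obtain ⟨Dx, hDx⟩ := hFS x hx0
  have h0 : (0 : F) ∈ n₀ := L2REG_zero_mem hP
  have hd : ∀ P : Place K F, ∃ d ∈ BB K V₁ V₂ t, d ∉ n₀ ∧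
      (P.ord x < 0 → t ∈ P.toValuationSubring → 0 < P.ord d) := by
    intro P
    by_cases h : P.ord x < 0 ∧ t ∈ P.toValuationSubring
    · have hnc : ¬ Centred₀ A (BB K V₁ V₂ t) n₀ P := fun hc => by
        have := Fermat.Agent.S24.ord_nonneg_of_mem P (hreg P hc)
        omega
      obtain ⟨d, hdB, hdn, hev⟩ := hk K F A V₁ V₂ t n₀ hC hP P h.2 hnc
      have hd0 : d ≠ 0 := by
        rintro rfl
        exact hdn h0
      exact ⟨d, hdB, hdn, fun _ _ => (Fermat.Agent.RED.ev_zero_iff_ord hd0).1 hev⟩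
    · exact ⟨1, Subring.one_mem _, hP.one_not_mem, fun h1 h2 => absurd ⟨h1, h2⟩ h⟩
  choose d hdB hdn hdord using hd
  have hd0 : ∀ P, d P ≠ 0 := fun P h => hdn P (h ▸ h0)
  set e : Place K F → F := fun P => d P ^ (-(P.ord x)).toNat with he
  have heB : ∀ P, e P ∈ BB K V₁ V₂ t := fun P => pow_mem (hdB P) _
  have hen : ∀ P, e P ∉ n₀ := fun P => L2REG_pow_not_mem hP hprime (hdB P) (hdn P) _
  set Dd : F := ∏ P ∈ Dx.support, e P with hDd
  have hDdB : Dd ∈ BB K V₁ V₂ t := Subring.prod_mem _ fun P _ => heB P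
  have hDdn : Dd ∉ n₀ := L2REG_prod_not_mem hP hprime _ _ (fun P _ => heB P) (fun P _ => hen P)
  have hDd0 : Dd ≠ 0 := fun h => hDdn (h ▸ h0)
  have hclaim : ∀ Q : Place K F, t ∈ Q.toValuationSubring → Dd * x ∈ Q.toValuationSubring := by
    intro Q hQ
    by_cases hox : 0 ≤ Q.ord x
    · exact mul_mem (L2REG_BB_mem hDdB Q hQ) (Fermat.Agent.S24.mem_of_ord_nonneg Q hx0 hox)
    · rw [not_le] at hox
      have hQs : Q ∈ Dx.support := by
        rw [Finsupp.mem_support_iff, hDx]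
        exact hox.ne
      have e1 : Dd * x = (e Q * x) * ∏ P ∈ Dx.support.erase Q, e P := by
        rw [hDd, ← Finset.mul_prod_erase _ _ hQs]
        ring
      rw [e1]
      refine mul_mem ?_ (L2REG_BB_mem (Subring.prod_mem _ fun P _ => heB P) Q hQ)
      have heQ0 : e Q ≠ 0 := pow_ne_zero _ (hd0 Q)
      refine Fermat.Agent.S24.mem_of_ord_nonneg Q (mul_ne_zero heQ0 hx0) ?_
      rw [Q.ord_mul heQ0 hx0, he, L2REG_ord_pow, Int.toNat_of_nonneg (by omega)]
      have := hdord Q hox hQ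
      nlinarith
  have hint := hi K F t hC.trans hC.fin (Dd * x) hclaim
  have hB := mem_BB.1 hDdB
  have hyB : Dd * x ∈ BB K V₁ V₂ t := mem_BB.2 ⟨hint, mul_mem hB.2.1 hx1, mul_mem hB.2.2 hx2⟩
  exact (hloc x).2 ⟨Dd * x, hyB, Dd, hDdB, hDdn, by field_simp⟩

end Fermat.Agent.MR.PL
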