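import Fermat.Agent.MR.PL.Interface2
import Fermat.Agent.S24.PlacePrime

/-!
# MR / PL, task PL-L2SEP : (SEP) and (UNIF) for a chart
-/

set_option autoImplicit false

namespace Fermat.Agent.MR.PL

open AlgebraicCurve IntermediateField IsDedekindDomain
open Fermat.Agent.RED (Ev)
open Fermat.Agent.S24
open scoped IntermediateField.algebraAdjoinAdjoin

section Helpers

variable {K F : Type*} [Field K] [Field F] [Algebra K F]

theorem L2SEP_const_int (t : F) (c : K) : IsIntegral (Algebra.adjoin K {t}) (algebraMap K F c) :=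
  isIntegral_algebraMap (R := Algebra.adjoin K {t})
    (x := (⟨algebraMap K F c, Subalgebra.algebraMap_mem _ c⟩ : Algebra.adjoin K {t}))

theorem L2SEP_t_int (t : F) : IsIntegral (Algebra.adjoin K {t}) t :=
  isIntegral_algebraMap (R := Algebra.adjoin K {t})
    (x := (⟨t, Algebra.self_mem_adjoin_singleton K t⟩ : Algebra.adjoin K {t}))

/-- (SCALE) -/
theorem L2SEP_scale {A : ValuationSubring K} {V₁ V₂ : ValuationSubring F} {t : F}
    (g₁ : Gauss A V₁) (g₂ : Gauss A V₂) {r : F} (hr : IsIntegral (Algebra.adjoin K {t}) r)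
    (hr0 : r ≠ 0) : ∃ c : K, c ≠ 0 ∧ r / algebraMap K F c ∈ BB K V₁ V₂ t := by
  obtain ⟨c₁, hc₁, h₁⟩ := g₁.exists_const hr0
  obtain ⟨c₂, hc₂, h₂⟩ := g₂.exists_const hr0
  have hint : ∀ c : K, IsIntegral (Algebra.adjoin K {t}) (r / algebraMap K F c) := by
    intro c
    rw [div_eq_mul_inv, ← map_inv₀]
    exact hr.mul (L2SEP_const_int t c⁻¹)
  have hle : ∀ (V : ValuationSubring F) (c c' : K), c' ≠ 0 →
      V.valuation r = V.valuation (algebraMap K F c) →
      V.valuation (algebraMap K F c) ≤ V.valuation (algebraMap K F c') →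
      r / algebraMap K F c' ∈ V := by
    intro V c c' hc' h1 h2
    have h3 : V.valuation (algebraMap K F c') ≠ 0 :=
      (Valuation.ne_zero_iff _).2 ((map_ne_zero (algebraMap K F)).2 hc')
    rw [← ValuationSubring.valuation_le_one_iff, map_div₀, div_le_one₀ (zero_lt_iff.2 h3), h1]
    exact h2
  rcases le_total (A.valuation c₁) (A.valuation c₂) with h | h
  · exact ⟨c₂, hc₂, mem_BB.2 ⟨hint c₂, hle V₁ c₁ c₂ hc₂ h₁ ((g₁.val_le_iff _ _).2 h),
      hle V₂ c₂ c₂ hc₂ h₂ le_rfl⟩⟩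
  · exact ⟨c₁, hc₁, mem_BB.2 ⟨hint c₁, hle V₁ c₁ c₁ hc₁ h₁ le_rfl,
      hle V₂ c₂ c₁ hc₁ h₂ ((g₂.val_le_iff _ _).2 h)⟩⟩

theorem L2SEP_ord_div (P : Place K F) {r : F} (hr0 : r ≠ 0) {c : K} (hc : c ≠ 0) :
    P.ord (r / algebraMap K F c) = P.ord r := by
  have hc' : algebraMap K F c ≠ 0 := (map_ne_zero (algebraMap K F)).2 hc
  rw [div_eq_mul_inv, P.ord_mul hr0 (inv_ne_zero hc'), P.ord_inv, ord_algebraMap, neg_zero,
    add_zero]

/-- `r` vanishes at `P` iff the value of `r / c` is `0`. -/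
theorem L2SEP_pos_iff {A : ValuationSubring K} {B : Subring F} {n₀ : Set F} {P : Place K F}
    (hP : Centred₀ A B n₀ P) {r : F} (hr0 : r ≠ 0) {c : K} (hc : c ≠ 0)
    (hB : r / algebraMap K F c ∈ B) : 0 < P.ord r ↔ val P (r / algebraMap K F c) = 0 := by
  have hc' : algebraMap K F c ≠ 0 := (map_ne_zero (algebraMap K F)).2 hc
  rw [← L2SEP_ord_div P hr0 hc, ← Fermat.Agent.RED.ev_zero_iff_ord (div_ne_zero hr0 hc')]
  constructor
  · intro h
    exact val_eq h
  · intro h
    obtain ⟨c', -, hc', -⟩ := hP _ hB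
    have := ev_val ⟨c', hc'⟩
    rwa [h] at this

end Helpers

/-- **(L2-SEP), (L2-UNIF)** -/
theorem l2Sep : Stmt_L2Sep := by
  intro K F _ _ _ _ _ A V₁ V₂ t n₀ C _
  have hfd := C.fin
  have hDB := intRing_isDedekindDomain C.trans
  have hFB := intRing_isFractionRing (K := K) t
  have hKT : IsScalarTower K (intRing K t) F := IsScalarTower.of_algebraMap_eq fun _ => rfl
  have htBB : t ∈ BB K V₁ V₂ t := mem_BB.2 ⟨L2SEP_t_int t, C.t_mem₁, C.t_mem₂⟩
  have hq : ∀ P : Place K F, Centred₀ A (BB K V₁ V₂ t) n₀ P →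
      ∃ q : HeightOneSpectrum (intRing K t), P = Place.ofHeightOneSpectrum q := by
    intro P hP
    obtain ⟨c, -, hc, -⟩ := hP t htBB
    exact exists_heightOneSpectrum_of_le P fun r =>
      intRing_le_valuationSubring P (Fermat.Agent.RED.ev_mem hc) r
  constructor
  · intro P P' hP hP' hval
    obtain ⟨q, hq1⟩ := hq P hP
    obtain ⟨q', hq2⟩ := hq P' hP'
    have hqq : q = q' := by
      ext r
      rcases eq_or_ne r 0 with rfl | hr
      · simp
      have hr' : algebraMap (intRing K t) F r ≠ 0 := by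
        simpa using (IsFractionRing.injective (intRing K t) F).ne hr
      obtain ⟨c, hc, hB⟩ := L2SEP_scale (t := t) (r := algebraMap (intRing K t) F r)
        C.g₁ C.g₂ r.2 hr'
      rw [← ord_algebraMap_pos_iff (K := K) (F := F) q r hr,
        ← ord_algebraMap_pos_iff (K := K) (F := F) q' r hr, ← hq1, ← hq2,
        L2SEP_pos_iff hP hr' hc hB, L2SEP_pos_iff hP' hr' hc hB, hval _ hB]
    rw [hq1, hq2, hqq]
  · intro P hP
    obtain ⟨q, hq1⟩ := hq P hP
    obtain ⟨π, hπ⟩ := q.intValuation_exists_uniformizer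
    have hπ0 : π ≠ 0 := by
      rintro rfl
      rw [map_zero] at hπ
      exact WithZero.exp_ne_zero hπ.symm
    have hπ' : algebraMap (intRing K t) F π ≠ 0 := by
      simpa using (IsFractionRing.injective (intRing K t) F).ne hπ0
    have hord : P.ord (algebraMap (intRing K t) F π) = 1 := by
      rw [hq1, ord_ofHeightOneSpectrum q _ hπ', HeightOneSpectrum.valuation_of_algebraMap, hπ,
        WithZero.log_exp, neg_neg]
    obtain ⟨c, hc, hB⟩ := L2SEP_scale (t := t) (r := algebraMap (intRing K t) F π)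
      C.g₁ C.g₂ π.2 hπ'
    refine ⟨algebraMap (intRing K t) F π / algebraMap K F c, hB, ?_⟩
    have h1 : val P (algebraMap (intRing K t) F π / algebraMap K F c) = 0 :=
      (L2SEP_pos_iff hP hπ' hc hB).1 (by rw [hord]; exact one_pos)
    rw [h1, map_zero, sub_zero, L2SEP_ord_div P hπ' hc, hord]

end Fermat.Agent.MR.PL
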