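import Fermat.Agent.MR.PL.L2Ring
import Fermat.Agent.MR.PL.L2Loc
import Fermat.Agent.MR.PL.L2Cen
import Fermat.Agent.MR.PL.L2Int
import Fermat.Agent.MR.PL.L2Kill
import Fermat.Agent.MR.PL.L2Reg
import Fermat.Agent.MR.PL.L2Sep
import Fermat.Agent.MR.PL.L2Out

/-!
# MR / PL : layer 2 (`LocData` from chart data), UNCONDITIONALLY.
-/

set_option autoImplicit false

namespace Fermat.Agent.MR.PL

theorem all_L2Ring : Stmt_L2Ring := l2Ring
theorem all_L2Loc : Stmt_L2Loc := l2Loc all_L2Ring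
theorem all_L2Cen : Stmt_L2Cen := l2Cen all_L2Ring
theorem all_L2Int : Stmt_L2Int := l2Int
theorem all_L2Kill : Stmt_L2Kill := l2Kill
theorem all_L2Reg : Stmt_L2Reg := l2Reg all_L2Ring all_L2Kill all_L2Int
theorem all_L2Sep : Stmt_L2Sep := l2Sep
theorem all_L2Node : Stmt_L2Node := l2Node all_L2Ring all_L2Loc all_L2Cen all_L2Reg all_L2Sep
theorem all_L2Smooth : Stmt_L2Smooth :=
  l2Smooth all_L2Ring all_L2Loc all_L2Cen all_L2Reg all_L2Sep

end Fermat.Agent.MR.PL
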