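import Fermat.Agent.MR.PL.Interface2

/-!
# MR / PL : (L2-RING) localisation of a subring of a field at a point with residue field `A / 𝔪_A`
-/

set_option autoImplicit false

namespace Fermat.Agent.MR.PL

theorem l2Ring : Stmt_L2Ring := by
  intro K F _ _ _ A B n₀ h
  have h0 : (0 : F) ∈ n₀ := by
    have h1 := h.small 0 (by rw [A.mem_nonunits_iff, map_zero]; exact zero_lt_one)
    rwa [map_zero] at h1
  have hneg : ∀ x ∈ n₀, -x ∈ n₀ := fun x hx => by
    have h1 := h.mul (-1) (neg_mem (one_mem B)) x hx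
    rwa [neg_one_mul] at h1
  have hsub : ∀ x ∈ n₀, ∀ y ∈ n₀, x - y ∈ n₀ := fun x hx y hy => by
    rw [sub_eq_add_neg]
    exact h.add x hx _ (hneg y hy)
  have hunit : ∀ y ∈ B, y ∉ n₀ → ∀ c ∈ A, y - algebraMap K F c ∈ n₀ → A.valuation c = 1 := by
    intro y _ hyn c hc hyc
    refine le_antisymm ((A.valuation_le_one_iff c).2 hc) (not_lt.1 fun hlt => hyn ?_)
    have h1 := h.add _ hyc _ (h.small c ((A.mem_nonunits_iff).2 hlt))
    rwa [sub_add_cancel] at h1
  have hprime : ∀ y ∈ B, ∀ z ∈ B, y * z ∈ n₀ → y ∈ n₀ ∨ z ∈ n₀ := by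
    intro y hy z hz hyz
    by_contra hcon
    rw [not_or] at hcon
    obtain ⟨hyn, hzn⟩ := hcon
    obtain ⟨c, hc, hyc⟩ := h.res y hy
    obtain ⟨c', hc', hzc⟩ := h.res z hz
    have hv := hunit y hy hyn c hc hyc
    have hv' := hunit z hz hzn c' hc' hzc
    have hvv : A.valuation (c * c') = 1 := by rw [map_mul, hv, hv', one_mul]
    have hcc : (c * c')⁻¹ ∈ A := by
      rw [← A.valuation_le_one_iff, map_inv₀, hvv, inv_one]
    have hcc0 : c * c' ≠ 0 := by
      intro h0'
      rw [h0', map_zero] at hvv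
      exact zero_ne_one hvv
    have h1 : y * z - algebraMap K F (c * c') ∈ n₀ := by
      have e : y * z - algebraMap K F (c * c')
          = y * (z - algebraMap K F c') + algebraMap K F c' * (y - algebraMap K F c) := by
        rw [map_mul]
        ring
      rw [e]
      exact h.add _ (h.mul y hy _ hzc) _ (h.mul _ (h.const_mem c' hc') _ hyc)
    have h2 : algebraMap K F (c * c') ∈ n₀ := by
      have h3 := hsub _ hyz _ h1
      rwa [sub_sub_cancel] at h3
    have h3 := h.mul _ (h.const_mem _ hcc) _ h2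
    rw [← map_mul, inv_mul_cancel₀ hcc0, map_one] at h3
    exact h.one_not_mem h3
  have hne : ∀ z : F, z ∉ n₀ → z ≠ 0 := fun z hz h' => hz (h' ▸ h0)
  refine ⟨hprime, ?_, ?_⟩
  · intro x
    constructor
    · intro hx
      unfold locR at hx
      induction hx using Subring.closure_induction with
      | mem x hx =>
        rcases hx with hx | ⟨z, hz, hzn, rfl⟩
        · exact ⟨x, hx, 1, one_mem B, h.one_not_mem, by rw [div_one]⟩
        · exact ⟨1, one_mem B, z, hz, hzn, by rw [one_div]⟩
      | zero => exact ⟨0, zero_mem B, 1, one_mem B, h.one_not_mem, by rw [div_one]⟩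
      | one => exact ⟨1, one_mem B, 1, one_mem B, h.one_not_mem, by rw [div_one]⟩
      | add x x' _ _ hx hx' =>
        obtain ⟨y, hy, z, hz, hzn, rfl⟩ := hx
        obtain ⟨y', hy', z', hz', hzn', rfl⟩ := hx'
        refine ⟨y * z' + y' * z, add_mem (mul_mem hy hz') (mul_mem hy' hz), z * z',
          mul_mem hz hz', fun hc => (hprime z hz z' hz' hc).elim hzn hzn', ?_⟩
        have hz0 := hne z hzn
        have hz0' := hne z' hzn'
        field_simp
      | neg x _ hx =>
        obtain ⟨y, hy, z, hz, hzn, rfl⟩ := hx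
        exact ⟨-y, neg_mem hy, z, hz, hzn, by rw [neg_div]⟩
      | mul x x' _ _ hx hx' =>
        obtain ⟨y, hy, z, hz, hzn, rfl⟩ := hx
        obtain ⟨y', hy', z', hz', hzn', rfl⟩ := hx'
        exact ⟨y * y', mul_mem hy hy', z * z', mul_mem hz hz',
          fun hc => (hprime z hz z' hz' hc).elim hzn hzn', by rw [div_mul_div_comm]⟩
    · rintro ⟨y, hy, z, hz, hzn, rfl⟩
      rw [div_eq_mul_inv]
      exact mul_mem (Subring.subset_closure (Or.inl hy))
        (Subring.subset_closure (Or.inr ⟨z, hz, hzn, rfl⟩))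
  · intro y hy z hz hzn
    constructor
    · rintro ⟨y', hy', z', hz', hzn', e⟩
      have hz0 := hne z hzn
      have hz0' := hne z' hzn'
      have e' : y * z' = z * y' := by
        rw [div_eq_div_iff hz0 hz0'] at e
        rw [e, mul_comm]
      have h1 : y * z' ∈ n₀ := by
        rw [e']
        exact h.mul z hz y' hy'
      exact (hprime y hy z' hz' h1).resolve_right hzn'
    · intro hyn
      exact ⟨y, hyn, z, hz, hzn, rfl⟩

end Fermat.Agent.MR.PL
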